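import Fermat.Prelude.Def_CuspForm_HeckeGaloisRepDatum

/-!
# GR-H : interface consumed by the assembly module

`TateData N p` = everything the assembly needs to know about the `p`-adic Tate module of `J₀(N)`:
a finite free `ℤ`-module `Λ` (think `Hom(Γ₀(N)/⟨ell,par⟩, ℤ)`) with an action of the FULL Hecke
algebra and an involution `conj`, and for every `k` the Galois action on `Λ/p^k Λ ≃ M_{p^k}(ℚ̄)`,
recorded through arbitrary `ℤ`-linear lifts `gal k σ : End Λ` (only their classes mod `p^k` matter).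
-/

set_option autoImplicit false

open scoped TensorProduct

namespace Fermat.Agent.GR.H

/-- The absolute Galois group of `ℚ`. -/
abbrev GQ : Type := AlgebraicClosure ℚ ≃ₐ[ℚ] AlgebraicClosure ℚ

/-- The full Hecke algebra `ℤ[T_ℓ (ℓ ∤ N), U_q (q ∣ N)] ⊆ End_ℂ S₂(Γ₀(N))`. -/
abbrev HeckeFull (N : ℕ) [NeZero N] : Type := ↥(CuspForm.heckeAlgebra N 2 (∅ : Set ℕ))

/-- The operator `T_ℓ` in the full Hecke algebra. -/
noncomputable abbrev HeckeFull.T {N : ℕ} [NeZero N] {ℓ : ℕ} (hℓ : ℓ.Prime) (hℓN : ¬ ℓ ∣ N) :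
    HeckeFull N :=
  CuspForm.heckeAlgebra.T hℓ hℓN (Set.notMem_empty ℓ)

/-- `f ≡ g mod m` for endomorphisms of an abelian group. -/
def EndCong {Λ : Type} [AddCommGroup Λ] (m : ℕ) (f g : Module.End ℤ Λ) : Prop :=
  ∃ h : Module.End ℤ Λ, f - g = (m : ℤ) • h

/-- The `lam`-eigenspace of the Hecke algebra in `R ⊗ Λ`. -/
def eigenSub {𝕋 Λ : Type} [CommRing 𝕋] [AddCommGroup Λ] (hecke : 𝕋 →+* Module.End ℤ Λ)
    (R : Type) [CommRing R] (lam : 𝕋 →+* R) : Submodule R (R ⊗[ℤ] Λ) :=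
  ⨅ t : 𝕋, LinearMap.ker ((hecke t).baseChange R - lam t • LinearMap.id)

/-- The part of the `lam`-eigenspace on which the involution `conj` acts by the sign `s`. -/
def eigenSubSign {𝕋 Λ : Type} [CommRing 𝕋] [AddCommGroup Λ] (hecke : 𝕋 →+* Module.End ℤ Λ)
    (conj : Module.End ℤ Λ) (R : Type) [CommRing R] (lam : 𝕋 →+* R) (s : ℤˣ) :
    Submodule R (R ⊗[ℤ] Λ) :=
  eigenSub hecke R lam ⊓ LinearMap.ker (conj.baseChange R - (((s : ℤ) : R)) • LinearMap.id)

/-- INTERFACE (delivered by GR-A, GR-B, GR-C, GR-F). -/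
structure TateData (N : ℕ) [NeZero N] (p : ℕ) : Type 1 where
  Λ : Type
  [instAddCommGroup : AddCommGroup Λ]
  [instFree : Module.Free ℤ Λ]
  [instFinite : Module.Finite ℤ Λ]
  /-- action of the full Hecke algebra (GR-B) -/
  hecke : HeckeFull N →+* Module.End ℤ Λ
  /-- the involution induced by complex conjugation (GR-A/B: `- charInvolution`) -/
  conj : Module.End ℤ Λ
  conj_mul_conj : conj * conj = 1
  conj_comm : ∀ t, conj * hecke t = hecke t * conj
  /-- S21 + multiplicity one: each sign part of each complex eigenspace is a line (GR-B) -/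
  eigen_dim : ∀ (μ : HeckeFull N →+* ℂ) (s : ℤˣ),
    Module.finrank ℂ (eigenSubSign hecke conj ℂ μ s) = 1
  /-- lifts of the Galois action on `Λ/p^k` (GR-C) -/
  gal : ℕ → GQ → Module.End ℤ Λ
  gal_one : ∀ k, EndCong (p ^ k) (gal k 1) 1
  gal_mul : ∀ k σ τ, EndCong (p ^ k) (gal k (σ * τ)) (gal k σ * gal k τ)
  gal_succ : ∀ k σ, EndCong (p ^ k) (gal (k + 1) σ) (gal k σ)
  gal_hecke : ∀ k σ t, EndCong (p ^ k) (gal k σ * hecke t) (hecke t * gal k σ)
  gal_level : ∀ k, ∃ L : IntermediateField ℚ (AlgebraicClosure ℚ), FiniteDimensional ℚ L ∧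
    ∀ σ : GQ, (∀ x ∈ L, σ x = x) → EndCong (p ^ k) (gal k σ) 1
  /-- some element of `G_ℚ` (a complex conjugation) acts as `conj` (GR-C) -/
  gal_conj : ∃ c : GQ, ∀ k, EndCong (p ^ k) (gal k c) conj
  /-- unramified outside `Np` (GR-F) -/
  gal_unram : ∀ q : ℕ, q.Prime → ¬ q ∣ N → q ≠ p →
    ∀ A : ValuationSubring (AlgebraicClosure ℚ), A.LiesOverPrime q →
      ∀ σ ∈ A.inertiaSubgroupIn ℚ, ∀ k, EndCong (p ^ k) (gal k σ) 1
  /-- Eichler–Shimura relation (GR-F) -/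
  gal_frob : ∀ (ℓ : ℕ) (hℓ : ℓ.Prime) (hℓN : ¬ ℓ ∣ N), ℓ ≠ p →
    ∀ A : ValuationSubring (AlgebraicClosure ℚ), A.LiesOverPrime ℓ →
      ∀ σ : GQ, A.IsFrobeniusAt σ ℓ → ∀ k,
        EndCong (p ^ k)
          (gal k σ * gal k σ - hecke (HeckeFull.T hℓ hℓN) * gal k σ + (ℓ : ℤ) • 1) 0

attribute [instance] TateData.instAddCommGroup TateData.instFree TateData.instFinite

/-- INTERFACE (delivered by GR-G): Frobenius' density theorem, existence form, in the language of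
the frozen statements: on a given finite extension `L`, every `g` is a power of a Frobenius element
`τ` at a prime outside `S`, and `τ` is a power of `g`. -/
def FrobeniusDensity : Prop :=
  ∀ (L : IntermediateField ℚ (AlgebraicClosure ℚ)), FiniteDimensional ℚ L →
    ∀ (S : Finset ℕ) (g : GQ),
      ∃ (ℓ : ℕ) (A : ValuationSubring (AlgebraicClosure ℚ)) (τ : GQ),
        ℓ.Prime ∧ ℓ ∉ S ∧ A.LiesOverPrime ℓ ∧ A.IsFrobeniusAt τ ℓ ∧
          (∃ k : ℕ, ∀ x ∈ L, (τ ^ k) x = g x) ∧ (∃ j : ℕ, ∀ x ∈ L, (g ^ j) x = τ x)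

end Fermat.Agent.GR.H
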