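import Fermat.Agent.GR.H.Iface
import Fermat.Agent.S22
import Fermat.Agent.S23
import Fermat.Agent.S49.Lattice

/-! # GR-H, piece H-MULT : multiplicity one for the full Hecke algebra (helper file)

For every ring homomorphism `μ : HeckeFull N →+* ℂ` the `μ`-eigenspace in `S₂(Γ₀(N))` is a line.
* `≤ 1` : the pairing `(t, f) ↦ a₁(t f)` is nondegenerate on the right (`q`-expansion principle);
* `≠ ⊥` : a `ℤ`-basis of the Hecke algebra is `ℂ`-linearly independent in `End_ℂ S₂` (integral
  structure), so `f ↦ (t ↦ a₁(t f))` is onto `Hom_ℤ(𝕋, ℂ)`.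
-/

set_option autoImplicit false

open CongruenceSubgroup ModularFormClass

namespace Fermat.Agent.GR.H

namespace EigenCharMult

variable {N : ℕ} [NeZero N]

/-- the `n`-th `q`-coefficient as a linear functional -/
noncomputable def qCoeffLin (N : ℕ) (n : ℕ) : CuspForm (Gamma0 N) 2 →ₗ[ℂ] ℂ where
  toFun f := qCoeff f n
  map_add' f g := S49.qCoeff_add f g n
  map_smul' c f := S49.qCoeff_smul c f n

omit [NeZero N] in
theorem qCoeffLin_apply (n : ℕ) (f : CuspForm (Gamma0 N) 2) : qCoeffLin N n f = qCoeff f n := rfl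

/-- nondegeneracy of `(t, h) ↦ a₁(t h)` in `h`. -/
theorem eq_zero_of_forall_qCoeff_one (h : CuspForm (Gamma0 N) 2)
    (H : ∀ t : HeckeFull N,
      qCoeffLin N 1 ((t : Module.End ℂ (CuspForm (Gamma0 N) 2)) h) = 0) : h = 0 := by
  have key : ∀ n : ℕ, 0 < n → ∀ t : HeckeFull N,
      qCoeffLin N n ((t : Module.End ℂ (CuspForm (Gamma0 N) 2)) h) = 0 := by
    intro n
    induction n using Nat.strong_induction_on with
    | _ n ih =>
      intro hn t
      rcases Nat.lt_or_ge 1 n with h1 | h1
      · obtain ⟨p, hp, m, rfl⟩ := Nat.exists_prime_and_dvd h1.ne'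
        have hm : 0 < m := Nat.pos_of_ne_zero (by rintro rfl; simp at hn)
        have hlt : m < p * m := by
          have := hp.one_lt
          nlinarith
        by_cases hpN : p ∣ N
        · have h2 := ih m hlt hm (CuspForm.heckeAlgebra.U hp hpN (Set.notMem_empty p) * t)
          rw [MulMemClass.coe_mul, CuspForm.heckeAlgebra.coe_U, Module.End.mul_apply,
            qCoeffLin_apply, S49.qCoeff_heckeULin hp.ne_zero hpN] at h2
          rw [qCoeffLin_apply, mul_comm]
          exact h2
        · have h2 := ih m hlt hm (CuspForm.heckeAlgebra.T hp hpN (Set.notMem_empty p) * t)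
          rw [MulMemClass.coe_mul, CuspForm.heckeAlgebra.coe_T, Module.End.mul_apply,
            qCoeffLin_apply, S49.qCoeff_heckeTLin hp hpN] at h2
          rw [qCoeffLin_apply, mul_comm]
          by_cases hd : p ∣ m
          · have hpos : 0 < m / p := Nat.div_pos (Nat.le_of_dvd hm hd) hp.pos
            have hlt' : m / p < p * m := lt_of_le_of_lt (Nat.div_le_self m p) hlt
            have h3 := ih (m / p) hlt' hpos t
            rw [qCoeffLin_apply] at h3
            rw [if_pos hd, h3, mul_zero, add_zero] at h2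
            exact h2
          · rw [if_neg hd, add_zero] at h2
            exact h2
      · have : n = 1 := by omega
        subst this
        exact H t
  apply S49.eq_zero_of_qCoeff
  intro n
  rcases Nat.eq_zero_or_pos n with rfl | hn
  · exact S49.qCoeff_idx_zero h
  · have := key n hn 1
    simpa [qCoeffLin_apply] using this

/-- A `ℤ`-linearly independent family in the Hecke algebra is `ℂ`-linearly independent in
`End_ℂ S₂(Γ₀(N))` (this is where the integral structure enters). -/
theorem linearIndependent_complex {ι : Type*} (b : ι → HeckeFull N)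
    (hb : LinearIndependent ℤ b) :
    LinearIndependent ℂ
      (fun i => ((b i : HeckeFull N) : Module.End ℂ (CuspForm (Gamma0 N) 2))) := by
  let _ : Module ℚ (Module.End ℂ (CuspForm (Gamma0 N) 2)) :=
    Module.compHom _ (algebraMap ℚ ℂ)
  have hQ : LinearIndependent ℚ
      (fun i => ((b i : HeckeFull N) : Module.End ℂ (CuspForm (Gamma0 N) 2))) := by
    rw [← LinearIndependent.iff_fractionRing ℤ ℚ]
    exact hb.map' (Subalgebra.val _).toLinearMap
      (LinearMap.ker_eq_bot.2 Subtype.val_injective)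
  rw [linearIndependent_iff']
  intro s c hc i hi
  rw [← Module.forall_dual_apply_eq_zero_iff ℚ]
  intro φ
  refine linearIndependent_iff'.1 hQ s (fun j => φ (c j)) ?_ i hi
  refine LinearMap.ext_on (S23.result N) fun f hf => ?_
  apply S49.eq_zero_of_qCoeff
  intro n
  have hmem : ∀ j, ((b j : HeckeFull N) : Module.End ℂ (CuspForm (Gamma0 N) 2)) f ∈
      CuspForm.intLattice N 2 := fun j =>
    CuspForm.mem_intLattice_of_mem_heckeAlgebra one_le_two (b j).2 hf
  choose m hm using fun j => (S49.mem_intLattice_iff _).1 (hmem j) n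
  have h1 : ∑ j ∈ s, c j * (m j : ℂ) = 0 := by
    have := congrArg (fun τ : Module.End ℂ (CuspForm (Gamma0 N) 2) => qCoeffLin N n (τ f)) hc
    simp only [LinearMap.sum_apply, map_sum, LinearMap.smul_apply, map_smul, LinearMap.zero_apply,
      map_zero, smul_eq_mul] at this
    simpa [qCoeffLin_apply, hm] using this
  have h2 : ∑ j ∈ s, φ (c j) * (m j : ℚ) = 0 := by
    have := congrArg φ h1
    rw [map_sum, map_zero] at this
    rw [← this]
    refine Finset.sum_congr rfl fun j _ => ?_
    have : c j * (m j : ℂ) = (m j : ℚ) • c j := by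
      rw [Rat.smul_def]; push_cast; ring
    rw [this, map_smul, smul_eq_mul, mul_comm]
  have h3 : ∀ j, (φ (c j)) • ((b j : HeckeFull N) : Module.End ℂ (CuspForm (Gamma0 N) 2))
      = ((φ (c j) : ℚ) : ℂ) • ((b j : HeckeFull N) : Module.End ℂ (CuspForm (Gamma0 N) 2)) :=
    fun j => rfl
  change qCoeffLin N n _ = 0
  simp only [h3, LinearMap.sum_apply, map_sum, LinearMap.smul_apply, map_smul, qCoeffLin_apply, hm,
    smul_eq_mul]
  have := congrArg (fun x : ℚ => (x : ℂ)) h2
  push_cast at this
  simpa using this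

instance instFiniteHeckeFull : Module.Finite ℤ (HeckeFull N) := S22.result N 2 ∅

instance instFreeHeckeFull : Module.Free ℤ (HeckeFull N) :=
  Module.free_of_finite_type_torsion_free'

/-- surjectivity of `f ↦ (t ↦ a₁(t f))` onto ring homomorphisms. -/
theorem exists_form (μ : HeckeFull N →+* ℂ) :
    ∃ f : CuspForm (Gamma0 N) 2, ∀ t : HeckeFull N,
      qCoeffLin N 1 ((t : Module.End ℂ (CuspForm (Gamma0 N) 2)) f) = μ t := by
  classical
  let b := Module.Free.chooseBasis ℤ (HeckeFull N)
  let Ψ : CuspForm (Gamma0 N) 2 →ₗ[ℂ] (Module.Free.ChooseBasisIndex ℤ (HeckeFull N) → ℂ) :=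
    LinearMap.pi fun i =>
      qCoeffLin N 1 ∘ₗ ((b i : HeckeFull N) : Module.End ℂ (CuspForm (Gamma0 N) 2))
  have hsurj : LinearMap.range Ψ = ⊤ := by
    by_contra hne
    obtain ⟨g, hg0, hg⟩ := Submodule.exists_le_ker_of_lt_top _ (lt_top_iff_ne_top.2 hne)
    apply hg0
    set c : Module.Free.ChooseBasisIndex ℤ (HeckeFull N) → ℂ := fun i => g (Pi.single i 1) with hc
    have hgx : ∀ x, g x = ∑ i, x i * c i := by
      intro x
      rw [LinearMap.pi_apply_eq_sum_univ g x]
      refine Finset.sum_congr rfl fun i _ => ?_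
      rw [smul_eq_mul, hc]
      congr 2
      ext j
      simp [Pi.single_apply, eq_comm]
    set τ : Module.End ℂ (CuspForm (Gamma0 N) 2) :=
      ∑ i, c i • ((b i : HeckeFull N) : Module.End ℂ (CuspForm (Gamma0 N) 2)) with hτ
    have hτ1 : ∀ f, qCoeffLin N 1 (τ f) = 0 := by
      intro f
      have h1 : g (Ψ f) = 0 := hg ⟨f, rfl⟩
      rw [hgx] at h1
      rw [hτ, LinearMap.sum_apply, map_sum, ← h1]
      refine Finset.sum_congr rfl fun i _ => ?_
      simp [Ψ, mul_comm]
    have hcomm : ∀ (s : HeckeFull N) (f : CuspForm (Gamma0 N) 2),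
        (s : Module.End ℂ (CuspForm (Gamma0 N) 2)) (τ f) =
          τ ((s : Module.End ℂ (CuspForm (Gamma0 N) 2)) f) := by
      intro s f
      rw [hτ, LinearMap.sum_apply, LinearMap.sum_apply, map_sum]
      refine Finset.sum_congr rfl fun i _ => ?_
      rw [LinearMap.smul_apply, LinearMap.smul_apply, map_smul]
      congr 1
      have := congrArg (fun t : HeckeFull N =>
        (t : Module.End ℂ (CuspForm (Gamma0 N) 2)) f) (mul_comm s (b i))
      simpa [MulMemClass.coe_mul, Module.End.mul_apply] using this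
    have hτ0 : τ = 0 := by
      ext1 f
      apply eq_zero_of_forall_qCoeff_one
      intro s
      rw [hcomm]
      exact hτ1 _
    have hc0 : ∀ i, c i = 0 :=
      Fintype.linearIndependent_iff.1 (linearIndependent_complex b b.linearIndependent) c hτ0
    refine LinearMap.ext fun x => ?_
    rw [hgx]
    simp [hc0]
  obtain ⟨f, hf⟩ : (fun i => μ (b i)) ∈ LinearMap.range Ψ := by rw [hsurj]; trivial
  refine ⟨f, ?_⟩
  let A₁ : HeckeFull N →ₗ[ℤ] ℂ :=
    ((qCoeffLin N 1).restrictScalars ℤ) ∘ₗ
      ((LinearMap.applyₗ (R := ℂ) f).restrictScalars ℤ) ∘ₗ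
        (Subalgebra.val (CuspForm.heckeAlgebra N 2 (∅ : Set ℕ))).toLinearMap
  let A₂ : HeckeFull N →ₗ[ℤ] ℂ := μ.toAddMonoidHom.toIntLinearMap
  have hA : A₁ = A₂ := by
    refine b.ext fun i => ?_
    exact congrFun hf i
  intro t
  exact LinearMap.congr_fun hA t

/-- the eigenspace, unfolded -/
theorem mem_iff (μ : HeckeFull N →+* ℂ) (f : CuspForm (Gamma0 N) 2) :
    f ∈ (⨅ t : HeckeFull N,
      LinearMap.ker ((t : Module.End ℂ (CuspForm (CongruenceSubgroup.Gamma0 N) 2)) -
        μ t • LinearMap.id)) ↔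
      ∀ t : HeckeFull N, (t : Module.End ℂ (CuspForm (Gamma0 N) 2)) f = μ t • f := by
  rw [Submodule.mem_iInf]
  refine forall_congr' fun t => ?_
  rw [LinearMap.mem_ker, LinearMap.sub_apply, LinearMap.smul_apply, LinearMap.id_apply, sub_eq_zero]

theorem ne_bot (μ : HeckeFull N →+* ℂ) :
    (⨅ t : HeckeFull N,
      LinearMap.ker ((t : Module.End ℂ (CuspForm (CongruenceSubgroup.Gamma0 N) 2)) -
        μ t • LinearMap.id)) ≠ ⊥ := by
  obtain ⟨f, hf⟩ := exists_form μ
  have hf0 : f ≠ 0 := by
    rintro rfl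
    have := hf 1
    simp at this
  intro hbot
  apply hf0
  have hmem : f ∈ (⨅ t : HeckeFull N,
      LinearMap.ker ((t : Module.End ℂ (CuspForm (CongruenceSubgroup.Gamma0 N) 2)) -
        μ t • LinearMap.id)) := by
    rw [mem_iff]
    intro s
    rw [← sub_eq_zero]
    apply eq_zero_of_forall_qCoeff_one
    intro t
    rw [map_sub, map_smul, map_sub, map_smul, hf t, ← Module.End.mul_apply, ← MulMemClass.coe_mul,
      hf (t * s), map_mul, smul_eq_mul]
    ring
  rw [hbot] at hmem
  exact (Submodule.mem_bot _).1 hmem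

theorem injective_qCoeff_one (μ : HeckeFull N →+* ℂ) :
    Function.Injective ((qCoeffLin N 1) ∘ₗ (⨅ t : HeckeFull N,
      LinearMap.ker ((t : Module.End ℂ (CuspForm (CongruenceSubgroup.Gamma0 N) 2)) -
        μ t • LinearMap.id)).subtype) := by
  rw [injective_iff_map_eq_zero]
  rintro ⟨f, hf⟩ h0
  rw [mem_iff] at hf
  apply Subtype.ext
  apply eq_zero_of_forall_qCoeff_one
  intro t
  have h0' : qCoeffLin N 1 f = 0 := h0
  change qCoeffLin N 1 ((t : Module.End ℂ (CuspForm (Gamma0 N) 2)) f) = 0
  rw [hf t, map_smul, h0', smul_zero]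

theorem finrank_le (μ : HeckeFull N →+* ℂ) :
    Module.finrank ℂ ↥(⨅ t : HeckeFull N,
      LinearMap.ker ((t : Module.End ℂ (CuspForm (CongruenceSubgroup.Gamma0 N) 2)) -
        μ t • LinearMap.id)) ≤ 1 := by
  have := LinearMap.finrank_le_finrank_of_injective (injective_qCoeff_one μ)
  simpa using this

theorem finrank_eq (μ : HeckeFull N →+* ℂ) :
    Module.finrank ℂ ↥(⨅ t : HeckeFull N,
      LinearMap.ker ((t : Module.End ℂ (CuspForm (CongruenceSubgroup.Gamma0 N) 2)) -
        μ t • LinearMap.id)) = 1 := by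
  refine le_antisymm (finrank_le μ) ?_
  have : Module.Finite ℂ ↥(⨅ t : HeckeFull N,
      LinearMap.ker ((t : Module.End ℂ (CuspForm (CongruenceSubgroup.Gamma0 N) 2)) -
        μ t • LinearMap.id)) := Module.Finite.of_injective _ (injective_qCoeff_one μ)
  have : Nontrivial ↥(⨅ t : HeckeFull N,
      LinearMap.ker ((t : Module.End ℂ (CuspForm (CongruenceSubgroup.Gamma0 N) 2)) -
        μ t • LinearMap.id)) := Submodule.nontrivial_iff_ne_bot.2 (ne_bot μ)
  exact Module.finrank_pos

end EigenCharMult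

end Fermat.Agent.GR.H
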