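import Fermat.Agent.GR.H.EigenCharA
import Fermat.Agent.GR.H.EigenCharMult

/-! # GR-H, piece H-MULT (multiplicity one), final form -/

set_option autoImplicit false

namespace Fermat.Agent.GR.H

/-- The `μ`-eigenspace of the full Hecke algebra in `S₂(Γ₀(N))`. -/
def cuspEigen (N : ℕ) [NeZero N] (μ : HeckeFull N →+* ℂ) :
    Submodule ℂ (CuspForm (CongruenceSubgroup.Gamma0 N) 2) :=
  ⨅ t : HeckeFull N,
    LinearMap.ker ((t : Module.End ℂ (CuspForm (CongruenceSubgroup.Gamma0 N) 2)) -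
      μ t • LinearMap.id)

/-- PIECE H-MULT-1 (`q`-expansion principle). -/
theorem finrank_cuspEigen_le (N : ℕ) [NeZero N] (μ : HeckeFull N →+* ℂ) :
    Module.finrank ℂ (cuspEigen N μ) ≤ 1 :=
  EigenCharMult.finrank_le μ

/-- PIECE H-MULT-2. Every character of the full Hecke algebra occurs. -/
theorem cuspEigen_ne_bot (N : ℕ) [NeZero N] (μ : HeckeFull N →+* ℂ) : cuspEigen N μ ≠ ⊥ :=
  EigenCharMult.ne_bot μ

/-- Multiplicity one (for GR-B: gives `TateData.eigen_dim` from S21 + Hecke equivariance). -/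
theorem finrank_cuspEigen (N : ℕ) [NeZero N] (μ : HeckeFull N →+* ℂ) :
    Module.finrank ℂ (cuspEigen N μ) = 1 :=
  EigenCharMult.finrank_eq μ

end Fermat.Agent.GR.H
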