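import Fermat.Agent.GR.H.Iface
import Fermat.Agent.Lib.Frobenius

/-! # GR-H, piece H-CYC : Frobenius elements act on roots of unity by `ζ ↦ ζ^ℓ` -/

set_option autoImplicit false

namespace Fermat.Agent.GR.H

open Fermat.Agent.Lib.Frobenius in
/-- A Frobenius element at `ℓ` satisfies `σ x - x ^ ℓ ∈ 𝔪_A` for all `x ∈ A`. -/
theorem Cyc_frobenius_sub_pow_mem (A : ValuationSubring (AlgebraicClosure ℚ)) (ℓ : ℕ)
    (σ : GQ) (hσ : A.IsFrobeniusAt σ ℓ) (x : AlgebraicClosure ℚ) (hx : x ∈ A) :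
    σ x - x ^ ℓ ∈ A.nonunits := by
  obtain ⟨hdec, h⟩ := hσ
  have h1 := h (IsLocalRing.residue A ⟨x, hx⟩)
  rw [← IsLocalRing.ResidueField.residue_smul, ← map_pow, ← sub_eq_zero, ← map_sub,
    IsLocalRing.residue_eq_zero_iff] at h1
  have h2 := (ValuationSubring.mem_nonunits_iff_exists_mem_maximalIdeal).mpr ⟨_, h1⟩
  exact h2

open Fermat.Agent.Lib.Frobenius in
/-- Two `m`-th roots of unity congruent modulo `𝔪_A` are equal if `ℓ ∤ m`. -/
theorem Cyc_eq_of_sub_mem (A : ValuationSubring (AlgebraicClosure ℚ)) (ℓ : ℕ) (hℓ : ℓ.Prime)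
    (hA : A.LiesOverPrime ℓ) (m : ℕ) (hm : ¬ ℓ ∣ m) (u v : AlgebraicClosure ℚ) (hu : u ^ m = 1)
    (hv : v ^ m = 1) (huv : u - v ∈ A.nonunits) : u = v := by
  by_contra hne
  have hm0 : m ≠ 0 := by rintro rfl; exact hm (dvd_zero _)
  have hint : ∀ w : AlgebraicClosure ℚ, w ^ m = 1 → w ∈ A := fun w hw =>
    isIntegral_mem A (IsIntegral.of_pow (Nat.pos_of_ne_zero hm0) (by rw [hw]; exact isIntegral_one))
  have huA := hint u hu
  have hvA := hint v hv
  -- `∑ u^i v^(m-1-i) = 0`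
  have hsum : ∑ i ∈ Finset.range m, u ^ i * v ^ (m - 1 - i) = 0 := by
    have := (Commute.all u v).geom_sum₂_mul m
    rw [hu, hv, sub_self] at this
    exact (mul_eq_zero.mp this).resolve_right (sub_ne_zero.mpr hne)
  -- each term is congruent to `v^(m-1)`
  have hterm : ∀ i : ℕ, u ^ i - v ^ i ∈ A.nonunits := by
    intro i
    have := (Commute.all u v).geom_sum₂_mul i
    rw [← this, mul_comm]
    refine nonunits_mul A huv ?_
    exact sum_mem fun j _ => mul_mem (pow_mem huA _) (pow_mem hvA _)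
  have hcong : (∑ i ∈ Finset.range m, u ^ i * v ^ (m - 1 - i)) - (m : AlgebraicClosure ℚ) * v ^ (m - 1)
      ∈ A.nonunits := by
    have e : (∑ i ∈ Finset.range m, u ^ i * v ^ (m - 1 - i)) - (m : AlgebraicClosure ℚ) * v ^ (m - 1)
        = ∑ i ∈ Finset.range m, (u ^ i - v ^ i) * v ^ (m - 1 - i) := by
      have : ∀ i ∈ Finset.range m, (u ^ i - v ^ i) * v ^ (m - 1 - i)
          = u ^ i * v ^ (m - 1 - i) - v ^ (m - 1) := by
        intro i hi
        have hi' : i + (m - 1 - i) = m - 1 := by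
          have := Finset.mem_range.mp hi
          omega
        rw [sub_mul, ← pow_add, hi']
      rw [Finset.sum_congr rfl this, Finset.sum_sub_distrib]
      simp
    rw [e]
    have hz : (0 : AlgebraicClosure ℚ) ∈ A.nonunits := by
      rw [ValuationSubring.mem_nonunits_iff, map_zero]; exact zero_lt_one
    refine Finset.sum_induction _ (· ∈ A.nonunits) (fun a b ha hb => nonunits_add A ha hb) hz ?_
    intro i _
    exact nonunits_mul A (hterm i) (pow_mem hvA _)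
  rw [hsum, zero_sub] at hcong
  have h3 : (m : AlgebraicClosure ℚ) * v ^ (m - 1) * v ∈ A.nonunits := by
    have : (m : AlgebraicClosure ℚ) * v ^ (m - 1) ∈ A.nonunits := by
      rw [ValuationSubring.mem_nonunits_iff] at hcong ⊢
      rwa [Valuation.map_neg] at hcong
    exact nonunits_mul A this hvA
  rw [mul_assoc, ← pow_succ, Nat.sub_add_cancel (Nat.pos_of_ne_zero hm0), hv, mul_one] at h3
  refine intCast_not_mem_nonunits A hℓ hA (a := (m : ℤ)) ?_ (by simpa using h3)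
  exact_mod_cast hm

/-- PIECE H-CYC. -/
theorem frobenius_rootOfUnity (A : ValuationSubring (AlgebraicClosure ℚ)) (ℓ : ℕ) (hℓ : ℓ.Prime)
    (hA : A.LiesOverPrime ℓ) (σ : GQ) (hσ : A.IsFrobeniusAt σ ℓ) (m : ℕ) (hm : ¬ ℓ ∣ m)
    (ζ : AlgebraicClosure ℚ) (hζ : ζ ^ m = 1) : σ ζ = ζ ^ ℓ := by
  have hm0 : m ≠ 0 := by rintro rfl; exact hm (dvd_zero _)
  have hζA : ζ ∈ A := Fermat.Agent.Lib.Frobenius.isIntegral_mem A
    (IsIntegral.of_pow (Nat.pos_of_ne_zero hm0) (by rw [hζ]; exact isIntegral_one))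
  refine Cyc_eq_of_sub_mem A ℓ hℓ hA m hm _ _ ?_ ?_ (Cyc_frobenius_sub_pow_mem A ℓ σ hσ ζ hζA)
  · rw [← map_pow, hζ, map_one]
  · rw [← pow_mul, mul_comm, pow_mul, hζ, one_pow]

end Fermat.Agent.GR.H
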