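import Fermat.Agent.GR.H.Iface

/-! # GR-H : `FrobeniusDensity` from the form delivered by GR-G (open normal subgroups) -/

set_option autoImplicit false

namespace Fermat.Agent.GR.H

/-- The shape of `Fermat.Agent.GR.G.exists_frobenius_pow_mem`. -/
def FrobeniusDensityOpen : Prop :=
  ∀ (U : Subgroup GQ) (_ : U.Normal) (_ : IsOpen (U : Set GQ)) (S : Finset ℕ) (σ : GQ),
    ∃ (ℓ : ℕ) (A : ValuationSubring (AlgebraicClosure ℚ)) (τ : GQ),
      ℓ.Prime ∧ ℓ ∉ S ∧ A.LiesOverPrime ℓ ∧ A.IsFrobeniusAt τ ℓ ∧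
        (∃ k : ℕ, σ⁻¹ * τ ^ k ∈ U) ∧ (∃ j : ℕ, τ⁻¹ * σ ^ j ∈ U)

theorem frobeniusDensity_of_open (h : FrobeniusDensityOpen) : FrobeniusDensity := by
  intro L hL S g
  have hac : IsAlgClosure ℚ (AlgebraicClosure ℚ) :=
    @AlgebraicClosure.instIsAlgClosure ℚ _
  have hgal : IsGalois ℚ (AlgebraicClosure ℚ) := ⟨⟩
  let F : IntermediateField ℚ (AlgebraicClosure ℚ) := IntermediateField.normalClosure ℚ L _
  have hLF : L ≤ F := L.le_normalClosure
  have hFfin : FiniteDimensional ℚ F := normalClosure.is_finiteDimensional ℚ L _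
  have hFn : Normal ℚ F := normalClosure.normal ℚ L _
  have hFg : IsGalois ℚ F := ⟨⟩
  have hUn : F.fixingSubgroup.Normal := inferInstance
  have hUo : IsOpen (F.fixingSubgroup : Set GQ) := F.fixingSubgroup_isOpen
  obtain ⟨ℓ, A, τ, h1, h2, h3, h4, ⟨k, hk⟩, ⟨j, hj⟩⟩ := h F.fixingSubgroup hUn hUo S g
  have key : ∀ a b : GQ, a⁻¹ * b ∈ F.fixingSubgroup → ∀ x ∈ L, b x = a x := by
    intro a b hab x hx
    have h5 := (IntermediateField.mem_fixingSubgroup_iff F _).mp hab x (hLF hx)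
    have h6 : a ((a⁻¹ * b) x) = b x := by
      rw [AlgEquiv.mul_apply]
      exact AlgEquiv.apply_symm_apply a _
    rw [← h6, h5]
  exact ⟨ℓ, A, τ, h1, h2, h3, h4, ⟨k, key _ _ hk⟩, ⟨j, key _ _ hj⟩⟩

end Fermat.Agent.GR.H
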