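import Fermat.Agent.GR.H.DescentIrr

/-!
# Descent of 2-dimensional representations over finite fields to the field of their
characteristic polynomials
-/

set_option autoImplicit false

open Matrix Polynomial

namespace Fermat.Agent.GR.H

open Descent

/-- matrix form. -/
theorem Descent.hasDescent {k : Type*} [Field k] [Fintype k] {Ω : Type*} [Field Ω] [Algebra k Ω]
    [IsAlgClosed Ω] {G : Type*} [Group G] (R : G →* Matrix (Fin 2) (Fin 2) Ω)
    (hfin : (Set.range R).Finite)
    (htr : ∀ g, (R g).trace ∈ Set.range (algebraMap k Ω))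
    (hdet : ∀ g, (R g).det ∈ Set.range (algebraMap k Ω)) : HasDescent k R := by
  by_cases h : ∃ v : Fin 2 → Ω, v ≠ 0 ∧ ∀ g, D v (R g *ᵥ v) = 0
  · obtain ⟨v, hv, h⟩ := h
    exact hasDescent_of_eigenvector R htr hdet v hv h
  · push Not at h
    exact hasDescent_of_irr R hfin htr h

/-- **Descent.**  A 2-dimensional representation over a finite field `k2`, all of whose
characteristic polynomials have coefficients in the subfield `k`, has the same characteristic
polynomials as a representation over `k` whose kernel contains the kernel of the given one. -/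
theorem exists_descent {k k2 : Type} [Field k] [Finite k] [Field k2] [Finite k2] [Algebra k k2]
    {G : Type*} [Group G] {V2 : Type*} [AddCommGroup V2] [Module k2 V2] [Module.Finite k2 V2]
    (h2 : Module.finrank k2 V2 = 2) (ρ2 : G →* Module.End k2 V2)
    (hP : ∀ g, ∃ P : Polynomial k, LinearMap.charpoly (ρ2 g) = P.map (algebraMap k k2)) :
    ∃ ρ : G →* Module.End k (Fin 2 → k),
      (∀ g, (LinearMap.charpoly (ρ g)).map (algebraMap k k2) = LinearMap.charpoly (ρ2 g)) ∧
      (∀ g, ρ2 g = 1 → ρ g = 1) := by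
  classical
  have : Fintype k := Fintype.ofFinite k
  let b2 : Module.Basis (Fin 2) k2 V2 := Module.finBasisOfFinrankEq k2 V2 h2
  let R2 : G →* Matrix (Fin 2) (Fin 2) k2 :=
    (LinearMap.toMatrixAlgEquiv b2 : Module.End k2 V2 →* Matrix (Fin 2) (Fin 2) k2).comp ρ2
  have hR2 : ∀ g, R2 g = LinearMap.toMatrix b2 b2 (ρ2 g) := fun g => rfl
  have hchar : ∀ g, LinearMap.charpoly (ρ2 g) =
      X ^ 2 - C (R2 g).trace * X + C (R2 g).det := by
    intro g
    rw [← LinearMap.charpoly_toMatrix (ρ2 g) b2, ← hR2, Matrix.charpoly_fin_two]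
  let Ω := AlgebraicClosure k2
  let R : G →* Matrix (Fin 2) (Fin 2) Ω :=
    ((algebraMap k2 Ω).mapMatrix : Matrix (Fin 2) (Fin 2) k2 →+* Matrix (Fin 2) (Fin 2) Ω).toMonoidHom.comp R2
  have hR : ∀ g, R g = (R2 g).map (algebraMap k2 Ω) := fun g => rfl
  have hfin : (Set.range R).Finite := by
    have : Set.range R ⊆ Set.range
        (fun M : Matrix (Fin 2) (Fin 2) k2 => M.map (algebraMap k2 Ω)) := by
      rintro _ ⟨g, rfl⟩
      exact ⟨R2 g, rfl⟩
    exact (Set.finite_range _).subset this
  have htr2 : ∀ g, ∃ a : k, algebraMap k k2 a = (R2 g).trace := by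
    intro g
    obtain ⟨P, hP⟩ := hP g
    refine ⟨-P.coeff 1, ?_⟩
    have := congrArg (fun p => p.coeff 1) hP
    simp only [hchar, coeff_map] at this
    rw [map_neg, ← this]
    simp [coeff_X, coeff_C]
  have hdet2 : ∀ g, ∃ a : k, algebraMap k k2 a = (R2 g).det := by
    intro g
    obtain ⟨P, hP⟩ := hP g
    refine ⟨P.coeff 0, ?_⟩
    have := congrArg (fun p => p.coeff 0) hP
    simp only [hchar, coeff_map] at this
    rw [← this]
    simp
  have htrR : ∀ g, (R g).trace = algebraMap k2 Ω (R2 g).trace := by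
    intro g
    rw [hR]; simp [Matrix.trace_fin_two]
  have hdetR : ∀ g, (R g).det = algebraMap k2 Ω (R2 g).det := by
    intro g
    rw [hR]; simp [Matrix.det_fin_two]
  obtain ⟨r, h1, h2', h3⟩ := Descent.hasDescent (k := k) R hfin
    (fun g => by
      obtain ⟨a, ha⟩ := htr2 g
      exact ⟨a, by rw [htrR, ← ha, ← IsScalarTower.algebraMap_apply]⟩)
    (fun g => by
      obtain ⟨a, ha⟩ := hdet2 g
      exact ⟨a, by rw [hdetR, ← ha, ← IsScalarTower.algebraMap_apply]⟩)
  have inj : Function.Injective (algebraMap k2 Ω) := (algebraMap k2 Ω).injective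
  refine ⟨(Matrix.toLinAlgEquiv' : Matrix (Fin 2) (Fin 2) k ≃ₐ[k] _).toAlgHom.toMonoidHom.comp r,
    ?_, ?_⟩
  · intro g
    have e : LinearMap.charpoly (((Matrix.toLinAlgEquiv' :
        Matrix (Fin 2) (Fin 2) k ≃ₐ[k] _).toAlgHom.toMonoidHom.comp r) g) = (r g).charpoly :=
      Matrix.charpoly_toLin' (r g)
    rw [e, hchar, Matrix.charpoly_fin_two]
    have e1 : algebraMap k k2 (r g).trace = (R2 g).trace := inj (by
      rw [← htrR, ← h1, ← IsScalarTower.algebraMap_apply])
    have e2 : algebraMap k k2 (r g).det = (R2 g).det := inj (by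
      rw [← hdetR, ← h2', ← IsScalarTower.algebraMap_apply])
    simp [e1, e2]
  · intro g hg
    have : R g = 1 := by
      rw [hR, hR2, hg]
      have : LinearMap.toMatrix b2 b2 (1 : Module.End k2 V2) = 1 := LinearMap.toMatrix_one b2
      rw [this, Matrix.map_one _ (map_zero _) (map_one _)]
    have h4 := h3 g this
    show Matrix.toLinAlgEquiv' (r g) = 1
    rw [h4, map_one]

end Fermat.Agent.GR.H
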