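import Mathlib

/-!
# Descent of 2-dimensional representations over finite fields: basic lemmas
-/

set_option autoImplicit false

open Matrix Polynomial

namespace Fermat.Agent.GR.H.Descent

section vec

variable {Ω : Type*} [Field Ω]

/-- the determinant of two vectors. -/
def D (x y : Fin 2 → Ω) : Ω := x 0 * y 1 - x 1 * y 0

theorem exists_smul_of_D_eq_zero {x y : Fin 2 → Ω} (hx : x ≠ 0) (h : D x y = 0) :
    ∃ c : Ω, y = c • x := by
  unfold D at h
  by_cases h0 : x 0 = 0
  · have h1 : x 1 ≠ 0 := by
      intro h1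
      apply hx
      ext i
      fin_cases i
      · exact h0
      · exact h1
    refine ⟨y 1 / x 1, ?_⟩
    ext i
    fin_cases i
    · simp only [Fin.zero_eta, Pi.smul_apply, smul_eq_mul]
      rw [h0, zero_mul, zero_sub, neg_eq_zero] at h
      rcases mul_eq_zero.mp h with h | h
      · exact absurd h h1
      · rw [h, h0, mul_zero]
    · simp only [Fin.mk_one, Pi.smul_apply, smul_eq_mul]
      field_simp
  · refine ⟨y 0 / x 0, ?_⟩
    ext i
    fin_cases i
    · simp only [Fin.zero_eta, Pi.smul_apply, smul_eq_mul]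
      field_simp
    · simp only [Fin.mk_one, Pi.smul_apply, smul_eq_mul]
      field_simp
      linear_combination h

theorem D_smul_right (x : Fin 2 → Ω) (c : Ω) : D x (c • x) = 0 := by
  simp only [D, Pi.smul_apply, smul_eq_mul]; ring

/-- Cramer's rule. -/
theorem cramer {x y : Fin 2 → Ω} (h : D x y ≠ 0) (z : Fin 2 → Ω) :
    z = (D z y / D x y) • x + (D x z / D x y) • y := by
  ext i
  fin_cases i
  · simp only [Fin.zero_eta, Pi.add_apply, Pi.smul_apply, smul_eq_mul]
    field_simp
    simp only [D]; ring
  · simp only [Fin.mk_one, Pi.add_apply, Pi.smul_apply, smul_eq_mul]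
    field_simp
    simp only [D]; ring

/-- a matrix killing two independent vectors is zero. -/
theorem eq_zero_of_mulVec_eq_zero {c : Matrix (Fin 2) (Fin 2) Ω} {x y : Fin 2 → Ω}
    (h : D x y ≠ 0) (hx : c *ᵥ x = 0) (hy : c *ᵥ y = 0) : c = 0 := by
  have key : ∀ z, c *ᵥ z = 0 := by
    intro z
    rw [cramer h z, mulVec_add, mulVec_smul, mulVec_smul, hx, hy]
    simp
  ext i j
  have := congrFun (key (Pi.single j 1)) i
  simpa using this

/-- rank one decomposition. -/
theorem exists_vecMulVec {b : Matrix (Fin 2) (Fin 2) Ω} (hb : b ≠ 0) (hdet : b.det = 0) :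
    ∃ u w : Fin 2 → Ω, u ≠ 0 ∧ w ≠ 0 ∧ b = vecMulVec u w := by
  rw [det_fin_two] at hdet
  have : ∃ i j, b i j ≠ 0 := by
    by_contra hcon
    push Not at hcon
    exact hb (by ext i j; exact hcon i j)
  obtain ⟨i0, j0, h0⟩ := this
  refine ⟨fun i => b i j0, fun j => b i0 j / b i0 j0, ?_, ?_, ?_⟩
  · intro h
    exact h0 (congrFun h i0)
  · intro h
    have := congrFun h j0
    simp only [Pi.zero_apply] at this
    rw [div_self h0] at this
    exact one_ne_zero this
  · ext i j
    simp only [vecMulVec_apply]
    field_simp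
    fin_cases i0 <;> fin_cases j0 <;> fin_cases i <;> fin_cases j <;>
      simp only [Fin.zero_eta, Fin.mk_one] <;> first | ring1 | linear_combination hdet | linear_combination -hdet

theorem trace_mul_vecMulVec (x : Matrix (Fin 2) (Fin 2) Ω) (u w : Fin 2 → Ω) :
    (x * vecMulVec u w).trace = w ⬝ᵥ (x *ᵥ u) := by
  simp only [trace, diag, mul_apply, vecMulVec_apply, Fin.sum_univ_two, dotProduct, mulVec]
  ring

end vec

section frob

variable (k : Type*) [Field k] [Fintype k] {Ω : Type*} [Field Ω] [Algebra k Ω]

/-- the fixed points of the `#k`-Frobenius are the elements of `k`. -/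
theorem mem_range_of_pow_card_eq {x : Ω} (hx : x ^ Fintype.card k = x) :
    x ∈ Set.range (algebraMap k Ω) := by
  classical
  by_contra hcon
  set q := Fintype.card k with hq
  have hq1 : 1 < q := Fintype.one_lt_card
  have hne : (X ^ q - X : Polynomial Ω) ≠ 0 := FiniteField.X_pow_card_sub_X_ne_zero Ω hq1
  let s : Finset Ω := insert x (Finset.univ.image (algebraMap k Ω))
  have hs : s.card = q + 1 := by
    rw [Finset.card_insert_of_notMem, Finset.card_image_of_injective _ (algebraMap k Ω).injective,
      Finset.card_univ]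
    intro h
    obtain ⟨y, -, hy⟩ := Finset.mem_image.mp h
    exact hcon ⟨y, hy⟩
  have hsub : s.val ⊆ (X ^ q - X : Polynomial Ω).roots := by
    intro y hy
    rw [mem_roots hne, IsRoot.def, eval_sub, eval_pow, eval_X]
    rcases Finset.mem_insert.mp hy with rfl | hy
    · rw [hx, sub_self]
    · obtain ⟨z, -, rfl⟩ := Finset.mem_image.mp hy
      rw [← map_pow, FiniteField.pow_card, sub_self]
  have h1 : s.card ≤ (X ^ q - X : Polynomial Ω).roots.card :=
    Multiset.card_le_card (Multiset.le_iff_subset s.nodup |>.mpr hsub)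
  have h2 := (X ^ q - X : Polynomial Ω).card_roots'
  rw [FiniteField.X_pow_card_sub_X_natDegree_eq Ω hq1] at h2
  omega

end frob

end Fermat.Agent.GR.H.Descent
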