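import Fermat.Agent.GR.H.DescentRed

/-!
# Descent of 2-dimensional representations over finite fields: the irreducible case
-/

set_option autoImplicit false

open Matrix Polynomial

namespace Fermat.Agent.GR.H.Descent

variable {k : Type*} [Field k] {Ω : Type*} [Field Ω] [Algebra k Ω]
  {G : Type*} [Group G]

theorem map_algebraMap_injective :
    Function.Injective (fun M : Matrix (Fin 2) (Fin 2) k => M.map (algebraMap k Ω)) :=
  Matrix.map_injective (algebraMap k Ω).injective

theorem mul_left_cancel_of_det_ne_zero {P X Y : Matrix (Fin 2) (Fin 2) Ω} (hP : P.det ≠ 0)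
    (h : P * X = P * Y) : X = Y := by
  have hu : IsUnit P.det := isUnit_iff_ne_zero.mpr hP
  have := congrArg (fun Z => P⁻¹ * Z) h
  simpa only [← Matrix.mul_assoc, Matrix.nonsing_inv_mul P hu, Matrix.one_mul] using this

/-- a representation conjugate to one with coefficients in `k`. -/
theorem hasDescent_of_conj (R : G →* Matrix (Fin 2) (Fin 2) Ω) (P : Matrix (Fin 2) (Fin 2) Ω)
    (hP : P.det ≠ 0) (r : G → Matrix (Fin 2) (Fin 2) k)
    (h : ∀ g, P * (r g).map (algebraMap k Ω) = R g * P) : HasDescent k R := by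
  have hu : IsUnit P.det := isUnit_iff_ne_zero.mpr hP
  have hone : ∀ g, R g = 1 → r g = 1 := by
    intro g hg
    apply map_algebraMap_injective (Ω := Ω)
    apply mul_left_cancel_of_det_ne_zero hP
    simp only
    rw [h g, hg, Matrix.one_mul, Matrix.map_one _ (map_zero _) (map_one _), Matrix.mul_one]
  refine ⟨{ toFun := r, map_one' := hone 1 (map_one R), map_mul' := ?_ }, ?_, ?_, hone⟩
  · intro g g'
    apply map_algebraMap_injective (Ω := Ω)
    apply mul_left_cancel_of_det_ne_zero hP
    simp only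
    rw [h, Matrix.map_mul, ← Matrix.mul_assoc, h g, Matrix.mul_assoc, h g', ← Matrix.mul_assoc,
      map_mul]
  · intro g
    simp only [MonoidHom.coe_mk, OneHom.coe_mk]
    have e : (r g).map (algebraMap k Ω) = P⁻¹ * (R g * P) := by
      rw [← h g, ← Matrix.mul_assoc, Matrix.nonsing_inv_mul P hu, Matrix.one_mul]
    have : ((r g).map (algebraMap k Ω)).trace = (R g).trace := by
      rw [e, Matrix.trace_mul_comm, Matrix.mul_assoc, Matrix.mul_nonsing_inv P hu, Matrix.mul_one]
    rw [← this]
    simp [Matrix.trace_fin_two]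
  · intro g
    simp only [MonoidHom.coe_mk, OneHom.coe_mk]
    have := congrArg Matrix.det (h g)
    rw [det_mul, det_mul, mul_comm] at this
    have e := mul_right_cancel₀ hP this
    rw [← e]
    simp [Matrix.det_fin_two]

/-- the `k`-algebra spanned by the image. -/
theorem adjoin_eq_span (R : G →* Matrix (Fin 2) (Fin 2) Ω) :
    Subalgebra.toSubmodule (Algebra.adjoin k (Set.range R)) = Submodule.span k (Set.range R) := by
  rw [Algebra.adjoin_eq_span, ← MonoidHom.coe_mrange, Submonoid.closure_eq]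

theorem trace_mem_of_mem_adjoin (R : G →* Matrix (Fin 2) (Fin 2) Ω)
    (htr : ∀ g, (R g).trace ∈ Set.range (algebraMap k Ω))
    {X : Matrix (Fin 2) (Fin 2) Ω} (hX : X ∈ Algebra.adjoin k (Set.range R)) :
    X.trace ∈ Set.range (algebraMap k Ω) := by
  have hX' : X ∈ Submodule.span k (Set.range R) := by
    rw [← adjoin_eq_span]; exact hX
  clear hX
  induction hX' using Submodule.span_induction with
  | mem x hx =>
    obtain ⟨g, rfl⟩ := hx
    exact htr g
  | zero => exact ⟨0, by simp⟩
  | add x y _ _ hx hy =>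
    obtain ⟨a, ha⟩ := hx
    obtain ⟨b, hb⟩ := hy
    exact ⟨a + b, by rw [map_add, ha, hb, trace_add]⟩
  | smul c x _ hx =>
    obtain ⟨a, ha⟩ := hx
    exact ⟨c * a, by rw [map_mul, ha, trace_smul, Algebra.smul_def]⟩

variable [Fintype k]

theorem finite_adjoin (R : G →* Matrix (Fin 2) (Fin 2) Ω) (hfin : (Set.range R).Finite) :
    Finite (Algebra.adjoin k (Set.range R)) := by
  have h1 : Module.Finite k (Submodule.span k (Set.range R)) :=
    Module.Finite.span_of_finite k hfin
  have h2 : Finite (Submodule.span k (Set.range R)) := Module.finite_of_finite k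
  have h3 : ((Algebra.adjoin k (Set.range R) : Subalgebra k _) : Set (Matrix (Fin 2) (Fin 2) Ω)) =
      (Submodule.span k (Set.range R) : Set _) := by
    rw [← adjoin_eq_span]; rfl
  exact (Set.finite_coe_iff.mpr (h3 ▸ Set.toFinite _))

/-- an irreducible family of matrices over an algebraically closed field is not commutative. -/
theorem not_commute_of_irr [IsAlgClosed Ω] (R : G →* Matrix (Fin 2) (Fin 2) Ω)
    (hirr : ∀ v : Fin 2 → Ω, v ≠ 0 → ∃ g, D v (R g *ᵥ v) ≠ 0) :
    ∃ g h, R g * R h ≠ R h * R g := by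
  by_contra hcon
  push Not at hcon
  have he0 : (![1, 0] : Fin 2 → Ω) ≠ 0 := by
    intro h
    have := congrFun h 0
    simp at this
  obtain ⟨h, hh⟩ := hirr _ he0
  obtain ⟨μ, hμ⟩ := Module.End.exists_eigenvalue (Matrix.toLin' (R h))
  obtain ⟨v, hv⟩ := hμ.exists_hasEigenvector
  have hv0 : v ≠ 0 := hv.2
  have hv1 : R h *ᵥ v = μ • v := by
    have := hv.apply_eq_smul
    rwa [Matrix.toLin'_apply] at this
  obtain ⟨g, hg⟩ := hirr v hv0
  have hc : R h - μ • (1 : Matrix (Fin 2) (Fin 2) Ω) = 0 := by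
    refine eq_zero_of_mulVec_eq_zero hg ?_ ?_
    · rw [sub_mulVec, smul_mulVec, one_mulVec, hv1, sub_self]
    · rw [sub_mulVec, smul_mulVec, one_mulVec, mulVec_mulVec, ← hcon g h, ← mulVec_mulVec, hv1,
        mulVec_smul, sub_self]
  apply hh
  rw [sub_eq_zero.mp hc, smul_mulVec, one_mulVec]
  exact D_smul_right _ _

/-- Wedderburn: the `k`-algebra spanned by the image contains a nonzero singular matrix. -/
theorem exists_singular [IsAlgClosed Ω] (R : G →* Matrix (Fin 2) (Fin 2) Ω)
    (hfin : (Set.range R).Finite)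
    (hirr : ∀ v : Fin 2 → Ω, v ≠ 0 → ∃ g, D v (R g *ᵥ v) ≠ 0) :
    ∃ b ∈ Algebra.adjoin k (Set.range R), b ≠ 0 ∧ b.det = 0 := by
  by_contra hcon
  push Not at hcon
  set A := Algebra.adjoin k (Set.range R) with hA
  have : Finite A := finite_adjoin R hfin
  have hnzd : NoZeroDivisors A := by
    refine ⟨fun {a b} hab => ?_⟩
    by_contra hne
    push Not at hne
    have hb : (b : Matrix (Fin 2) (Fin 2) Ω) ≠ 0 := fun h => hne.2 (Subtype.ext h)
    have hdet := hcon b b.2 hb
    have hu : IsUnit (b : Matrix (Fin 2) (Fin 2) Ω).det := isUnit_iff_ne_zero.mpr hdet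
    have hab' : (a : Matrix (Fin 2) (Fin 2) Ω) * b = 0 := congrArg Subtype.val hab
    have : (a : Matrix (Fin 2) (Fin 2) Ω) = 0 := by
      have := congrArg (fun Z => Z * (b : Matrix (Fin 2) (Fin 2) Ω)⁻¹) hab'
      simpa only [Matrix.mul_assoc, Matrix.mul_nonsing_inv _ hu, Matrix.mul_one,
        Matrix.zero_mul] using this
    exact hne.1 (Subtype.ext this)
  have hdom : IsDomain A := NoZeroDivisors.to_isDomain A
  have hfield : IsField A := Finite.isDomain_to_isField A
  obtain ⟨g, h, hgh⟩ := not_commute_of_irr R hirr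
  apply hgh
  have := hfield.mul_comm ⟨R g, Algebra.subset_adjoin ⟨g, rfl⟩⟩ ⟨R h, Algebra.subset_adjoin ⟨h, rfl⟩⟩
  exact congrArg Subtype.val this

/-- the irreducible case. -/
theorem hasDescent_of_irr [IsAlgClosed Ω] (R : G →* Matrix (Fin 2) (Fin 2) Ω)
    (hfin : (Set.range R).Finite)
    (htr : ∀ g, (R g).trace ∈ Set.range (algebraMap k Ω))
    (hirr : ∀ v : Fin 2 → Ω, v ≠ 0 → ∃ g, D v (R g *ᵥ v) ≠ 0) : HasDescent k R := by
  obtain ⟨b, hbA, hb0, hbdet⟩ := exists_singular (k := k) R hfin hirr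
  obtain ⟨u, w, hu, hw, rfl⟩ := exists_vecMulVec hb0 hbdet
  obtain ⟨g1, hg1⟩ := hirr u hu
  have hn : (![w 1, -w 0] : Fin 2 → Ω) ≠ 0 := by
    intro h
    apply hw
    ext i
    fin_cases i
    · have := congrFun h 1
      simpa using this
    · have := congrFun h 0
      simpa using this
  obtain ⟨g2, hg2⟩ := hirr _ hn
  let s : Fin 2 → G := ![1, g2]
  let t : Fin 2 → G := ![1, g1]
  let P : Matrix (Fin 2) (Fin 2) Ω := Matrix.of fun i j => (R (t j) *ᵥ u) i
  let Q : Matrix (Fin 2) (Fin 2) Ω := Matrix.of fun i j => (w ᵥ* R (s i)) j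
  have hP : P.det ≠ 0 := by
    have : P.det = D u (R g1 *ᵥ u) := by
      simp [P, t, det_fin_two, D]
      ring
    rw [this]; exact hg1
  have hQ : Q.det ≠ 0 := by
    have : Q.det = - D ![w 1, -w 0] (R g2 *ᵥ ![w 1, -w 0]) := by
      simp [Q, s, det_fin_two, D, vecMul, mulVec, dotProduct, Fin.sum_univ_two]
      ring
    rw [this]; exact neg_ne_zero.mpr hg2
  -- the entries of `Q * R g * P` are traces of elements of the algebra
  have hentry : ∀ g i j, (Q * R g * P) i j = (R (s i * g * t j) * vecMulVec u w).trace := by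
    intro g i j
    rw [trace_mul_vecMulVec, map_mul, map_mul]
    simp only [Q, P, Matrix.mul_apply, Fin.sum_univ_two, Matrix.of_apply, vecMul, mulVec,
      dotProduct]
    ring
  have hmem : ∀ g i j, ∃ c : k, algebraMap k Ω c = (Q * R g * P) i j := by
    intro g i j
    rw [hentry]
    exact trace_mem_of_mem_adjoin R htr
      (Subalgebra.mul_mem _ (Algebra.subset_adjoin ⟨_, rfl⟩) hbA)
  choose N hN using hmem
  have hNmap : ∀ g, (Matrix.of (N g)).map (algebraMap k Ω) = Q * R g * P := by
    intro g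
    ext i j
    simp [hN]
  have hN1 : (Matrix.of (N 1)).det ≠ 0 := by
    intro h
    have : ((Matrix.of (N 1)).map (algebraMap k Ω)).det = 0 := by
      have e := (algebraMap k Ω).map_det (Matrix.of (N 1))
      rw [RingHom.mapMatrix_apply] at e
      rw [← e, h, map_zero]
    rw [hNmap, map_one, Matrix.mul_one, det_mul] at this
    rcases mul_eq_zero.mp this with h | h
    · exact hQ h
    · exact hP h
  refine hasDescent_of_conj R P hP (fun g => (Matrix.of (N 1))⁻¹ * Matrix.of (N g)) ?_
  intro g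
  apply mul_left_cancel_of_det_ne_zero hQ
  have e1 : Matrix.of (N 1) * ((Matrix.of (N 1))⁻¹ * Matrix.of (N g)) = Matrix.of (N g) := by
    rw [← Matrix.mul_assoc, Matrix.mul_nonsing_inv _ (isUnit_iff_ne_zero.mpr hN1), Matrix.one_mul]
  have e2 := congrArg (fun M => M.map (algebraMap k Ω)) e1
  rw [Matrix.map_mul, hNmap, hNmap, map_one, Matrix.mul_one] at e2
  rw [← Matrix.mul_assoc, e2, Matrix.mul_assoc]

end Fermat.Agent.GR.H.Descent
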