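import Fermat.Agent.GR.H.DescentBasic

/-!
# Descent of 2-dimensional representations over finite fields: the reducible case
-/

set_option autoImplicit false

open Matrix Polynomial

namespace Fermat.Agent.GR.H.Descent

variable (k : Type*) [Field k] [Fintype k] {Ω : Type*} [Field Ω] [Algebra k Ω]
  {G : Type*} [Group G]

/-- the conclusion, in matrix form. -/
def HasDescent (R : G →* Matrix (Fin 2) (Fin 2) Ω) : Prop :=
  ∃ r : G →* Matrix (Fin 2) (Fin 2) k,
    (∀ g, algebraMap k Ω (r g).trace = (R g).trace) ∧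
    (∀ g, algebraMap k Ω (r g).det = (R g).det) ∧ ∀ g, R g = 1 → r g = 1

variable {k}

theorem char_ne_zero (χ : G →* Ω) (g : G) : χ g ≠ 0 := by
  intro h
  have : χ g * χ g⁻¹ = 1 := by rw [← map_mul, mul_inv_cancel, map_one]
  rw [h, zero_mul] at this
  exact zero_ne_one this

theorem pow_card_algebraMap (a : k) :
    (algebraMap k Ω a) ^ Fintype.card k = algebraMap k Ω a := by
  rw [← map_pow, FiniteField.pow_card]

theorem add_pow_card' (x y : Ω) :
    (x + y) ^ Fintype.card k = x ^ Fintype.card k + y ^ Fintype.card k :=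
  map_add (FiniteField.frobeniusAlgHom k Ω) x y

theorem sub_pow_card' (x y : Ω) :
    (x - y) ^ Fintype.card k = x ^ Fintype.card k - y ^ Fintype.card k :=
  map_sub (FiniteField.frobeniusAlgHom k Ω) x y

omit [Fintype k] in
/-- both characters have values in `k`. -/
theorem descent_chars_split (χ ψ : G →* Ω)
    (hχ : ∀ g, χ g ∈ Set.range (algebraMap k Ω)) (hψ : ∀ g, ψ g ∈ Set.range (algebraMap k Ω)) :
    ∃ r : G →* Matrix (Fin 2) (Fin 2) k,
      (∀ g, algebraMap k Ω (r g).trace = χ g + ψ g) ∧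
      (∀ g, algebraMap k Ω (r g).det = χ g * ψ g) ∧ ∀ g, χ g = 1 → ψ g = 1 → r g = 1 := by
  choose c1 hc1 using hχ
  choose c2 hc2 using hψ
  have inj := (algebraMap k Ω).injective
  have h11 : c1 1 = 1 := inj (by rw [hc1, map_one, map_one])
  have h21 : c2 1 = 1 := inj (by rw [hc2, map_one, map_one])
  have h1m : ∀ g h, c1 (g * h) = c1 g * c1 h := fun g h =>
    inj (by rw [hc1, map_mul, map_mul, hc1, hc1])
  have h2m : ∀ g h, c2 (g * h) = c2 g * c2 h := fun g h =>
    inj (by rw [hc2, map_mul, map_mul, hc2, hc2])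
  refine ⟨{ toFun := fun g => !![c1 g, 0; 0, c2 g], map_one' := ?_, map_mul' := ?_ }, ?_, ?_, ?_⟩
  · rw [h11, h21]
    exact (one_fin_two).symm
  · intro g h
    rw [h1m, h2m]
    simp
  · intro g
    simp [Matrix.trace_fin_two, hc1, hc2]
  · intro g
    simp [Matrix.det_fin_two, hc1, hc2]
  · intro g h1 h2
    have e1 : c1 g = 1 := inj (by rw [hc1, h1, map_one])
    have e2 : c2 g = 1 := inj (by rw [hc2, h2, map_one])
    simp only [MonoidHom.coe_mk, OneHom.coe_mk, e1, e2]
    exact (one_fin_two).symm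

/-- the two characters are exchanged by Frobenius. -/
theorem descent_chars_nonsplit (χ ψ : G →* Ω)
    (hF : ∀ g, χ g ^ Fintype.card k = ψ g) (hF' : ∀ g, ψ g ^ Fintype.card k = χ g)
    (g0 : G) (h0 : χ g0 ^ Fintype.card k ≠ χ g0) :
    ∃ r : G →* Matrix (Fin 2) (Fin 2) k,
      (∀ g, algebraMap k Ω (r g).trace = χ g + ψ g) ∧
      (∀ g, algebraMap k Ω (r g).det = χ g * ψ g) ∧ ∀ g, χ g = 1 → ψ g = 1 → r g = 1 := by
  set q := Fintype.card k with hq
  set θ := χ g0 with hθ
  set θ' := ψ g0 with hθ'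
  have hθθ' : θ - θ' ≠ 0 := by
    intro h
    apply h0
    rw [hF g0]
    exact (sub_eq_zero.mp h).symm
  have inj := (algebraMap k Ω).injective
  -- `t0`, `d0`
  obtain ⟨t0, ht0⟩ : θ + θ' ∈ Set.range (algebraMap k Ω) := by
    apply mem_range_of_pow_card_eq k
    rw [add_pow_card' (k := k), hF g0, hF' g0, add_comm]
  obtain ⟨d0, hd0⟩ : θ * θ' ∈ Set.range (algebraMap k Ω) := by
    apply mem_range_of_pow_card_eq k
    rw [mul_pow, hF g0, hF' g0, mul_comm]
  -- coordinates
  have hcoord : ∀ g, ∃ a b : k, χ g = algebraMap k Ω a + algebraMap k Ω b * θ := by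
    intro g
    obtain ⟨b, hb⟩ : (χ g - ψ g) / (θ - θ') ∈ Set.range (algebraMap k Ω) := by
      apply mem_range_of_pow_card_eq k
      rw [div_pow, sub_pow_card' (k := k), sub_pow_card' (k := k), hF g, hF' g, hF g0, hF' g0,
        ← neg_sub (χ g), ← neg_sub θ, neg_div_neg_eq]
    obtain ⟨a, ha⟩ : χ g - (χ g - ψ g) / (θ - θ') * θ ∈ Set.range (algebraMap k Ω) := by
      apply mem_range_of_pow_card_eq k
      rw [sub_pow_card' (k := k), mul_pow, ← hb, pow_card_algebraMap, hb, hF g, hF g0]
      field_simp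
      ring
    exact ⟨a, b, by rw [ha, hb]; ring⟩
  choose a b hab using hcoord
  have huniq : ∀ a1 b1 a2 b2 : k, algebraMap k Ω a1 + algebraMap k Ω b1 * θ =
      algebraMap k Ω a2 + algebraMap k Ω b2 * θ → a1 = a2 ∧ b1 = b2 := by
    intro a1 b1 a2 b2 h
    have hb : b1 = b2 := by
      by_contra hne
      have hne' : algebraMap k Ω (b1 - b2) ≠ 0 := by
        rw [Ne, map_eq_zero, sub_eq_zero]; exact hne
      have : θ = algebraMap k Ω ((a2 - a1) / (b1 - b2)) := by
        rw [map_div₀, eq_div_iff hne', map_sub, map_sub]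
        linear_combination h
      apply h0
      rw [this, pow_card_algebraMap]
    subst hb
    exact ⟨inj (add_right_cancel h), rfl⟩
  have hθ2 : θ * θ = algebraMap k Ω t0 * θ - algebraMap k Ω d0 := by
    rw [ht0, hd0]; ring
  have hψ : ∀ g, ψ g = algebraMap k Ω (a g) + algebraMap k Ω (b g) * θ' := by
    intro g
    rw [← hF g, hab g, add_pow_card' (k := k), mul_pow, pow_card_algebraMap, pow_card_algebraMap,
      hF g0]
  have hone : ∀ g, χ g = 1 → a g = 1 ∧ b g = 0 := by
    intro g hg
    apply huniq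
    rw [← hab g, hg]
    simp
  have hmul : ∀ g h, a (g * h) = a g * a h - b g * b h * d0 ∧
      b (g * h) = a g * b h + a h * b g + b g * b h * t0 := by
    intro g h
    apply huniq
    rw [← hab (g * h), map_mul, hab g, hab h]
    simp only [map_sub, map_add, map_mul]
    linear_combination (algebraMap k Ω (b g) * algebraMap k Ω (b h)) * hθ2
  refine ⟨{ toFun := fun g => !![a g, -(b g * d0); b g, a g + b g * t0],
            map_one' := ?_, map_mul' := ?_ }, ?_, ?_, ?_⟩
  · obtain ⟨e1, e2⟩ := hone 1 (map_one χ)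
    rw [e1, e2]
    simp [one_fin_two]
  · intro g h
    obtain ⟨e1, e2⟩ := hmul g h
    rw [e1, e2, Matrix.mul_fin_two]
    congr 1
    ext i j
    fin_cases i <;> fin_cases j <;> simp <;> ring
  · intro g
    simp only [MonoidHom.coe_mk, OneHom.coe_mk, Matrix.trace_fin_two_of, map_add, map_mul]
    rw [hab g, hψ g, ht0]
    ring
  · intro g
    simp only [MonoidHom.coe_mk, OneHom.coe_mk, Matrix.det_fin_two_of, map_add, map_mul, map_sub,
      map_neg]
    rw [hab g, hψ g]
    linear_combination (algebraMap k Ω (a g) * algebraMap k Ω (b g)) * ht0 +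
      (algebraMap k Ω (b g) * algebraMap k Ω (b g)) * hd0
  · intro g h1 _
    obtain ⟨e1, e2⟩ := hone g h1
    simp only [MonoidHom.coe_mk, OneHom.coe_mk, e1, e2]
    simp [one_fin_two]

/-- two characters whose sum and product have values in `k`. -/
theorem descent_chars (χ ψ : G →* Ω)
    (hs : ∀ g, χ g + ψ g ∈ Set.range (algebraMap k Ω))
    (hp : ∀ g, χ g * ψ g ∈ Set.range (algebraMap k Ω)) :
    ∃ r : G →* Matrix (Fin 2) (Fin 2) k,
      (∀ g, algebraMap k Ω (r g).trace = χ g + ψ g) ∧
      (∀ g, algebraMap k Ω (r g).det = χ g * ψ g) ∧ ∀ g, χ g = 1 → ψ g = 1 → r g = 1 := by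
  set q := Fintype.card k with hq
  have h1 : ∀ g, χ g ^ q = χ g ∨ χ g ^ q = ψ g := by
    intro g
    obtain ⟨s, hs⟩ := hs g
    obtain ⟨p, hp⟩ := hp g
    have e1 : (χ g + ψ g) ^ q = χ g + ψ g := by rw [← hs, pow_card_algebraMap]
    have e2 : (χ g * ψ g) ^ q = χ g * ψ g := by rw [← hp, pow_card_algebraMap]
    rw [add_pow_card' (k := k)] at e1
    rw [mul_pow] at e2
    have : (χ g ^ q - χ g) * (χ g ^ q - ψ g) = 0 := by
      linear_combination (χ g ^ q) * e1 - e2
    rcases mul_eq_zero.mp this with h | h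
    · exact Or.inl (sub_eq_zero.mp h)
    · exact Or.inr (sub_eq_zero.mp h)
  have hsplit : (∀ g, χ g ^ q = χ g) → _ := fun h => by
    refine descent_chars_split (k := k) χ ψ (fun g => mem_range_of_pow_card_eq k (h g)) ?_
    intro g
    obtain ⟨s, hs⟩ := hs g
    obtain ⟨c, hc⟩ := mem_range_of_pow_card_eq k (h g)
    exact ⟨s - c, by rw [map_sub, hs, hc]; ring⟩
  by_cases hA : ∀ g, χ g ^ q = χ g
  · exact hsplit hA
  · push Not at hA
    obtain ⟨g1, hg1⟩ := hA
    have hB : ∀ g, χ g ^ q = ψ g := by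
      by_contra hB
      push Not at hB
      obtain ⟨g2, hg2⟩ := hB
      have e1 : χ g1 ^ q = ψ g1 := (h1 g1).resolve_left hg1
      have e2 : χ g2 ^ q = χ g2 := (h1 g2).resolve_right hg2
      rcases h1 (g1 * g2) with h | h
      · rw [map_mul, mul_pow, e1, e2] at h
        exact hg1 (e1.trans (mul_right_cancel₀ (char_ne_zero χ g2) h))
      · rw [map_mul, map_mul, mul_pow, e1, e2] at h
        exact hg2 (e2.trans (mul_left_cancel₀ (char_ne_zero ψ g1) h))
    have hB' : ∀ g, ψ g ^ q = χ g := by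
      intro g
      obtain ⟨s, hs⟩ := hs g
      have e1 : (χ g + ψ g) ^ q = χ g + ψ g := by rw [← hs, pow_card_algebraMap]
      rw [add_pow_card' (k := k), hB g] at e1
      linear_combination e1
    exact descent_chars_nonsplit χ ψ hB hB' g1 hg1

/-- the reducible case. -/
theorem hasDescent_of_eigenvector (R : G →* Matrix (Fin 2) (Fin 2) Ω)
    (htr : ∀ g, (R g).trace ∈ Set.range (algebraMap k Ω))
    (hdet : ∀ g, (R g).det ∈ Set.range (algebraMap k Ω))
    (v : Fin 2 → Ω) (hv : v ≠ 0) (h : ∀ g, D v (R g *ᵥ v) = 0) : HasDescent k R := by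
  have hex : ∀ g, ∃ c : Ω, R g *ᵥ v = c • v := fun g => exists_smul_of_D_eq_zero hv (h g)
  choose c hc using hex
  have hinj : ∀ x y : Ω, x • v = y • v → x = y := by
    intro x y hxy
    have : (x - y) • v = 0 := by rw [sub_smul, hxy, sub_self]
    rcases smul_eq_zero.mp this with h | h
    · exact sub_eq_zero.mp h
    · exact absurd h hv
  let χ : G →* Ω :=
    { toFun := c
      map_one' := hinj _ _ (by rw [← hc, map_one, one_mulVec, one_smul])
      map_mul' := fun g h => hinj _ _ (by
        rw [← hc, map_mul, ← mulVec_mulVec, hc h, mulVec_smul, hc g, smul_smul, mul_comm]) }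
  have hχ : ∀ g, χ g = c g := fun _ => rfl
  -- the quadratic relation
  have hquad : ∀ g, c g * c g - (R g).trace * c g + (R g).det = 0 := by
    intro g
    have h0 : (R g - c g • (1 : Matrix (Fin 2) (Fin 2) Ω)).det = 0 := by
      rw [← Matrix.exists_mulVec_eq_zero_iff]
      exact ⟨v, hv, by rw [sub_mulVec, smul_mulVec, one_mulVec, hc, sub_self]⟩
    rw [det_fin_two] at h0
    simp only [Matrix.sub_apply, Matrix.smul_apply, one_apply_eq, smul_eq_mul, mul_one, ne_eq,
      zero_ne_one, not_false_eq_true, one_apply_ne, mul_zero, sub_zero, one_ne_zero] at h0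
    rw [trace_fin_two, det_fin_two]
    linear_combination h0
  have hc0 : ∀ g, c g ≠ 0 := fun g => char_ne_zero χ g
  let ψ : G →* Ω :=
    { toFun := fun g => (R g).det / c g
      map_one' := by
        have : c 1 = 1 := map_one χ
        simp [this]
      map_mul' := fun g h => by
        have : c (g * h) = c g * c h := map_mul χ g h
        rw [this, map_mul, det_mul]
        have := hc0 g
        have := hc0 h
        field_simp }
  have hψ : ∀ g, ψ g = (R g).det / c g := fun _ => rfl
  have hsum : ∀ g, χ g + ψ g = (R g).trace := by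
    intro g
    rw [hχ, hψ]
    have := hc0 g
    field_simp
    linear_combination hquad g
  have hprod : ∀ g, χ g * ψ g = (R g).det := by
    intro g
    rw [hχ, hψ]
    have := hc0 g
    field_simp
  obtain ⟨r, h1, h2, h3⟩ := descent_chars (k := k) χ ψ (fun g => by rw [hsum]; exact htr g)
    (fun g => by rw [hprod]; exact hdet g)
  refine ⟨r, fun g => by rw [h1, hsum], fun g => by rw [h2, hprod], fun g hg => ?_⟩
  have e1 : χ g = 1 := hinj _ _ (by rw [hχ, ← hc, hg, one_mulVec, one_smul])
  have e2 : ψ g = 1 := by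
    rw [hψ, ← hχ, e1, hg]; simp
  exact h3 g e1 e2

end Fermat.Agent.GR.H.Descent
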