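import Fermat.Agent.GR.H.Descent
import Fermat.Prelude.Def_GaloisRep_Residual

/-!
# Descent of residual Galois representations to the field of their characteristic polynomials
-/

set_option autoImplicit false

open Polynomial

namespace Fermat.Agent.GR.H

/-- **Descent of residual representations.**  `k ⊆ k2` finite fields.  A residual representation
over `k2` all of whose characteristic polynomials have coefficients in `k` has the same
characteristic polynomials as a residual representation over `k`, whose kernel contains the kernel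
of the given one (so it is unramified wherever the given one is). -/
theorem exists_residual_descent {k k2 : Type} [Field k] [Finite k] [Field k2] [Finite k2]
    [Algebra k k2] (ρ2 : ResidualGaloisRep k2)
    (hP : ∀ σ, ∃ P : Polynomial k, LinearMap.charpoly (ρ2.ρ σ) = P.map (algebraMap k k2)) :
    ∃ ρ : ResidualGaloisRep k,
      (∀ σ, (LinearMap.charpoly (ρ.ρ σ)).map (algebraMap k k2) = LinearMap.charpoly (ρ2.ρ σ)) ∧
      (∀ σ, ρ2.ρ σ = 1 → ρ.ρ σ = 1) ∧
      (∀ q : ℕ, ρ2.IsUnramifiedAt q → ρ.IsUnramifiedAt q) := by
  obtain ⟨ρ, h1, h2⟩ := exists_descent ρ2.finrank_eq ρ2.ρ hP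
  obtain ⟨L, hL, hL'⟩ := ρ2.factorsThroughFiniteLevel
  refine ⟨{ V := Fin 2 → k, finrank_eq := by simp, ρ := ρ,
            factorsThroughFiniteLevel := ⟨L, hL, fun σ hσ => h2 σ (hL' σ hσ)⟩ }, ?_, h2, ?_⟩
  · intro σ
    exact h1 σ
  · intro q hq A hA σ hσ
    exact h2 σ (hq A hA σ hσ)

end Fermat.Agent.GR.H
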