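import Fermat.Agent.GR.H.Cyc

/-! # GR-H, piece H-DET : quadratic relation + Frobenius density + complex conjugation ⇒ charpoly

The core results `det_frobenius_of_density`, `charpoly_frobenius_of_density` only use the WEAK
hypothesis `FrobeniusDensityWeak` (first half of `FrobeniusDensity`). (helper64) -/

set_option autoImplicit false

open Polynomial

namespace Fermat.Agent.GR.H

/-- Cayley–Hamilton for `2 × 2` matrices, subtracted from a quadratic relation. -/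
theorem Det_matrix_key {R : Type*} [CommRing R] (M : Matrix (Fin 2) (Fin 2) R) (a d : R)
    (h : M * M - a • M + d • 1 = 0) :
    (M.trace - a) * M 0 1 = 0 ∧ (M.trace - a) * M 1 0 = 0 ∧
      (M.trace - a) * (M 0 0 - M 1 1) = 0 ∧ M.det - d = (M.trace - a) * M 0 0 := by
  have h00 := congrFun (congrFun h 0) 0
  have h01 := congrFun (congrFun h 0) 1
  have h10 := congrFun (congrFun h 1) 0
  have h11 := congrFun (congrFun h 1) 1
  simp only [Matrix.add_apply, Matrix.sub_apply, Matrix.smul_apply, Matrix.mul_apply,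
    Fin.sum_univ_two, Matrix.one_apply_eq, Matrix.zero_apply, smul_eq_mul, ne_eq,
    zero_ne_one, one_ne_zero, not_false_eq_true, Matrix.one_apply_ne, mul_zero, mul_one,
    add_zero] at h00 h01 h10 h11
  rw [Matrix.trace_fin_two, Matrix.det_fin_two]
  refine ⟨?_, ?_, ?_, ?_⟩
  · linear_combination h01
  · linear_combination h10
  · linear_combination h00 - h11
  · linear_combination (-1 : R) * h00

/-- A `2 × 2` matrix with vanishing off-diagonal entries and equal diagonal entries is scalar. -/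
theorem Det_matrix_scalar {R : Type*} [CommRing R] (M : Matrix (Fin 2) (Fin 2) R)
    (h01 : M 0 1 = 0) (h10 : M 1 0 = 0) (h : M 0 0 = M 1 1) : M = M 0 0 • 1 := by
  ext i j
  fin_cases i <;> fin_cases j <;> simp [h01, h10, h]

/-- A non-scalar `2 × 2` matrix over a domain killed by `X² - aX + d` has trace `a` and
determinant `d`. -/
theorem Det_matrix_trace_det {R : Type*} [CommRing R] [IsDomain R]
    (M : Matrix (Fin 2) (Fin 2) R) (a d : R) (h : M * M - a • M + d • 1 = 0)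
    (hns : ¬ ∃ s : R, M = s • 1) : M.trace = a ∧ M.det = d := by
  obtain ⟨h1, h2, h3, h4⟩ := Det_matrix_key M a d h
  have ht : M.trace - a = 0 := by
    by_contra hne
    refine hns ⟨M 0 0, Det_matrix_scalar M ?_ ?_ ?_⟩
    · exact (mul_eq_zero.mp h1).resolve_left hne
    · exact (mul_eq_zero.mp h2).resolve_left hne
    · exact sub_eq_zero.mp ((mul_eq_zero.mp h3).resolve_left hne)
  rw [ht, zero_mul] at h4
  exact ⟨sub_eq_zero.mp ht, sub_eq_zero.mp h4⟩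

/-- PIECE H-DET-1 (pure linear algebra). A non-scalar endomorphism of a free rank two module over
a domain killed by `X² - aX + d` has characteristic polynomial `X² - aX + d`. -/
theorem charpoly_of_not_scalar {𝒪 V : Type} [CommRing 𝒪] [IsDomain 𝒪] [AddCommGroup V]
    [Module 𝒪 V] [Module.Free 𝒪 V] [Module.Finite 𝒪 V] (hV : Module.finrank 𝒪 V = 2)
    (f : Module.End 𝒪 V) (a d : 𝒪) (hf : f * f - a • f + d • 1 = 0)
    (hns : ¬ ∃ s : 𝒪, f = s • 1) :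
    LinearMap.charpoly f = X ^ 2 - C a * X + C d := by
  let b : Module.Basis (Fin 2) 𝒪 V := Module.finBasisOfFinrankEq 𝒪 V hV
  let e := LinearMap.toMatrixAlgEquiv b
  have hM : e f * e f - a • e f + d • 1 = 0 := by
    have := congrArg e hf
    simpa only [map_add, map_sub, map_mul, map_smul, map_one, map_zero] using this
  have hnsM : ¬ ∃ s : 𝒪, e f = s • 1 := by
    rintro ⟨s, hs⟩
    refine hns ⟨s, e.injective ?_⟩
    rw [hs, map_smul, map_one]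
  obtain ⟨ht, hd⟩ := Det_matrix_trace_det (e f) a d hM hnsM
  have hc : LinearMap.charpoly f = (e f).charpoly := (LinearMap.charpoly_toMatrix f b).symm
  rw [hc, Matrix.charpoly_fin_two, ht, hd]

/-- The matrix of an endomorphism, reduced modulo an ideal. -/
noncomputable def Det_red {𝒪 V : Type} [CommRing 𝒪] [AddCommGroup V] [Module 𝒪 V]
    (b : Module.Basis (Fin 2) 𝒪 V) (I : Ideal 𝒪) :
    Module.End 𝒪 V →+* Matrix (Fin 2) (Fin 2) (𝒪 ⧸ I) :=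
  (Ideal.Quotient.mk I).mapMatrix.comp (LinearMap.toMatrixAlgEquiv b : Module.End 𝒪 V →+* _)

section red
variable {𝒪 V : Type} [CommRing 𝒪] [AddCommGroup V] [Module 𝒪 V]
  (b : Module.Basis (Fin 2) 𝒪 V) (I : Ideal 𝒪)

theorem Det_red_apply (f : Module.End 𝒪 V) (i j : Fin 2) :
    Det_red b I f i j = Ideal.Quotient.mk I (b.repr (f (b j)) i) := by
  simp [Det_red, LinearMap.toMatrixAlgEquiv_apply]

theorem Det_repr_mem {x : V} (hx : x ∈ I • (⊤ : Submodule 𝒪 V)) (i : Fin 2) :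
    b.repr x i ∈ I := by
  refine Submodule.smul_induction_on (p := fun x => b.repr x i ∈ I) hx ?_ ?_
  · intro a ha w _
    rw [map_smul, Finsupp.smul_apply, smul_eq_mul]
    exact I.mul_mem_right _ ha
  · intro x y hx hy
    rw [map_add, Finsupp.add_apply]
    exact I.add_mem hx hy

theorem Det_red_eq_one {f : Module.End 𝒪 V}
    (hf : ∀ v, f v - v ∈ I • (⊤ : Submodule 𝒪 V)) : Det_red b I f = 1 := by
  rw [← sub_eq_zero, ← map_one (Det_red b I), ← map_sub]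
  ext i j
  rw [Det_red_apply, Matrix.zero_apply, Ideal.Quotient.eq_zero_iff_mem]
  exact Det_repr_mem b I (hf (b j)) i

theorem Det_red_det (f : Module.End 𝒪 V) :
    (Det_red b I f).det = Ideal.Quotient.mk I (LinearMap.det f) := by
  rw [← LinearMap.det_toMatrix b f, RingHom.map_det]
  rfl

theorem Det_red_smul_one (s : 𝒪) :
    Det_red b I (s • 1) = Ideal.Quotient.mk I s • 1 := by
  ext i j
  rw [Det_red_apply]
  fin_cases i <;> fin_cases j <;> simp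

theorem Det_red_mulVec (f : Module.End 𝒪 V) (x : V) (i : Fin 2) :
    (Det_red b I f).mulVec (fun k => Ideal.Quotient.mk I (b.repr x k)) i =
      Ideal.Quotient.mk I (b.repr (f x) i) := by
  have h := congrFun (LinearMap.toMatrix_mulVec_repr b b f x) i
  rw [← h]
  simp [Matrix.mulVec, dotProduct, Det_red_apply, LinearMap.toMatrix_apply]

end red

theorem Det_not_scalar_of_conj {𝒪 V : Type} [CommRing 𝒪] [AddCommGroup V] [Module 𝒪 V]
    (b : Module.Basis (Fin 2) 𝒪 V) (I : Ideal 𝒪) (f : Module.End 𝒪 V) (x y : V) (i k : Fin 2)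
    (hfx : f x = x) (hfy : f y = -y) (hI : 2 * (b.repr x i * b.repr y k) ∉ I) :
    ¬ ∃ t : 𝒪 ⧸ I, Det_red b I f = t • 1 := by
  rintro ⟨t, ht⟩
  have h1 := Det_red_mulVec b I f x i
  have h2 := Det_red_mulVec b I f y k
  rw [ht, hfx, Matrix.smul_mulVec, Matrix.one_mulVec, Pi.smul_apply, smul_eq_mul] at h1
  rw [ht, hfy, Matrix.smul_mulVec, Matrix.one_mulVec, Pi.smul_apply, smul_eq_mul, map_neg,
    Finsupp.neg_apply, map_neg] at h2
  apply hI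
  rw [← Ideal.Quotient.eq_zero_iff_mem, map_mul, map_mul, map_ofNat]
  linear_combination -(Ideal.Quotient.mk I (b.repr y k) * h1 -
    Ideal.Quotient.mk I (b.repr x i) * h2)

theorem Det_exists_notMem_pow {𝒪 : Type} [CommRing 𝒪] [IsLocalRing 𝒪] [IsNoetherianRing 𝒪]
    {z : 𝒪} (hz : z ≠ 0) :
    ∃ n0 : ℕ, ∀ n, n0 ≤ n → z ∉ IsLocalRing.maximalIdeal 𝒪 ^ n := by
  have h := Ideal.iInf_pow_eq_bot_of_isLocalRing (IsLocalRing.maximalIdeal 𝒪)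
    (Ideal.IsPrime.ne_top inferInstance)
  by_contra hcon
  push Not at hcon
  apply hz
  rw [← Ideal.mem_bot, ← h, Ideal.mem_iInf]
  intro n
  obtain ⟨m, hm, hzm⟩ := hcon n
  exact Ideal.pow_le_pow_right hm hzm

theorem Det_exists_not_scalar {𝒪 V : Type} [CommRing 𝒪] [IsDomain 𝒪] [CharZero 𝒪]
    [IsLocalRing 𝒪] [IsNoetherianRing 𝒪] [AddCommGroup V] [Module 𝒪 V]
    (b : Module.Basis (Fin 2) 𝒪 V) (f : Module.End 𝒪 V) (x y : V) (hx : x ≠ 0) (hy : y ≠ 0)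
    (hfx : f x = x) (hfy : f y = -y) :
    ∃ n0 : ℕ, ∀ n, n0 ≤ n →
      ¬ ∃ t : 𝒪 ⧸ IsLocalRing.maximalIdeal 𝒪 ^ n,
        Det_red b (IsLocalRing.maximalIdeal 𝒪 ^ n) f = t • 1 := by
  obtain ⟨i, hi⟩ : ∃ i, b.repr x i ≠ 0 := by
    by_contra hcon
    push Not at hcon
    exact hx (b.repr.map_eq_zero_iff.mp (Finsupp.ext hcon))
  obtain ⟨k, hk⟩ : ∃ k, b.repr y k ≠ 0 := by
    by_contra hcon
    push Not at hcon
    exact hy (b.repr.map_eq_zero_iff.mp (Finsupp.ext hcon))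
  obtain ⟨n0, hn0⟩ := Det_exists_notMem_pow (𝒪 := 𝒪)
    (z := 2 * (b.repr x i * b.repr y k)) (mul_ne_zero two_ne_zero (mul_ne_zero hi hk))
  exact ⟨n0, fun n hn => Det_not_scalar_of_conj b _ f x y i k hfx hfy (hn0 n hn)⟩

/-- WEAK INTERFACE (what GR-G really delivers: Frobenius' density theorem, existence form).
Every `g` agrees on `L` with a power of a Frobenius element at a prime outside `S`. -/
def FrobeniusDensityWeak : Prop :=
  ∀ (L : IntermediateField ℚ (AlgebraicClosure ℚ)), FiniteDimensional ℚ L →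
    ∀ (S : Finset ℕ) (g : GQ),
      ∃ (ℓ : ℕ) (A : ValuationSubring (AlgebraicClosure ℚ)) (τ : GQ) (j : ℕ),
        ℓ.Prime ∧ ℓ ∉ S ∧ A.LiesOverPrime ℓ ∧ A.IsFrobeniusAt τ ℓ ∧ ∀ x ∈ L, (τ ^ j) x = g x

theorem FrobeniusDensity.weak (dens : FrobeniusDensity) : FrobeniusDensityWeak := by
  intro L hL S g
  obtain ⟨ℓ, A, σ, h1, h2, h3, h4, ⟨k, h5⟩, -⟩ := dens L hL S g
  exact ⟨ℓ, A, σ, k, h1, h2, h3, h4, h5⟩

/-- trace and determinant of a non-scalar endomorphism killed by `X² - aX + d`. -/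
theorem Det_det_of_not_scalar {𝒪 V : Type} [CommRing 𝒪] [IsDomain 𝒪] [AddCommGroup V]
    [Module 𝒪 V] (b : Module.Basis (Fin 2) 𝒪 V)
    (f : Module.End 𝒪 V) (a d : 𝒪) (hf : f * f - a • f + d • 1 = 0)
    (hns : ¬ ∃ s : 𝒪, f = s • 1) : LinearMap.det f = d := by
  let e := LinearMap.toMatrixAlgEquiv b
  have hM : e f * e f - a • e f + d • 1 = 0 := by
    have := congrArg e hf
    simpa only [map_add, map_sub, map_mul, map_smul, map_one, map_zero] using this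
  have hnsM : ¬ ∃ s : 𝒪, e f = s • 1 := by
    rintro ⟨s, hs⟩
    refine hns ⟨s, e.injective ?_⟩
    rw [hs, map_smul, map_one]
  obtain ⟨-, hd⟩ := Det_matrix_trace_det (e f) a d hM hnsM
  rw [← hd]
  exact (LinearMap.det_toMatrix b f).symm

theorem Det_pow_apply_root (τ : GQ) (ζ : AlgebraicClosure ℚ) (ℓ : ℕ) (h : τ ζ = ζ ^ ℓ) (j : ℕ) :
    (τ ^ j) ζ = ζ ^ (ℓ ^ j) := by
  induction j with
  | zero => simp
  | succ j ih =>
    rw [pow_succ', AlgEquiv.mul_apply, ih, map_pow, h, ← pow_mul, pow_succ']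

/-- Claim A: if `ρ g` is not scalar modulo `𝔪ⁿ` then `det ρ g ≡ χ(g)` modulo `𝔪ⁿ`. -/
theorem Det_claimA (dens : FrobeniusDensityWeak) (p : ℕ) [Fact p.Prime] (𝒪 : Type) [CommRing 𝒪]
    [IsDomain 𝒪] [IsLocalRing 𝒪]
    (ρ : GaloisRepAdic 𝒪) (S : Finset ℕ)
    (hpS : p ∈ S) (a : ℕ → 𝒪)
    (hES : ∀ ℓ : ℕ, ℓ.Prime → ℓ ∉ S → ∀ A : ValuationSubring (AlgebraicClosure ℚ),
      A.LiesOverPrime ℓ → ∀ σ : GQ, A.IsFrobeniusAt σ ℓ →
        ρ.ρ σ * ρ.ρ σ - a ℓ • ρ.ρ σ + (ℓ : 𝒪) • 1 = 0)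
    (b : Module.Basis (Fin 2) 𝒪 ρ.V) (n : ℕ) (ζ : AlgebraicClosure ℚ) (hζ : ζ ^ (p ^ n) = 1)
    (g : GQ)
    (hg : ¬ ∃ t : 𝒪 ⧸ IsLocalRing.maximalIdeal 𝒪 ^ n,
      Det_red b (IsLocalRing.maximalIdeal 𝒪 ^ n) (ρ.ρ g) = t • 1) :
    ∃ e : ℕ, g ζ = ζ ^ e ∧
      Ideal.Quotient.mk (IsLocalRing.maximalIdeal 𝒪 ^ n) (LinearMap.det (ρ.ρ g)) =
        (e : 𝒪 ⧸ IsLocalRing.maximalIdeal 𝒪 ^ n) := by
  obtain ⟨L0, hL0, hL0'⟩ := ρ.isAdicContinuous n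
  have hζint : IsIntegral ℚ ζ := (AlgebraicClosure.isAlgebraic ℚ).isAlgebraic ζ |>.isIntegral
  have hfd : FiniteDimensional ℚ (IntermediateField.adjoin ℚ {ζ}) :=
    IntermediateField.adjoin.finiteDimensional hζint
  have hL : FiniteDimensional ℚ (L0 ⊔ IntermediateField.adjoin ℚ {ζ} :
      IntermediateField ℚ (AlgebraicClosure ℚ)) := IntermediateField.finiteDimensional_sup _ _
  obtain ⟨ℓ, A, τ, j, hℓ, hℓS, hA, hτ, hj⟩ := dens _ hL S g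
  set R := Det_red b (IsLocalRing.maximalIdeal 𝒪 ^ n) with hR
  have h1 : R (ρ.ρ (g⁻¹ * τ ^ j)) = 1 := by
    refine Det_red_eq_one b _ (hL0' _ fun x hx => ?_)
    rw [AlgEquiv.mul_apply, hj x (le_sup_left (a := L0) hx)]
    exact g.symm_apply_apply x
  have h2 : R (ρ.ρ τ) ^ j = R (ρ.ρ g) := by
    have h3 : R (ρ.ρ g) * R (ρ.ρ (g⁻¹ * τ ^ j)) = R (ρ.ρ τ) ^ j := by
      rw [← map_mul, ← map_mul, mul_inv_cancel_left, map_pow, map_pow]
    rw [← h3, h1, mul_one]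
  have hns : ¬ ∃ s : 𝒪, ρ.ρ τ = s • 1 := by
    rintro ⟨s, hs⟩
    refine hg ⟨Ideal.Quotient.mk _ s ^ j, ?_⟩
    rw [← h2, hs, hR, Det_red_smul_one, _root_.smul_pow, one_pow]
  have hdet : LinearMap.det (ρ.ρ τ) = (ℓ : 𝒪) :=
    Det_det_of_not_scalar b _ (a ℓ) _ (hES ℓ hℓ hℓS A hA τ hτ) hns
  have hℓp : ¬ ℓ ∣ p ^ n := by
    intro hdvd
    have := (Nat.prime_dvd_prime_iff_eq hℓ (Fact.out : p.Prime)).mp (hℓ.dvd_of_dvd_pow hdvd)
    exact hℓS (this ▸ hpS)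
  have hτζ : τ ζ = ζ ^ ℓ := frobenius_rootOfUnity A ℓ hℓ hA τ hτ (p ^ n) hℓp ζ hζ
  refine ⟨ℓ ^ j, ?_, ?_⟩
  · rw [← Det_pow_apply_root τ ζ ℓ hτζ j]
    refine (hj ζ (le_sup_right (a := L0) ?_)).symm
    exact IntermediateField.mem_adjoin_simple_self ℚ ζ
  · rw [← Det_red_det b, ← hR, ← h2, Matrix.det_pow, hR, Det_red_det, hdet]
    simp

/-- `det ρ` is the cyclotomic character on Frobenius elements: version that only uses
Frobenius' density theorem. -/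
theorem det_frobenius_of_density (dens : FrobeniusDensityWeak) (p : ℕ) [Fact p.Prime] (𝒪 : Type)
    [CommRing 𝒪] [IsDomain 𝒪] [IsLocalRing 𝒪] [IsNoetherianRing 𝒪] [CharZero 𝒪]
    (hp : (p : 𝒪) ∈ IsLocalRing.maximalIdeal 𝒪) (ρ : GaloisRepAdic 𝒪) (S : Finset ℕ)
    (hpS : p ∈ S) (a : ℕ → 𝒪)
    (hES : ∀ ℓ : ℕ, ℓ.Prime → ℓ ∉ S → ∀ A : ValuationSubring (AlgebraicClosure ℚ),
      A.LiesOverPrime ℓ → ∀ σ : GQ, A.IsFrobeniusAt σ ℓ →
        ρ.ρ σ * ρ.ρ σ - a ℓ • ρ.ρ σ + (ℓ : 𝒪) • 1 = 0)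
    (hc : ∃ (c : GQ) (x y : ρ.V), x ≠ 0 ∧ y ≠ 0 ∧ ρ.ρ c x = x ∧ ρ.ρ c y = -y) :
    ∀ ℓ : ℕ, ℓ.Prime → ℓ ∉ S → ∀ A : ValuationSubring (AlgebraicClosure ℚ),
      A.LiesOverPrime ℓ → ∀ σ : GQ, A.IsFrobeniusAt σ ℓ →
        LinearMap.det (ρ.ρ σ) = (ℓ : 𝒪) := by
  intro ℓ hℓ hℓS A hA σ hσ
  let b : Module.Basis (Fin 2) 𝒪 ρ.V := Module.finBasisOfFinrankEq 𝒪 ρ.V ρ.finrank_eq
  by_cases hs : ∃ s : 𝒪, ρ.ρ σ = s • 1
  swap
  · exact Det_det_of_not_scalar b _ (a ℓ) _ (hES ℓ hℓ hℓS A hA σ hσ) hs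
  obtain ⟨s, hs⟩ := hs
  obtain ⟨c, x, y, hx, hy, hcx, hcy⟩ := hc
  obtain ⟨n0, hn0⟩ := Det_exists_not_scalar b (ρ.ρ c) x y hx hy hcx hcy
  have key : ∀ n, n0 ≤ n →
      LinearMap.det (ρ.ρ σ) - (ℓ : 𝒪) ∈ IsLocalRing.maximalIdeal 𝒪 ^ n := by
    intro n hn
    obtain ⟨ζ, hζ⟩ : ∃ ζ : AlgebraicClosure ℚ, IsPrimitiveRoot ζ (p ^ n) :=
      HasEnoughRootsOfUnity.exists_primitiveRoot _ _
    have hcn := hn0 n hn
    set I := IsLocalRing.maximalIdeal 𝒪 ^ n with hI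
    set R := Det_red b I with hR
    have hσc : ¬ ∃ t : 𝒪 ⧸ I, R (ρ.ρ (σ * c)) = t • 1 := by
      rintro ⟨t, ht⟩
      apply hcn
      have h2 : Ideal.Quotient.mk I s • R (ρ.ρ σ⁻¹) = 1 := by
        have h : R (ρ.ρ σ) * R (ρ.ρ σ⁻¹) = 1 := by
          rw [← map_mul, ← map_mul, mul_inv_cancel, map_one, map_one]
        rwa [hs, hR, Det_red_smul_one, smul_mul_assoc, one_mul] at h
      have h3 : Ideal.Quotient.mk I s • R (ρ.ρ c) = t • 1 := by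
        rw [← ht, map_mul, map_mul, hs, hR, Det_red_smul_one, smul_mul_assoc, one_mul]
      have h4 : Ideal.Quotient.mk I s * R (ρ.ρ σ⁻¹) 0 0 = 1 := by
        have := congrFun (congrFun h2 0) 0
        simpa using this
      refine ⟨R (ρ.ρ σ⁻¹) 0 0 * t, ?_⟩
      rw [mul_smul, ← h3, smul_smul, mul_comm _ (Ideal.Quotient.mk I s), h4, one_smul]
    obtain ⟨e1, he1, hd1⟩ :=
      Det_claimA dens p 𝒪 ρ S hpS a hES b n ζ hζ.pow_eq_one (σ * c) hσc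
    obtain ⟨e2, he2, hd2⟩ := Det_claimA dens p 𝒪 ρ S hpS a hES b n ζ hζ.pow_eq_one c hcn
    have hℓp : ¬ ℓ ∣ p ^ n := by
      intro hdvd
      have := (Nat.prime_dvd_prime_iff_eq hℓ (Fact.out : p.Prime)).mp (hℓ.dvd_of_dvd_pow hdvd)
      exact hℓS (this ▸ hpS)
    have hσζ : σ ζ = ζ ^ ℓ := frobenius_rootOfUnity A ℓ hℓ hA σ hσ (p ^ n) hℓp ζ hζ.pow_eq_one
    have h5 : ζ ^ e1 = ζ ^ (e2 * ℓ) := by
      rw [← he1, AlgEquiv.mul_apply, he2, map_pow, hσζ, ← pow_mul, mul_comm]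
    have hpn0 : 0 < p ^ n := pow_pos (Fact.out : p.Prime).pos n
    have h6 : e1 ≡ e2 * ℓ [MOD p ^ n] := by
      have := (hζ.isOfFinOrder hpn0.ne').pow_eq_pow_iff_modEq.mp h5
      rwa [← hζ.eq_orderOf] at this
    have hpn : ((p : 𝒪 ⧸ I)) ^ n = 0 := by
      have : Ideal.Quotient.mk I ((p : 𝒪) ^ n) = 0 :=
        Ideal.Quotient.eq_zero_iff_mem.mpr (Ideal.pow_mem_pow hp n)
      simpa using this
    have h7 : (e1 : 𝒪 ⧸ I) = (e2 : 𝒪 ⧸ I) * (ℓ : 𝒪 ⧸ I) := by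
      obtain ⟨k, hk⟩ := (Nat.modEq_iff_dvd.mp h6)
      have h := congrArg (Int.cast : ℤ → 𝒪 ⧸ I) hk
      push_cast at h
      rw [hpn, zero_mul] at h
      exact (sub_eq_zero.mp h).symm
    have h8 : Ideal.Quotient.mk I (LinearMap.det (ρ.ρ σ)) *
        Ideal.Quotient.mk I (LinearMap.det (ρ.ρ c)) =
        Ideal.Quotient.mk I (LinearMap.det (ρ.ρ c)) * (ℓ : 𝒪 ⧸ I) := by
      rw [← map_mul, ← map_mul, ← map_mul, hd1, h7, hd2]
    have h9 : Ideal.Quotient.mk I (LinearMap.det (ρ.ρ c)) *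
        Ideal.Quotient.mk I (LinearMap.det (ρ.ρ c⁻¹)) = 1 := by
      rw [← map_mul, ← map_mul, ← map_mul, mul_inv_cancel, map_one, map_one, map_one]
    rw [← Ideal.Quotient.eq_zero_iff_mem, map_sub, map_natCast]
    linear_combination Ideal.Quotient.mk I (LinearMap.det (ρ.ρ c⁻¹)) * h8 -
      (Ideal.Quotient.mk I (LinearMap.det (ρ.ρ σ)) - (ℓ : 𝒪 ⧸ I)) * h9
  by_contra hne
  obtain ⟨n1, hn1⟩ := Det_exists_notMem_pow (sub_ne_zero.mpr hne)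
  exact hn1 (max n0 n1) (le_max_right _ _) (key _ (le_max_left _ _))

/-- A (possibly scalar) endomorphism killed by `X² - aX + d` with determinant `d ≠ 0` has
characteristic polynomial `X² - aX + d`. -/
theorem Det_charpoly_of_det {𝒪 V : Type} [CommRing 𝒪] [IsDomain 𝒪] [AddCommGroup V]
    [Module 𝒪 V] [Module.Free 𝒪 V] [Module.Finite 𝒪 V] (hV : Module.finrank 𝒪 V = 2)
    (f : Module.End 𝒪 V) (a d : 𝒪) (hf : f * f - a • f + d • 1 = 0)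
    (hdet : LinearMap.det f = d) (hd : d ≠ 0) :
    LinearMap.charpoly f = X ^ 2 - C a * X + C d := by
  by_cases hns : ∃ s : 𝒪, f = s • 1
  swap
  · exact charpoly_of_not_scalar hV f a d hf hns
  obtain ⟨s, rfl⟩ := hns
  let b : Module.Basis (Fin 2) 𝒪 V := Module.finBasisOfFinrankEq 𝒪 V hV
  let e := LinearMap.toMatrixAlgEquiv b
  have he : e (s • 1) = s • 1 := by rw [map_smul, map_one]
  have hM : (s • 1 : Matrix (Fin 2) (Fin 2) 𝒪) * (s • 1) - a • (s • 1) + d • 1 = 0 := by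
    have := congrArg e hf
    simpa only [map_add, map_sub, map_mul, map_smul, map_one, map_zero] using this
  have h00 : s * s - a * s + d = 0 := by
    have := congrFun (congrFun hM 0) 0
    simpa using this
  have hss : s * s = d := by
    rw [← hdet, ← LinearMap.det_toMatrix b]
    change _ = (e (s • 1)).det
    rw [he, Matrix.det_fin_two]
    simp
  have hs0 : s ≠ 0 := by
    rintro rfl
    exact hd (by rw [← hss, mul_zero])
  have ha : s + s = a := by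
    apply mul_right_cancel₀ hs0
    linear_combination h00 + hss
  have hc : LinearMap.charpoly (s • 1 : Module.End 𝒪 V) = (e (s • 1)).charpoly :=
    (LinearMap.charpoly_toMatrix _ b).symm
  rw [hc, he, Matrix.charpoly_fin_two, Matrix.trace_fin_two, Matrix.det_fin_two]
  simp [ha, hss]

theorem charpoly_frobenius_of_density (dens : FrobeniusDensityWeak) (p : ℕ) [Fact p.Prime]
    (𝒪 : Type) [CommRing 𝒪] [IsDomain 𝒪] [IsLocalRing 𝒪] [IsNoetherianRing 𝒪] [CharZero 𝒪]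
    (hp : (p : 𝒪) ∈ IsLocalRing.maximalIdeal 𝒪) (ρ : GaloisRepAdic 𝒪) (S : Finset ℕ)
    (hpS : p ∈ S) (a : ℕ → 𝒪)
    (hES : ∀ ℓ : ℕ, ℓ.Prime → ℓ ∉ S → ∀ A : ValuationSubring (AlgebraicClosure ℚ),
      A.LiesOverPrime ℓ → ∀ σ : GQ, A.IsFrobeniusAt σ ℓ →
        ρ.ρ σ * ρ.ρ σ - a ℓ • ρ.ρ σ + (ℓ : 𝒪) • 1 = 0)
    (hc : ∃ (c : GQ) (x y : ρ.V), x ≠ 0 ∧ y ≠ 0 ∧ ρ.ρ c x = x ∧ ρ.ρ c y = -y) :
    ∀ ℓ : ℕ, ℓ.Prime → ℓ ∉ S → ∀ A : ValuationSubring (AlgebraicClosure ℚ),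
      A.LiesOverPrime ℓ → ∀ σ : GQ, A.IsFrobeniusAt σ ℓ →
        LinearMap.charpoly (ρ.ρ σ) = X ^ 2 - C (a ℓ) * X + C ((ℓ : 𝒪)) := by
  intro ℓ hℓ hℓS A hA σ hσ
  exact Det_charpoly_of_det ρ.finrank_eq _ _ _ (hES ℓ hℓ hℓS A hA σ hσ)
    (det_frobenius_of_density dens p 𝒪 hp ρ S hpS a hES hc ℓ hℓ hℓS A hA σ hσ)
    (Nat.cast_ne_zero.mpr hℓ.ne_zero)

/-- PIECE H-DET-2. `det ρ` is the cyclotomic character, on Frobenius elements. -/
theorem det_frobenius (cheb : FrobeniusDensity) (p : ℕ) [Fact p.Prime] (𝒪 : Type) [CommRing 𝒪]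
    [IsDomain 𝒪] [IsDiscreteValuationRing 𝒪] [CharZero 𝒪]
    (hp : (p : 𝒪) ∈ IsLocalRing.maximalIdeal 𝒪) (ρ : GaloisRepAdic 𝒪) (S : Finset ℕ)
    (hpS : p ∈ S) (a : ℕ → 𝒪)
    (hES : ∀ ℓ : ℕ, ℓ.Prime → ℓ ∉ S → ∀ A : ValuationSubring (AlgebraicClosure ℚ),
      A.LiesOverPrime ℓ → ∀ σ : GQ, A.IsFrobeniusAt σ ℓ →
        ρ.ρ σ * ρ.ρ σ - a ℓ • ρ.ρ σ + (ℓ : 𝒪) • 1 = 0)
    (hc : ∃ (c : GQ) (x y : ρ.V), x ≠ 0 ∧ y ≠ 0 ∧ ρ.ρ c x = x ∧ ρ.ρ c y = -y) :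
    ∀ ℓ : ℕ, ℓ.Prime → ℓ ∉ S → ∀ A : ValuationSubring (AlgebraicClosure ℚ),
      A.LiesOverPrime ℓ → ∀ σ : GQ, A.IsFrobeniusAt σ ℓ →
        LinearMap.det (ρ.ρ σ) = (ℓ : 𝒪) :=
  det_frobenius_of_density cheb.weak p 𝒪 hp ρ S hpS a hES hc

/-- PIECE H-DET-3. -/
theorem charpoly_frobenius (cheb : FrobeniusDensity) (p : ℕ) [Fact p.Prime] (𝒪 : Type)
    [CommRing 𝒪] [IsDomain 𝒪] [IsDiscreteValuationRing 𝒪] [CharZero 𝒪]
    (hp : (p : 𝒪) ∈ IsLocalRing.maximalIdeal 𝒪) (ρ : GaloisRepAdic 𝒪) (S : Finset ℕ)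
    (hpS : p ∈ S) (a : ℕ → 𝒪)
    (hES : ∀ ℓ : ℕ, ℓ.Prime → ℓ ∉ S → ∀ A : ValuationSubring (AlgebraicClosure ℚ),
      A.LiesOverPrime ℓ → ∀ σ : GQ, A.IsFrobeniusAt σ ℓ →
        ρ.ρ σ * ρ.ρ σ - a ℓ • ρ.ρ σ + (ℓ : 𝒪) • 1 = 0)
    (hc : ∃ (c : GQ) (x y : ρ.V), x ≠ 0 ∧ y ≠ 0 ∧ ρ.ρ c x = x ∧ ρ.ρ c y = -y) :
    ∀ ℓ : ℕ, ℓ.Prime → ℓ ∉ S → ∀ A : ValuationSubring (AlgebraicClosure ℚ),
      A.LiesOverPrime ℓ → ∀ σ : GQ, A.IsFrobeniusAt σ ℓ →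
        LinearMap.charpoly (ρ.ρ σ) = X ^ 2 - C (a ℓ) * X + C ((ℓ : 𝒪)) :=
  charpoly_frobenius_of_density cheb.weak p 𝒪 hp ρ S hpS a hES hc

end Fermat.Agent.GR.H
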