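import Mathlib

/-!
# Finite extensions of complete discrete valuation rings

`exists_dvr_splitting_extension`: for a complete DVR `O` of characteristic zero with finite residue field
and a monic polynomial `f` over `O`, there is a finite local extension `O2` of `O`, again a
complete DVR of characteristic zero with finite residue field, over which `f` splits.
-/

namespace Fermat.Agent.GR.H.DvrExt

open Polynomial IsLocalRing

section Precomplete

/-- A module with a finite basis over an `I`-adically precomplete ring is precomplete. -/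
theorem isPrecomplete_of_basis {R M ι : Type*} [CommRing R] [AddCommGroup M] [Module R M]
    [Finite ι] (I : Ideal R) [IsPrecomplete I R] (b : Module.Basis ι R M) :
    IsPrecomplete I M := by
  classical
  cases nonempty_fintype ι
  refine ⟨fun f hf => ?_⟩
  have key : ∀ i : ι, ∃ L : R, ∀ n, b.repr (f n) i ≡ L [SMOD (I ^ n • ⊤ : Submodule R R)] := by
    intro i
    refine IsPrecomplete.prec' (fun n => b.repr (f n) i) ?_
    intro m n hmn
    have h := SModEq.map (hf hmn) (b.coord i)
    refine SModEq.mono ?_ h
    rw [Submodule.map_smul'']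
    exact Submodule.smul_mono le_rfl le_top
  choose L hL using key
  refine ⟨∑ i, L i • b i, fun n => ?_⟩
  conv_lhs => rw [← b.sum_repr (f n)]
  refine SModEq.sum fun i _ => ?_
  rw [SModEq.sub_mem, ← sub_smul]
  have h := (hL i n)
  rw [SModEq.sub_mem, smul_eq_mul, Ideal.mul_top] at h
  exact Submodule.smul_mem_smul h Submodule.mem_top

/-- Comparison of adic precompleteness for two ideals defining the same topology. -/
theorem isPrecomplete_of_pow_le {R : Type*} [CommRing R] (I J : Ideal R) (e : ℕ)
    (hIJ : I ≤ J) (hJI : J ^ e ≤ I) [IsPrecomplete I R] : IsPrecomplete J R := by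
  refine ⟨fun f hf => ?_⟩
  have hJI' : J ^ (e + 1) ≤ I := (Ideal.pow_le_pow_right (Nat.le_succ e)).trans hJI
  obtain ⟨L, hL⟩ := IsPrecomplete.prec' (I := I) (fun n => f ((e + 1) * n)) (by
    intro m n hmn
    have h := hf (Nat.mul_le_mul_left (e + 1) hmn)
    refine SModEq.mono ?_ h
    rw [smul_eq_mul, Ideal.mul_top, smul_eq_mul, Ideal.mul_top, pow_mul]
    exact Ideal.pow_right_mono hJI' m)
  refine ⟨L, fun n => ?_⟩
  have h1 : f n ≡ f ((e + 1) * n) [SMOD (J ^ n • ⊤ : Ideal R)] :=
    hf (Nat.le_mul_of_pos_left n (Nat.succ_pos e))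
  refine h1.trans (SModEq.mono ?_ (hL n))
  rw [smul_eq_mul, Ideal.mul_top, smul_eq_mul, Ideal.mul_top]
  exact Ideal.pow_right_mono hIJ n

end Precomplete

section Local

/-- In a finite monoid some positive power of any element is idempotent. -/
theorem exists_pow_idem {M : Type*} [Monoid M] [Finite M] (x : M) :
    ∃ k : ℕ, 0 < k ∧ x ^ k * x ^ k = x ^ k := by
  obtain ⟨m, n, hmn, h⟩ : ∃ m n : ℕ, m < n ∧ x ^ m = x ^ n := by
    obtain ⟨a, b, hab, h⟩ := Finite.exists_ne_map_eq_of_infinite (fun n : ℕ => x ^ n)
    rcases lt_or_gt_of_ne hab with h' | h'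
    · exact ⟨a, b, h', h⟩
    · exact ⟨b, a, h', h.symm⟩
  obtain ⟨d, rfl⟩ := Nat.exists_eq_add_of_lt hmn
  -- x^m = x^(m+d+1)
  have h1 : ∀ k, m ≤ k → x ^ (k + (d + 1)) = x ^ k := by
    intro k hk
    obtain ⟨c, rfl⟩ := Nat.exists_eq_add_of_le hk
    rw [show m + c + (d + 1) = (m + d + 1) + c by ring, pow_add, ← h, ← pow_add]
  have h2 : ∀ j k, m ≤ k → x ^ (k + j * (d + 1)) = x ^ k := by
    intro j
    induction j with
    | zero => intro k _; simp
    | succ j ih =>
      intro k hk
      rw [show k + (j + 1) * (d + 1) = (k + j * (d + 1)) + (d + 1) by ring,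
        h1 _ (hk.trans (Nat.le_add_right _ _)), ih k hk]
  refine ⟨(m + 1) * (d + 1), by positivity, ?_⟩
  rw [← pow_add]
  exact h2 (m + 1) _ (by nlinarith)

/-- A domain which is adically complete for an ideal with finite quotient is local. -/
theorem isLocalRing_of_complete_of_finite_quotient {B : Type*} [CommRing B] [IsDomain B]
    (I : Ideal B) [IsAdicComplete I B] [Finite (B ⧸ I)] : IsLocalRing B := by
  have hjac : I ≤ (⊥ : Ideal B).jacobson := IsAdicComplete.le_jacobson_bot I
  have hle : ∀ P : Ideal B, P.IsMaximal → I ≤ P := fun P hP =>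
    hjac.trans (by
      rw [Ideal.jacobson]
      exact sInf_le ⟨bot_le, hP⟩)
  obtain ⟨P, hP⟩ := Ideal.exists_maximal B
  refine IsLocalRing.of_unique_max_ideal ⟨P, hP, fun Q hQ => ?_⟩
  by_contra hne
  have hsup : Q ⊔ P = ⊤ := Ideal.IsMaximal.coprime_of_ne hQ hP hne
  obtain ⟨x, hx, y, hy, hxy⟩ := Submodule.mem_sup.mp (hsup ▸ Submodule.mem_top : (1 : B) ∈ Q ⊔ P)
  obtain ⟨k, hk, hidem⟩ := exists_pow_idem (Ideal.Quotient.mk I x)
  -- Hensel lifting of the idempotent
  have hH : HenselianRing B I := inferInstance
  obtain ⟨e, he, hex⟩ := hH.is_henselian (X ^ 2 - X) (by monicity!) (x ^ k)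
    (by
      rw [← Ideal.Quotient.eq_zero_iff_mem]
      simp only [eval_sub, eval_pow, eval_X, map_sub, map_pow]
      rw [sq, hidem, sub_self])
    (by
      have hd : (derivative (X ^ 2 - X : B[X])).eval (x ^ k) = 2 * x ^ k - 1 := by
        simp; left; norm_num
      rw [hd]
      refine IsUnit.of_mul_eq_one (Ideal.Quotient.mk I (2 * x ^ k - 1)) ?_
      simp only [map_sub, map_mul, map_pow, map_one, map_ofNat]
      linear_combination 4 * hidem)
  have he2 : e * (e - 1) = 0 := by
    have := he
    simp only [IsRoot.def, eval_sub, eval_pow, eval_X] at this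
    linear_combination this
  have hxk : x ^ k ∈ Q := Ideal.pow_mem_of_mem Q hx k hk
  have hxk' : x ^ k - 1 ∈ P := by
    have h1 : x - 1 ∈ P := by
      have : x - 1 = -y := by linear_combination hxy
      rw [this]; exact P.neg_mem hy
    have := sub_dvd_pow_sub_pow x 1 k
    rw [one_pow] at this
    exact Ideal.mem_of_dvd P this h1
  rcases mul_eq_zero.mp he2 with h0 | h1
  · -- e = 0 : then x^k ∈ I ≤ P so 1 ∈ P
    rw [h0, zero_sub] at hex
    have : x ^ k ∈ P := by simpa using P.neg_mem (hle P hP hex)
    exact hP.ne_top ((Ideal.eq_top_iff_one P).mpr (by simpa using P.sub_mem this hxk'))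
  · have h1' : e = 1 := by linear_combination h1
    rw [h1'] at hex
    exact hQ.ne_top ((Ideal.eq_top_iff_one Q).mpr (by simpa using Q.add_mem (hle Q hQ hex) hxk))

end Local

/-- The key properties of a finite torsion-free Dedekind extension of a complete DVR. -/
theorem dvr_ext_aux (O B : Type*) [CommRing O] [IsDomain O] [IsDiscreteValuationRing O]
    [IsAdicComplete (maximalIdeal O) O] [Finite (ResidueField O)]
    [CommRing B] [Algebra O B] [Module.Finite O B] [IsDedekindDomain B]
    [Module.IsTorsionFree O B] :
    ∃ (_ : IsDiscreteValuationRing B), IsAdicComplete (maximalIdeal B) B ∧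
      Finite (ResidueField B) ∧ IsLocalHom (algebraMap O B) := by
  set I : Ideal B := (maximalIdeal O).map (algebraMap O B) with hI
  have hinj : Function.Injective (algebraMap O B) := FaithfulSMul.algebraMap_injective O B
  have : Module.Free O B := inferInstance
  have : IsNoetherianRing B := inferInstance
  have : Algebra.IsIntegral O B := inferInstance
  -- `I ≠ ⊤`
  have hItop : I ≠ ⊤ := by
    obtain ⟨Q, hQ, hQc⟩ := Ideal.exists_ideal_over_maximal_of_isIntegral (S := B)
      (maximalIdeal O) (by rw [(RingHom.injective_iff_ker_eq_bot _).mp hinj]; exact bot_le)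
    intro h
    have : I ≤ Q := Ideal.map_le_iff_le_comap.mpr hQc.ge
    exact hQ.ne_top (top_le_iff.mp (h ▸ this))
  -- completeness for `I`
  have hpreO : IsPrecomplete (maximalIdeal O) B :=
    isPrecomplete_of_basis (maximalIdeal O) (Module.Free.chooseBasis O B)
  have hpre : IsPrecomplete I B := IsPrecomplete.map_algebraMap_iff.mpr hpreO
  have hhaus : IsHausdorff I B := IsHausdorff.of_isDomain I hItop
  have hcomp : IsAdicComplete I B := { }
  -- finiteness of `B ⧸ I`
  have hfin : Finite (B ⧸ I) := by
    have : Finite (O ⧸ maximalIdeal O) := ‹Finite (ResidueField O)›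
    have : Module.Finite (O ⧸ maximalIdeal O) (B ⧸ I) :=
      Module.Finite.of_restrictScalars_finite O _ _
    exact Module.finite_of_finite (O ⧸ maximalIdeal O)
  have hloc : IsLocalRing B := isLocalRing_of_complete_of_finite_quotient I
  have hnf : ¬ IsField B := by
    intro h
    exact IsDiscreteValuationRing.not_isField O (isField_of_isIntegral_of_isField hinj h)
  have hdvr : IsDiscreteValuationRing B := ((IsDiscreteValuationRing.TFAE B hnf).out 2 0).mp ‹_›
  have hIle : I ≤ maximalIdeal B := le_maximalIdeal hItop
  refine ⟨hdvr, ?_, ?_, ?_⟩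
  · obtain ⟨e, he⟩ := exists_maximalIdeal_pow_le_of_isArtinianRing_quotient I
    have : IsPrecomplete (maximalIdeal B) B := isPrecomplete_of_pow_le I _ e hIle he
    exact { }
  · exact Finite.of_surjective _ (Ideal.Quotient.factor_surjective hIle)
  · refine ⟨fun a ha => ?_⟩
    by_contra hna
    have h1 : a ∈ maximalIdeal O := (mem_maximalIdeal a).mpr hna
    have h2 : algebraMap O B a ∈ maximalIdeal B := hIle (Ideal.mem_map_of_mem _ h1)
    exact (mem_maximalIdeal _).mp h2 ha

/-- **Finite extensions of complete DVRs.** Any monic polynomial over a complete DVR of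
characteristic zero with finite residue field splits over a finite local extension of the
same kind. -/
theorem exists_dvr_splitting_extension (O : Type) [CommRing O] [IsDomain O] [IsDiscreteValuationRing O]
    [IsAdicComplete (IsLocalRing.maximalIdeal O) O] [Finite (IsLocalRing.ResidueField O)]
    [CharZero O] (f : Polynomial O) (hf : f.Monic) :
    ∃ (O2 : Type) (_ : CommRing O2) (_ : IsDomain O2) (_ : IsDiscreteValuationRing O2)
      (_ : IsAdicComplete (IsLocalRing.maximalIdeal O2) O2)
      (_ : Finite (IsLocalRing.ResidueField O2))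
      (_ : CharZero O2) (_ : Algebra O O2) (_ : Module.Finite O O2)
      (_ : IsLocalHom (algebraMap O O2)),
      Function.Injective (algebraMap O O2) ∧ (f.map (algebraMap O O2)).Splits := by
  let K := FractionRing O
  let L := (f.map (algebraMap O K)).SplittingField
  let B := integralClosure O L
  have : CharZero K := charZero_of_injective_algebraMap (IsFractionRing.injective O K)
  have : Algebra.IsSeparable K L := inferInstance
  have : FiniteDimensional K L := inferInstance
  have : IsIntegralClosure B O L := inferInstance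
  have hfinB : Module.Finite O B := IsIntegralClosure.finite O K L B
  have : IsDedekindDomain B := inferInstance
  have hinjL : Function.Injective (algebraMap O L) := by
    rw [IsScalarTower.algebraMap_eq O K L]
    exact (algebraMap K L).injective.comp (IsFractionRing.injective O K)
  have : Module.IsTorsionFree O L := Module.isTorsionFree_iff_algebraMap_injective.mpr hinjL
  have : Module.IsTorsionFree O B := inferInstance
  have hinj : Function.Injective (algebraMap O B) := FaithfulSMul.algebraMap_injective O B
  obtain ⟨hdvr, hcomp, hfin, hloc⟩ := dvr_ext_aux O B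
  refine ⟨B, inferInstance, inferInstance, hdvr, hcomp, hfin,
    charZero_of_injective_algebraMap hinj, inferInstance, hfinB, hloc, hinj, ?_⟩
  have hsplit : ((f.map (algebraMap O K)).map (algebraMap K L)).Splits :=
    SplittingField.splits _
  rw [Polynomial.map_map, ← IsScalarTower.algebraMap_eq] at hsplit
  have hmm : (f.map (algebraMap O B)).map (algebraMap B L) = f.map (algebraMap O L) := by
    rw [Polynomial.map_map, ← IsScalarTower.algebraMap_eq]
  refine Splits.of_splits_map_of_injective (i := algebraMap B L)
    (FaithfulSMul.algebraMap_injective B L) (hmm ▸ hsplit) ?_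
  intro a ha
  rw [hmm] at ha
  have hroot : eval₂ (algebraMap O L) a f = 0 := by
    have := (mem_roots'.mp ha).2
    rwa [IsRoot.def, eval_map] at this
  have hint : IsIntegral O a := ⟨f, hf, hroot⟩
  exact ⟨⟨a, hint⟩, rfl⟩

end Fermat.Agent.GR.H.DvrExt
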