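import Fermat.Prelude.Def_CuspForm_HeckeGaloisRepDatum
import Fermat.Agent.S22
import Fermat.Agent.S49.Normalize

/-! # GR-H, piece H-EIG (eigenform ⇒ eigencharacter) -/

set_option autoImplicit false

namespace Fermat.Agent.GR.H

open ModularFormClass CongruenceSubgroup Fermat.Agent.S49

variable {N : ℕ}

/-- decomposition of the coefficient at `ℓ ^ r * m` -/
theorem EigenCharA_pow_mul {g : CuspForm (Gamma0 N) 2} (hg : g.IsNormalizedEigenform)
    {ℓ : ℕ} (hℓ : ℓ.Prime) (r : ℕ) {m : ℕ} (hm : ¬ ℓ ∣ m) :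
    qCoeff g (ℓ ^ r * m) = qCoeff g (ℓ ^ r) * qCoeff g m :=
  hg.qCoeff_mul_of_coprime _ _ (Nat.Coprime.pow_left r ((Nat.Prime.coprime_iff_not_dvd hℓ).mpr hm))

/-- the Hecke relation at a good prime -/
theorem EigenCharA_rel_T {g : CuspForm (Gamma0 N) 2} (hg : g.IsNormalizedEigenform)
    {ℓ : ℕ} (hℓ : ℓ.Prime) (hℓN : ¬ ℓ ∣ N) (n : ℕ) :
    qCoeff g (n * ℓ) + (if ℓ ∣ n then (ℓ : ℂ) * qCoeff g (n / ℓ) else 0) =
      qCoeff g ℓ * qCoeff g n := by
  rcases Nat.eq_zero_or_pos n with rfl | hn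
  · simp [qCoeff_idx_zero]
  obtain ⟨r, m, hm, rfl⟩ := Nat.exists_eq_pow_mul_and_not_dvd hn.ne' ℓ hℓ.ne_one
  have h1 : ℓ ^ r * m * ℓ = ℓ ^ (r + 1) * m := by ring
  rw [h1, EigenCharA_pow_mul hg hℓ _ hm, EigenCharA_pow_mul hg hℓ _ hm]
  cases r with
  | zero =>
    have : ¬ ℓ ∣ ℓ ^ 0 * m := by simpa using hm
    rw [if_neg this]
    simp [hg.qCoeff_one]
  | succ s =>
    have hd : ℓ ∣ ℓ ^ (s + 1) * m := Dvd.dvd.mul_right (dvd_pow_self ℓ (Nat.succ_ne_zero s)) m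
    have hq : ℓ ^ (s + 1) * m / ℓ = ℓ ^ s * m := by
      rw [pow_succ, mul_assoc, mul_comm ℓ m, ← mul_assoc]
      exact Nat.mul_div_cancel _ hℓ.pos
    rw [if_pos hd, hq, EigenCharA_pow_mul hg hℓ _ hm, hg.qCoeff_prime_pow_of_not_dvd ℓ s hℓ hℓN]
    ring

/-- the Hecke relation at a bad prime -/
theorem EigenCharA_rel_U {g : CuspForm (Gamma0 N) 2} (hg : g.IsNormalizedEigenform)
    {ℓ : ℕ} (hℓ : ℓ.Prime) (hℓN : ℓ ∣ N) (n : ℕ) :
    qCoeff g (n * ℓ) = qCoeff g ℓ * qCoeff g n := by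
  rcases Nat.eq_zero_or_pos n with rfl | hn
  · simp [qCoeff_idx_zero]
  obtain ⟨r, m, hm, rfl⟩ := Nat.exists_eq_pow_mul_and_not_dvd hn.ne' ℓ hℓ.ne_one
  have h1 : ℓ ^ r * m * ℓ = ℓ ^ (r + 1) * m := by ring
  rw [h1, EigenCharA_pow_mul hg hℓ _ hm, EigenCharA_pow_mul hg hℓ _ hm]
  cases r with
  | zero => simp [hg.qCoeff_one]
  | succ s =>
    rw [hg.qCoeff_prime_pow_of_dvd ℓ s hℓ hℓN]
    ring

theorem EigenCharA_ext {f g : CuspForm (Gamma0 N) 2} (h : ∀ n, qCoeff f n = qCoeff g n) :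
    f = g := by
  rw [← sub_eq_zero]
  apply eq_zero_of_qCoeff
  intro n
  rw [qCoeff_sub, h n, sub_self]

theorem EigenCharA_heckeTLin {g : CuspForm (Gamma0 N) 2} (hg : g.IsNormalizedEigenform)
    {ℓ : ℕ} (hℓ : ℓ.Prime) (hℓN : ¬ ℓ ∣ N) :
    CuspForm.heckeTLin 2 hℓ hℓN g = qCoeff g ℓ • g := by
  apply EigenCharA_ext
  intro n
  rw [qCoeff_heckeTLin, qCoeff_smul, ← EigenCharA_rel_T hg hℓ hℓN n]
  norm_num

theorem EigenCharA_heckeULin [NeZero N] {g : CuspForm (Gamma0 N) 2}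
    (hg : g.IsNormalizedEigenform) {ℓ : ℕ} (hℓ : ℓ.Prime) (hℓN : ℓ ∣ N) :
    CuspForm.heckeULin 2 hℓN g = qCoeff g ℓ • g := by
  apply EigenCharA_ext
  intro n
  rw [qCoeff_heckeULin hℓ.ne_zero, qCoeff_smul, ← EigenCharA_rel_U hg hℓ hℓN n]

/-- `g` is an eigenvector of every element of the Hecke algebra -/
theorem EigenCharA_exists_eigenvalue [NeZero N] {g : CuspForm (Gamma0 N) 2}
    (hg : g.IsNormalizedEigenform) (S : Set ℕ)
    (t : Module.End ℂ (CuspForm (Gamma0 N) 2)) (ht : t ∈ CuspForm.heckeAlgebra N 2 S) :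
    ∃ c : ℂ, t g = c • g := by
  induction ht using Algebra.adjoin_induction with
  | mem x hx =>
    rcases hx with ⟨ℓ, hℓ, hℓN, -, rfl⟩ | ⟨q, hqN, hq, -, rfl⟩
    · exact ⟨_, EigenCharA_heckeTLin hg hℓ hℓN⟩
    · exact ⟨_, EigenCharA_heckeULin hg hq hqN⟩
  | algebraMap r =>
    refine ⟨(r : ℂ), ?_⟩
    rw [Algebra.algebraMap_eq_smul_one, LinearMap.smul_apply, Module.End.one_apply,
      Int.cast_smul_eq_zsmul]
  | add x y _ _ hx hy =>
    obtain ⟨c, hc⟩ := hx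
    obtain ⟨d, hd⟩ := hy
    exact ⟨c + d, by rw [LinearMap.add_apply, hc, hd, add_smul]⟩
  | mul x y _ _ hx hy =>
    obtain ⟨c, hc⟩ := hx
    obtain ⟨d, hd⟩ := hy
    exact ⟨c * d, by rw [Module.End.mul_apply, hd, map_smul, hc, smul_smul, mul_comm]⟩

theorem EigenCharA_apply [NeZero N] {g : CuspForm (Gamma0 N) 2}
    (hg : g.IsNormalizedEigenform) (S : Set ℕ) (t : ↥(CuspForm.heckeAlgebra N 2 S)) :
    (t : Module.End ℂ (CuspForm (Gamma0 N) 2)) g =
      qCoeff ((t : Module.End ℂ (CuspForm (Gamma0 N) 2)) g) 1 • g := by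
  obtain ⟨c, hc⟩ := EigenCharA_exists_eigenvalue hg S t t.2
  rw [hc, qCoeff_smul, hg.qCoeff_one, mul_one]

theorem EigenCharA_unique {g : CuspForm (Gamma0 N) 2}
    (hg : g.IsNormalizedEigenform) {c d : ℂ} (h : c • g = d • g) : c = d := by
  have := congrArg (fun F : CuspForm (Gamma0 N) 2 => qCoeff F 1) h
  rwa [qCoeff_smul, qCoeff_smul, hg.qCoeff_one, mul_one, mul_one] at this

/-- the eigencharacter with complex values -/
noncomputable def EigenCharA_chi0 [NeZero N] {g : CuspForm (Gamma0 N) 2}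
    (hg : g.IsNormalizedEigenform) (S : Set ℕ) : ↥(CuspForm.heckeAlgebra N 2 S) →+* ℂ where
  toFun t := qCoeff ((t : Module.End ℂ (CuspForm (Gamma0 N) 2)) g) 1
  map_one' := by
    show qCoeff (((1 : Module.End ℂ (CuspForm (Gamma0 N) 2))) g) 1 = 1
    rw [Module.End.one_apply, hg.qCoeff_one]
  map_mul' s t := by
    apply EigenCharA_unique hg
    rw [← EigenCharA_apply hg S (s * t)]
    show ((s : Module.End ℂ (CuspForm (Gamma0 N) 2)) *
      (t : Module.End ℂ (CuspForm (Gamma0 N) 2))) g = _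
    rw [Module.End.mul_apply, EigenCharA_apply hg S t, map_smul, EigenCharA_apply hg S s,
      smul_smul, mul_comm]
    simp only [qCoeff_smul, hg.qCoeff_one, mul_one]
  map_zero' := by
    apply EigenCharA_unique hg
    rw [← EigenCharA_apply hg S 0, zero_smul]
    rfl
  map_add' s t := by
    apply EigenCharA_unique hg
    rw [← EigenCharA_apply hg S (s + t), add_smul, ← EigenCharA_apply hg S s,
      ← EigenCharA_apply hg S t]
    rfl

/-- PIECE H-EIG. A normalised eigenform (in the sense of `q`-coefficients) is an eigenvector of the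
whole Hecke algebra; the eigencharacter has values in the algebraic integers. -/
theorem exists_eigenchar {N : ℕ} [NeZero N] {g : CuspForm (CongruenceSubgroup.Gamma0 N) 2}
    (hg : g.IsNormalizedEigenform) (S : Set ℕ) :
    ∃ χ : ↥(CuspForm.heckeAlgebra N 2 S) →+* integralClosure ℤ ℂ,
      (∀ t : ↥(CuspForm.heckeAlgebra N 2 S),
        (t : Module.End ℂ (CuspForm (CongruenceSubgroup.Gamma0 N) 2)) g = ((χ t : ℂ)) • g) ∧
      ∀ (ℓ : ℕ) (hℓ : ℓ.Prime) (hℓN : ¬ ℓ ∣ N) (hℓS : ℓ ∉ S),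
        ((χ (CuspForm.heckeAlgebra.T hℓ hℓN hℓS) : integralClosure ℤ ℂ) : ℂ) =
          ModularFormClass.qCoeff g ℓ := by
  have hfin : Module.Finite ℤ (CuspForm.heckeAlgebra N 2 S) := Fermat.Agent.S22.result N 2 S
  have hint : ∀ t, EigenCharA_chi0 hg S t ∈ integralClosure ℤ ℂ := by
    intro t
    have h1 : IsIntegral ℤ t := Algebra.IsIntegral.isIntegral t
    exact h1.map (EigenCharA_chi0 hg S).toIntAlgHom
  refine ⟨(EigenCharA_chi0 hg S).codRestrict (integralClosure ℤ ℂ) hint, ?_, ?_⟩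
  · intro t
    exact EigenCharA_apply hg S t
  · intro ℓ hℓ hℓN hℓS
    show qCoeff ((CuspForm.heckeTLin 2 hℓ hℓN) g) 1 = _
    rw [EigenCharA_heckeTLin hg hℓ hℓN, qCoeff_smul, hg.qCoeff_one, mul_one]

end Fermat.Agent.GR.H
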