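import Mathlib
import Fermat.Prelude.Thm_IsLocalRing_isAdicComplete_of_module_finite
import Fermat.Prelude.Thm_Algebra_finite_maximalSpectrum_and_bijective_localization_of_module_finite

/-! # GR-H, piece H-DVR : finite extensions of complete discrete valuation rings -/

set_option autoImplicit false

namespace Fermat.Agent.GR.H

/-- A domain which is a finite algebra over a complete noetherian local ring is local. -/
theorem ExtDVR_isLocalRing (𝒪 : Type) [CommRing 𝒪] [IsLocalRing 𝒪] [IsNoetherianRing 𝒪]
    [IsAdicComplete (IsLocalRing.maximalIdeal 𝒪) 𝒪]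
    (B : Type) [CommRing B] [IsDomain B] [Algebra 𝒪 B] [Module.Finite 𝒪 B] : IsLocalRing B := by
  classical
  obtain ⟨-, hbij, -, -⟩ :=
    Algebra.finite_maximalSpectrum_and_bijective_localization_of_module_finite (𝒪 := 𝒪) B
  have hsub : ∀ I J : MaximalSpectrum B, I = J := by
    intro I J
    by_contra hIJ
    obtain ⟨e, he⟩ := hbij.2 (Pi.single I 1)
    obtain ⟨f, hf⟩ := hbij.2 (Pi.single J 1)
    have hef : e * f = 0 := by
      apply hbij.1
      rw [map_mul, he, hf, map_zero]
      ext L
      by_cases hL : L = I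
      · subst hL
        simp [Pi.single_eq_of_ne hIJ]
      · simp [Pi.single_eq_of_ne hL]
    rcases mul_eq_zero.mp hef with h | h
    · rw [h, map_zero] at he
      have := congrFun he I
      simp at this
    · rw [h, map_zero] at hf
      have := congrFun hf J
      simp at this
  obtain ⟨M, hM⟩ := Ideal.exists_maximal B
  refine IsLocalRing.of_unique_max_ideal ⟨M, hM, fun M' hM' => ?_⟩
  exact congrArg MaximalSpectrum.asIdeal (hsub ⟨M', hM'⟩ ⟨M, hM⟩)

/-- PIECE H-DVR. The integral closure of a complete DVR of characteristic zero in a finite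
extension of its fraction field is again a complete DVR, finite over the base. -/
theorem exists_dvr_extension (𝒪' : Type) [CommRing 𝒪'] [IsDomain 𝒪'] [IsDiscreteValuationRing 𝒪']
    [IsAdicComplete (IsLocalRing.maximalIdeal 𝒪') 𝒪'] [Finite (IsLocalRing.ResidueField 𝒪')]
    [CharZero 𝒪'] (K'' : Type) [Field K''] [Algebra 𝒪' K''] [Algebra (FractionRing 𝒪') K'']
    [IsScalarTower 𝒪' (FractionRing 𝒪') K''] [FiniteDimensional (FractionRing 𝒪') K''] :
    ∃ (𝒪'' : Type) (_ : CommRing 𝒪'') (_ : IsDomain 𝒪'') (_ : IsDiscreteValuationRing 𝒪'')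
      (_ : IsAdicComplete (IsLocalRing.maximalIdeal 𝒪'') 𝒪'')
      (_ : Finite (IsLocalRing.ResidueField 𝒪'')) (_ : CharZero 𝒪'')
      (_ : Algebra 𝒪' 𝒪'') (_ : Module.Finite 𝒪' 𝒪'') (_ : IsLocalHom (algebraMap 𝒪' 𝒪'')),
      Function.Injective (algebraMap 𝒪' 𝒪'') ∧
      ∃ j : 𝒪'' →+* K'', Function.Injective j ∧
        (∀ a : 𝒪', j (algebraMap 𝒪' 𝒪'' a) = algebraMap 𝒪' K'' a) ∧
        ∀ x : K'', IsIntegral 𝒪' x → x ∈ Set.range j := by
  classical
  have : CharZero (FractionRing 𝒪') :=
    charZero_of_injective_algebraMap (IsFractionRing.injective 𝒪' (FractionRing 𝒪'))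
  have : CharZero K'' :=
    charZero_of_injective_algebraMap (algebraMap (FractionRing 𝒪') K'').injective
  have hinjK : Function.Injective (algebraMap 𝒪' K'') := by
    rw [IsScalarTower.algebraMap_eq 𝒪' (FractionRing 𝒪') K'']
    exact (algebraMap (FractionRing 𝒪') K'').injective.comp
      (IsFractionRing.injective 𝒪' (FractionRing 𝒪'))
  have hfin : Module.Finite 𝒪' (integralClosure 𝒪' K'') :=
    IsIntegralClosure.finite 𝒪' (FractionRing 𝒪') K'' (integralClosure 𝒪' K'')
  have hded : IsDedekindDomain (integralClosure 𝒪' K'') :=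
    integralClosure.isDedekindDomain 𝒪' (FractionRing 𝒪') K''
  have hloc : IsLocalRing (integralClosure 𝒪' K'') := ExtDVR_isLocalRing 𝒪' _
  have hinj : Function.Injective (algebraMap 𝒪' (integralClosure 𝒪' K'')) := by
    intro a b hab
    exact hinjK (congrArg Subtype.val hab)
  have : FaithfulSMul 𝒪' (integralClosure 𝒪' K'') :=
    (faithfulSMul_iff_algebraMap_injective _ _).mpr hinj
  have hnf : ¬ IsField (integralClosure 𝒪' K'') := fun h =>
    IsDiscreteValuationRing.not_isField 𝒪' (isField_of_isIntegral_of_isField hinj h)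
  have hdvr : IsDiscreteValuationRing (integralClosure 𝒪' K'') :=
    ((IsDiscreteValuationRing.TFAE (integralClosure 𝒪' K'') hnf).out 0 2).mpr hded
  have hlh : IsLocalHom (algebraMap 𝒪' (integralClosure 𝒪' K'')) := inferInstance
  refine ⟨integralClosure 𝒪' K'', inferInstance, inferInstance, hdvr,
    IsLocalRing.isAdicComplete_of_module_finite (𝒪 := 𝒪'),
    IsLocalRing.ResidueField.finite_of_finite (R := 𝒪') inferInstance,
    (integralClosure 𝒪' K'').val.toRingHom.charZero, inferInstance, hfin, hlh, hinj,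
    (integralClosure 𝒪' K'').val.toRingHom, Subtype.val_injective, fun a => rfl,
    fun x hx => ⟨⟨x, hx⟩, rfl⟩⟩

end Fermat.Agent.GR.H
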