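import Fermat.Agent.GR.H.Iface
import Fermat.Agent.GR.H.ExtDVR
import Fermat.Agent.S22

/-! # GR-H, piece H-EXT : extending an anemic eigencharacter to the full Hecke algebra -/

set_option autoImplicit false
set_option linter.style.haveILetI false

namespace Fermat.Agent.GR.H

/-- The inclusion of the anemic Hecke algebra in the full one. -/
noncomputable def heckeIncl (N : ℕ) [NeZero N] (S : Set ℕ) :
    ↥(CuspForm.heckeAlgebra N 2 S) →+* HeckeFull N :=
  (Subalgebra.inclusion (CuspForm.heckeAlgebra_mono (Set.empty_subset S))).toRingHom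

theorem heckeIncl_T (N : ℕ) [NeZero N] (S : Set ℕ) {ℓ : ℕ} (hℓ : ℓ.Prime) (hℓN : ¬ ℓ ∣ N)
    (hℓS : ℓ ∉ S) : heckeIncl N S (CuspForm.heckeAlgebra.T hℓ hℓN hℓS) = HeckeFull.T hℓ hℓN := rfl

theorem ExtChar_exists_lift {A B M : Type*} [CommRing A] [CommRing B] [Field M] [IsAlgClosed M]
    (i : A →+* B) (hi : i.IsIntegral) (hinj : Function.Injective i) (φ : A →+* M) :
    ∃ ψ : B →+* M, ∀ a, ψ (i a) = φ a := by
  letI := i.toAlgebra
  haveI : Algebra.IsIntegral A B := ⟨hi⟩
  haveI hP : (RingHom.ker φ).IsPrime := RingHom.ker_isPrime φ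
  obtain ⟨Q, -, hQ, hQP⟩ := Ideal.exists_ideal_over_prime_of_isIntegral (RingHom.ker φ)
    (⊥ : Ideal B) (by
      intro x hx
      have : i x = 0 := hx
      have hx0 : x = 0 := hinj (by rw [this, map_zero])
      rw [hx0]; exact Ideal.zero_mem _)
  haveI := hQ
  let R := A ⧸ Q.comap (algebraMap A B)
  let f : R →+* M := Ideal.Quotient.lift _ φ (by
    intro a ha
    rw [hQP] at ha
    exact ha)
  have hf : Function.Injective f := by
    rw [injective_iff_map_eq_zero]
    intro x hx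
    obtain ⟨a, rfl⟩ := Ideal.Quotient.mk_surjective x
    have : φ a = 0 := hx
    rw [Ideal.Quotient.eq_zero_iff_mem, hQP]
    exact this
  letI : Algebra R M := f.toAlgebra
  haveI : IsDomain R := Ideal.Quotient.isDomain _
  haveI : Module.IsTorsionFree R M := (Module.isTorsionFree_iff_algebraMap_injective).mpr hf
  haveI : Module.IsTorsionFree R (B ⧸ Q) :=
    (Module.isTorsionFree_iff_algebraMap_injective).mpr Ideal.algebraMap_quotient_injective
  haveI : Algebra.IsAlgebraic R (B ⧸ Q) := Algebra.IsIntegral.isAlgebraic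
  let g : (B ⧸ Q) →ₐ[R] M := IsAlgClosed.lift
  refine ⟨g.toRingHom.comp (Ideal.Quotient.mk Q), fun a => ?_⟩
  have := g.commutes (Ideal.Quotient.mk _ a)
  exact this

/-- PIECE H-EXT. -/
theorem exists_extension_char (N : ℕ) [NeZero N] (S : Set ℕ)
    (𝒪' : Type) [CommRing 𝒪'] [IsDomain 𝒪'] [IsDiscreteValuationRing 𝒪']
    [IsAdicComplete (IsLocalRing.maximalIdeal 𝒪') 𝒪'] [Finite (IsLocalRing.ResidueField 𝒪')]
    [CharZero 𝒪'] (χ : ↥(CuspForm.heckeAlgebra N 2 S) →+* 𝒪') :
    ∃ (𝒪'' : Type) (_ : CommRing 𝒪'') (_ : IsDomain 𝒪'') (_ : IsDiscreteValuationRing 𝒪'')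
      (_ : IsAdicComplete (IsLocalRing.maximalIdeal 𝒪'') 𝒪'')
      (_ : Finite (IsLocalRing.ResidueField 𝒪'')) (_ : CharZero 𝒪'')
      (_ : Algebra 𝒪' 𝒪'') (_ : Module.Finite 𝒪' 𝒪'') (_ : IsLocalHom (algebraMap 𝒪' 𝒪'')),
      Function.Injective (algebraMap 𝒪' 𝒪'') ∧
      ∃ lam : HeckeFull N →+* 𝒪'', ∀ t, lam (heckeIncl N S t) = algebraMap 𝒪' 𝒪'' (χ t) := by
  classical
  let K' := FractionRing 𝒪'
  let Kbar := AlgebraicClosure K'
  haveI hfin : Module.Finite ℤ (HeckeFull N) := Fermat.Agent.S22.result N 2 ∅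
  have hintZ : ∀ t : HeckeFull N, IsIntegral ℤ t := fun t => Algebra.IsIntegral.isIntegral t
  have hi : (heckeIncl N S).IsIntegral := by
    intro t
    obtain ⟨q, hq, hq0⟩ := hintZ t
    refine ⟨q.map (Int.castRingHom _), hq.map _, ?_⟩
    rw [Polynomial.eval₂_map]
    have : (heckeIncl N S).comp (Int.castRingHom _) = algebraMap ℤ (HeckeFull N) :=
      RingHom.ext_int _ _
    rw [this]
    exact hq0
  have hinj : Function.Injective (heckeIncl N S) :=
    Subalgebra.inclusion_injective _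
  obtain ⟨lam0, hlam0⟩ := ExtChar_exists_lift (M := Kbar) (heckeIncl N S) hi hinj
    ((algebraMap 𝒪' Kbar).comp χ)
  obtain ⟨s, hs⟩ := hfin.fg_top
  let K'' : IntermediateField K' Kbar := IntermediateField.adjoin K' (lam0 '' (s : Set (HeckeFull N)))
  haveI : FiniteDimensional K' K'' := by
    haveI : Finite (lam0 '' (s : Set (HeckeFull N))) := (s.finite_toSet.image _).to_subtype
    exact IntermediateField.finiteDimensional_adjoin
      (fun x _ => Algebra.IsIntegral.isIntegral x)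
  have hmem : ∀ t : HeckeFull N, lam0 t ∈ K'' := by
    intro t
    have ht : t ∈ Submodule.span ℤ (s : Set (HeckeFull N)) := by rw [hs]; trivial
    induction ht using Submodule.span_induction with
    | mem x hx => exact IntermediateField.subset_adjoin _ _ ⟨x, hx, rfl⟩
    | zero => rw [map_zero]; exact K''.zero_mem
    | add x y _ _ hx hy => rw [map_add]; exact K''.add_mem hx hy
    | smul a x _ hx =>
      rw [zsmul_eq_mul, map_mul, map_intCast]
      exact K''.mul_mem (K''.intCast_mem a) hx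
  obtain ⟨𝒪'', i1, i2, i3, i4, i5, i6, i7, i8, i9, hinj'', j, hj, hja, hjint⟩ :=
    exists_dvr_extension 𝒪' ↥K''
  refine ⟨𝒪'', i1, i2, i3, i4, i5, i6, i7, i8, i9, hinj'', ?_⟩
  let lam1 : HeckeFull N →+* ↥K'' := lam0.codRestrict K''.toSubfield.toSubring hmem
  have hlam1 : ∀ t, ((lam1 t : ↥K'') : Kbar) = lam0 t := fun t => rfl
  have hrange : ∀ t, lam1 t ∈ j.range := by
    intro t
    obtain ⟨y, hy⟩ := hjint (lam1 t) (by
      have h1 : IsIntegral ℤ (lam1 t) := (hintZ t).map (lam1 : HeckeFull N →+* ↥K'').toIntAlgHom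
      exact h1.tower_top)
    exact ⟨y, hy⟩
  let e : 𝒪'' ≃+* j.range := RingEquiv.ofBijective j.rangeRestrict
    ⟨fun a b hab => hj (congrArg Subtype.val hab), j.rangeRestrict_surjective⟩
  refine ⟨(e.symm : j.range →+* 𝒪'').comp (lam1.codRestrict j.range hrange), fun t => ?_⟩
  apply hj
  have h1 : j (e.symm (lam1.codRestrict j.range hrange (heckeIncl N S t))) =
      lam1 (heckeIncl N S t) := by
    have := e.apply_symm_apply (lam1.codRestrict j.range hrange (heckeIncl N S t))
    exact congrArg Subtype.val this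
  rw [RingHom.comp_apply]
  refine h1.trans ?_
  rw [hja]
  apply Subtype.ext
  rw [hlam1, hlam0]
  rfl

end Fermat.Agent.GR.H
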