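import Fermat.Agent.GR.H.S29Main
import Fermat.Agent.GR.H.Density
import Fermat.Agent.GR.G.Main
import Fermat.Agent.GR.I.Final

/-! # GR-H : S30 and S29 from the two remaining inputs of project GR -/

set_option autoImplicit false

namespace Fermat.Agent.GR.H

theorem frobeniusDensity : FrobeniusDensity :=
  frobeniusDensity_of_open Fermat.Agent.GR.G.exists_frobenius_pow_mem

theorem S30_of_inputs (hD : Fermat.Agent.GR.E.ModelExists)
    (hT : ∀ (N : ℕ) [NeZero N], Fermat.Agent.GR.I.CharTheory N) : S30Statement :=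
  S30_of frobeniusDensity fun N _ p hp =>
    (Fermat.Agent.GR.I.exists_tateData_of hD (hT N) p hp.out).elim fun D _ => ⟨D⟩

theorem S29_of_inputs (hD : Fermat.Agent.GR.E.ModelExists)
    (hT : ∀ (N : ℕ) [NeZero N], Fermat.Agent.GR.I.CharTheory N) : S29Statement :=
  S29_of (S30_of_inputs hD hT)

end Fermat.Agent.GR.H
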