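import Fermat.Agent.GR.H.Limit

/-! # GR-H, piece H-LAT : the representation on the eigen-lattice -/

set_option autoImplicit false

open scoped TensorProduct

namespace Fermat.Agent.GR.H

variable {N : ℕ} [NeZero N] {p : ℕ}

theorem Lattice_mem_eigenSub {𝕋 Λ : Type} [CommRing 𝕋] [AddCommGroup Λ]
    (hecke : 𝕋 →+* Module.End ℤ Λ) (R : Type) [CommRing R] (lam : 𝕋 →+* R) (x : R ⊗[ℤ] Λ) :
    x ∈ eigenSub hecke R lam ↔ ∀ t : 𝕋, (hecke t).baseChange R x = lam t • x := by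
  simp only [eigenSub, Submodule.mem_iInf, LinearMap.mem_ker, LinearMap.sub_apply,
    LinearMap.smul_apply, LinearMap.id_apply, sub_eq_zero]

/-- PIECE H-LAT. -/
theorem exists_eigenRep (D : TateData N p) (𝒪 : Type) [CommRing 𝒪] [IsDomain 𝒪]
    [IsDiscreteValuationRing 𝒪] (hp : (p : 𝒪) ∈ IsLocalRing.maximalIdeal 𝒪) (hp0 : (p : 𝒪) ≠ 0)
    (B : BigRep D 𝒪) (lam : HeckeFull N →+* 𝒪)
    (hrank : Module.finrank 𝒪 (eigenSub D.hecke 𝒪 lam) = 2) :
    ∃ (ρ : GaloisRepAdic 𝒪) (ι : ρ.V →ₗ[𝒪] 𝒪 ⊗[ℤ] D.Λ), Function.Injective ι ∧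
      LinearMap.range ι = eigenSub D.hecke 𝒪 lam ∧ ∀ σ v, ι (ρ.ρ σ v) = B.r σ (ι v) := by
  set W : Submodule 𝒪 (𝒪 ⊗[ℤ] D.Λ) := eigenSub D.hecke 𝒪 lam with hW
  have hstab : ∀ σ : GQ, ∀ x ∈ W, B.r σ x ∈ W := by
    intro σ x hx
    rw [hW, Lattice_mem_eigenSub] at hx ⊢
    intro t
    have h1 := LinearMap.congr_fun (B.comm_hecke σ t) x
    simp only [Module.End.mul_apply] at h1
    rw [← h1, hx t, map_smul]
  have hsat : ∀ (k : ℕ) (y : 𝒪 ⊗[ℤ] D.Λ), (p : 𝒪) ^ k • y ∈ W → y ∈ W := by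
    intro k y hy
    rw [hW, Lattice_mem_eigenSub] at hy ⊢
    intro t
    have h1 := hy t
    rw [map_smul, smul_comm (lam t)] at h1
    exact smul_right_injective _ (pow_ne_zero k hp0) h1
  let r : GQ →* Module.End 𝒪 W :=
    { toFun := fun σ => (B.r σ).restrict (hstab σ)
      map_one' := by
        ext x
        simp
      map_mul' := by
        intro σ τ
        ext x
        simp }
  refine ⟨{ V := W, finrank_eq := hrank, ρ := r, isAdicContinuous := ?_ }, W.subtype,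
    Subtype.val_injective, Submodule.range_subtype W, fun σ v => rfl⟩
  intro n
  obtain ⟨L, hL, h⟩ := B.level n
  refine ⟨L, hL, fun σ hσ v => ?_⟩
  obtain ⟨g, hg⟩ := h σ hσ
  have h1 : B.r σ v - v = (p : 𝒪) ^ n • g v := by
    have := LinearMap.congr_fun hg (v : 𝒪 ⊗[ℤ] D.Λ)
    simpa using this
  have h2 : g v ∈ W := by
    refine hsat n _ ?_
    rw [← h1]
    exact W.sub_mem (hstab σ v v.2) v.2
  have h3 : r σ v - v = (p : 𝒪) ^ n • (⟨g v, h2⟩ : W) := Subtype.ext h1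
  rw [h3]
  exact Submodule.smul_mem_smul (Ideal.pow_mem_pow hp n) Submodule.mem_top

end Fermat.Agent.GR.H
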