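import Fermat.Agent.GR.H.Iface
import Fermat.Prelude.Thm_IsAdicComplete_of_module_finite

/-! # GR-H, piece H-LIM : passage to the limit -/

set_option autoImplicit false

open scoped TensorProduct

namespace Fermat.Agent.GR.H

/-- congruence modulo `π ^ k` in a module -/
def Limit_Cong {R E : Type} [CommRing R] [AddCommGroup E] [Module R E] (π : R) (k : ℕ)
    (a b : E) : Prop := ∃ H : E, a - b = π ^ k • H

section module

variable {R E : Type} [CommRing R] [AddCommGroup E] [Module R E] {π : R} {k : ℕ}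

theorem Limit_Cong.refl (a : E) : Limit_Cong π k a a := ⟨0, by simp⟩

theorem Limit_Cong.symm {a b : E} (h : Limit_Cong π k a b) : Limit_Cong π k b a := by
  obtain ⟨H, hH⟩ := h
  exact ⟨-H, by rw [smul_neg, ← hH]; abel⟩

theorem Limit_Cong.trans {a b c : E} (h : Limit_Cong π k a b) (h' : Limit_Cong π k b c) :
    Limit_Cong π k a c := by
  obtain ⟨H, hH⟩ := h
  obtain ⟨H', hH'⟩ := h'
  exact ⟨H + H', by rw [smul_add, ← hH, ← hH']; abel⟩

theorem Limit_Cong.add {a b c d : E} (h : Limit_Cong π k a b) (h' : Limit_Cong π k c d) :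
    Limit_Cong π k (a + c) (b + d) := by
  obtain ⟨H, hH⟩ := h
  obtain ⟨H', hH'⟩ := h'
  exact ⟨H + H', by rw [smul_add, ← hH, ← hH']; abel⟩

theorem Limit_Cong.sub {a b c d : E} (h : Limit_Cong π k a b) (h' : Limit_Cong π k c d) :
    Limit_Cong π k (a - c) (b - d) := by
  obtain ⟨H, hH⟩ := h
  obtain ⟨H', hH'⟩ := h'
  exact ⟨H - H', by rw [smul_sub, ← hH, ← hH']; abel⟩

theorem Limit_eq_of_forall_cong (I : Ideal R) [IsHausdorff I E] (hπ : π ∈ I) {a b : E}
    (h : ∀ k, Limit_Cong π k a b) : a = b := by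
  rw [← sub_eq_zero]
  refine IsHausdorff.haus (I := I) ‹_› _ fun n => ?_
  obtain ⟨H, hH⟩ := h n
  rw [SModEq.zero, hH]
  exact Submodule.smul_mem_smul (Ideal.pow_mem_pow hπ n) trivial

/-- limit of a `π`-adic Cauchy sequence, in the sharp form -/
theorem Limit_exists_limit (I : Ideal R) [IsAdicComplete I E] (hπ : π ∈ I) (x : ℕ → E)
    (hx : ∀ k, Limit_Cong π k (x (k + 1)) (x k)) :
    ∃ L : E, ∀ k, Limit_Cong π k L (x k) := by
  choose h hh using hx
  -- partial sums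
  let S : ℕ → ℕ → E := fun k j => ∑ i ∈ Finset.range j, π ^ i • h (k + i)
  have hS : ∀ k j, x (k + j) - x k = π ^ k • S k j := by
    intro k j
    induction j with
    | zero => simp [S]
    | succ j ih =>
      have e1 : x (k + (j + 1)) - x k = (x (k + j + 1) - x (k + j)) + (x (k + j) - x k) := by
        rw [← add_assoc]; abel
      rw [e1, hh, ih]
      simp only [S, Finset.sum_range_succ, smul_add, smul_smul, pow_add]
      abel
  have hcauchy : ∀ k, ∀ {m n : ℕ}, m ≤ n →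
      S k m ≡ S k n [SMOD (I ^ m • ⊤ : Submodule R E)] := by
    intro k m n hmn
    rw [SModEq.sub_mem]
    have : S k m - S k n = -∑ i ∈ Finset.Ico m n, π ^ i • h (k + i) := by
      simp only [S]
      rw [Finset.sum_Ico_eq_sub _ hmn]; abel
    rw [this]
    refine Submodule.neg_mem _ (Submodule.sum_mem _ fun i hi => ?_)
    have hmi : m ≤ i := (Finset.mem_Ico.mp hi).1
    exact Submodule.smul_mem_smul (Ideal.pow_le_pow_right hmi (Ideal.pow_mem_pow hπ i)) trivial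
  have hlim : ∀ k, ∃ L : E, ∀ n, S k n ≡ L [SMOD (I ^ n • ⊤ : Submodule R E)] := fun k =>
    IsPrecomplete.prec (I := I) inferInstance (hcauchy k)
  choose T hT using hlim
  refine ⟨x 0 + T 0, fun k => ⟨T k, ?_⟩⟩
  -- both sides agree modulo `I ^ n` for all `n`
  rw [← sub_eq_zero]
  refine IsHausdorff.haus (I := I) inferInstance _ fun n => ?_
  rw [SModEq.zero]
  have h1 : T 0 - S 0 (k + n) ∈ (I ^ n • ⊤ : Submodule R E) := by
    have := (hT 0 (k + n)).symm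
    rw [SModEq.sub_mem] at this
    exact Submodule.smul_mono_left (Ideal.pow_le_pow_right (Nat.le_add_left n k)) this
  have h2 : T k - S k n ∈ (I ^ n • ⊤ : Submodule R E) := by
    have := (hT k n).symm
    rwa [SModEq.sub_mem] at this
  have h3 : x (k + n) - x 0 = S 0 (k + n) := by
    have := hS 0 (k + n)
    simpa using this
  have h4 := hS k n
  have e : x 0 + T 0 - x k - π ^ k • T k = (T 0 - S 0 (k + n)) - π ^ k • (T k - S k n) := by
    rw [smul_sub, ← h4, ← h3]; abel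
  rw [e]
  exact Submodule.sub_mem _ h1 (Submodule.smul_mem _ _ h2)

end module

section algebra

variable {R E : Type} [CommRing R] [Ring E] [Algebra R E] {π : R} {k : ℕ}

theorem Limit_Cong.mul {a b c d : E} (h : Limit_Cong π k a b) (h' : Limit_Cong π k c d) :
    Limit_Cong π k (a * c) (b * d) := by
  obtain ⟨H, hH⟩ := h
  obtain ⟨H', hH'⟩ := h'
  refine ⟨H * c + b * H', ?_⟩
  rw [smul_add, ← smul_mul_assoc, ← mul_smul_comm, ← hH, ← hH']
  noncomm_ring

end algebra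

variable {N : ℕ} [NeZero N] {p : ℕ}

/-- The Galois representation on `𝒪 ⊗ Λ = 𝒪 ⊗ T_p J₀(N)`. -/
structure BigRep (D : TateData N p) (𝒪 : Type) [CommRing 𝒪] : Type where
  r : GQ →* Module.End 𝒪 (𝒪 ⊗[ℤ] D.Λ)
  comm_hecke : ∀ σ t, r σ * (D.hecke t).baseChange 𝒪 = (D.hecke t).baseChange 𝒪 * r σ
  conj : ∃ c : GQ, r c = D.conj.baseChange 𝒪
  unram : ∀ q : ℕ, q.Prime → ¬ q ∣ N → q ≠ p →
    ∀ A : ValuationSubring (AlgebraicClosure ℚ), A.LiesOverPrime q →
      ∀ σ ∈ A.inertiaSubgroupIn ℚ, r σ = 1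
  frob : ∀ (ℓ : ℕ) (hℓ : ℓ.Prime) (hℓN : ¬ ℓ ∣ N), ℓ ≠ p →
    ∀ A : ValuationSubring (AlgebraicClosure ℚ), A.LiesOverPrime ℓ →
      ∀ σ : GQ, A.IsFrobeniusAt σ ℓ →
        r σ * r σ - (D.hecke (HeckeFull.T hℓ hℓN)).baseChange 𝒪 * r σ + (ℓ : 𝒪) • 1 = 0
  level : ∀ k : ℕ, ∃ L : IntermediateField ℚ (AlgebraicClosure ℚ), FiniteDimensional ℚ L ∧
    ∀ σ : GQ, (∀ x ∈ L, σ x = x) →
      ∃ h : Module.End 𝒪 (𝒪 ⊗[ℤ] D.Λ), r σ - 1 = (p : 𝒪) ^ k • h

theorem Limit_cong_baseChange {Λ : Type} [AddCommGroup Λ] (𝒪 : Type) [CommRing 𝒪] {p k : ℕ}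
    {f g : Module.End ℤ Λ} (h : EndCong (p ^ k) f g) :
    Limit_Cong (p : 𝒪) k (f.baseChange 𝒪) (g.baseChange 𝒪) := by
  obtain ⟨H, hH⟩ := h
  refine ⟨H.baseChange 𝒪, ?_⟩
  rw [← LinearMap.baseChange_sub, hH, LinearMap.baseChange_smul,
    ← IsScalarTower.algebraMap_smul 𝒪 ((p ^ k : ℕ) : ℤ) (H.baseChange 𝒪)]
  simp

/-- PIECE H-LIM. -/
theorem exists_bigRep (D : TateData N p) (𝒪 : Type) [CommRing 𝒪] [IsLocalRing 𝒪]
    [IsNoetherianRing 𝒪] [IsAdicComplete (IsLocalRing.maximalIdeal 𝒪) 𝒪]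
    (hp : (p : 𝒪) ∈ IsLocalRing.maximalIdeal 𝒪) :
    Nonempty (BigRep D 𝒪) := by
  have hcomplete : IsAdicComplete (IsLocalRing.maximalIdeal 𝒪)
      (Module.End 𝒪 (𝒪 ⊗[ℤ] D.Λ)) :=
    IsAdicComplete.of_module_finite _ _
  have hex : ∀ σ : GQ, ∃ L : Module.End 𝒪 (𝒪 ⊗[ℤ] D.Λ),
      ∀ k, Limit_Cong (p : 𝒪) k L ((D.gal k σ).baseChange 𝒪) := fun σ =>
    Limit_exists_limit (IsLocalRing.maximalIdeal 𝒪) hp _
      (fun k => Limit_cong_baseChange 𝒪 (D.gal_succ k σ))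
  choose r hr using hex
  have heq : ∀ {a b : Module.End 𝒪 (𝒪 ⊗[ℤ] D.Λ)}, (∀ k, Limit_Cong (p : 𝒪) k a b) → a = b :=
    fun h => Limit_eq_of_forall_cong (IsLocalRing.maximalIdeal 𝒪) hp h
  have hone : r 1 = 1 := heq fun k => by
    have := (hr 1 k).trans (Limit_cong_baseChange 𝒪 (D.gal_one k))
    rwa [LinearMap.baseChange_one] at this
  have hmul : ∀ σ τ, r (σ * τ) = r σ * r τ := fun σ τ => heq fun k => by
    have := (hr (σ * τ) k).trans (Limit_cong_baseChange 𝒪 (D.gal_mul k σ τ))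
    rw [LinearMap.baseChange_mul] at this
    exact this.trans ((hr σ k).mul (hr τ k)).symm
  refine ⟨{ r := { toFun := r, map_one' := hone, map_mul' := hmul }
            comm_hecke := ?_, conj := ?_, unram := ?_, frob := ?_, level := ?_ }⟩
  · intro σ t
    refine heq fun k => ?_
    have h1 := (hr σ k).mul (Limit_Cong.refl (π := (p : 𝒪)) (k := k) ((D.hecke t).baseChange 𝒪))
    have h2 := (Limit_Cong.refl (π := (p : 𝒪)) (k := k) ((D.hecke t).baseChange 𝒪)).mul (hr σ k)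
    have h3 := Limit_cong_baseChange 𝒪 (D.gal_hecke k σ t)
    rw [LinearMap.baseChange_mul, LinearMap.baseChange_mul] at h3
    exact h1.trans (h3.trans h2.symm)
  · obtain ⟨c, hc⟩ := D.gal_conj
    exact ⟨c, heq fun k => (hr c k).trans (Limit_cong_baseChange 𝒪 (hc k))⟩
  · intro q hq hqN hqp A hA σ hσ
    refine heq fun k => ?_
    have := (hr σ k).trans (Limit_cong_baseChange 𝒪 (D.gal_unram q hq hqN hqp A hA σ hσ k))
    rwa [LinearMap.baseChange_one] at this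
  · intro ℓ hℓ hℓN hℓp A hA σ hσ
    refine heq fun k => ?_
    have h3 := Limit_cong_baseChange 𝒪 (D.gal_frob ℓ hℓ hℓN hℓp A hA σ hσ k)
    have hl : ((ℓ : ℤ) • (1 : Module.End ℤ D.Λ)).baseChange 𝒪 =
        (ℓ : 𝒪) • (1 : Module.End 𝒪 (𝒪 ⊗[ℤ] D.Λ)) := by
      rw [LinearMap.baseChange_smul, LinearMap.baseChange_one,
        ← IsScalarTower.algebraMap_smul 𝒪 (ℓ : ℤ) (1 : Module.End 𝒪 (𝒪 ⊗[ℤ] D.Λ))]
      simp
    rw [LinearMap.baseChange_add, LinearMap.baseChange_sub, LinearMap.baseChange_mul, LinearMap.baseChange_mul, hl,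
      LinearMap.baseChange_zero] at h3
    refine Limit_Cong.trans ?_ h3
    exact (((hr σ k).mul (hr σ k)).sub ((Limit_Cong.refl _).mul (hr σ k))).add (Limit_Cong.refl _)
  · intro k
    obtain ⟨L, hL, hfix⟩ := D.gal_level k
    refine ⟨L, hL, fun σ hσ => ?_⟩
    have := (hr σ k).trans (Limit_cong_baseChange 𝒪 (hfix σ hσ))
    rwa [LinearMap.baseChange_one] at this

end Fermat.Agent.GR.H
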