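import Fermat.Agent.GR.H.ExtDVR

/-! # GR-H, piece H-LIFT : lifting a mod `p` character to characteristic zero -/

set_option autoImplicit false

namespace Fermat.Agent.GR.H

open TensorProduct

/-- Step 1: a finite torsion-free algebra over a complete DVR maps to a complete DVR through any
prescribed minimal prime. -/
theorem PadicLift_exists_dvr (Z : Type) [CommRing Z] [IsDomain Z] [IsDiscreteValuationRing Z]
    [IsAdicComplete (IsLocalRing.maximalIdeal Z) Z] [Finite (IsLocalRing.ResidueField Z)]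
    [CharZero Z]
    (D : Type) [CommRing D] [IsDomain D] [Algebra Z D] [Module.Finite Z D]
    (hinj : Function.Injective (algebraMap Z D)) :
    ∃ (𝒪' : Type) (_ : CommRing 𝒪') (_ : IsDomain 𝒪') (_ : IsDiscreteValuationRing 𝒪')
      (_ : IsAdicComplete (IsLocalRing.maximalIdeal 𝒪') 𝒪')
      (_ : Finite (IsLocalRing.ResidueField 𝒪')) (_ : CharZero 𝒪')
      (_ : Algebra Z 𝒪') (_ : Module.Finite Z 𝒪') (_ : IsLocalHom (algebraMap Z 𝒪')),
      ∃ ι : D →+* 𝒪', Function.Injective ι ∧ ∀ a : Z, ι (algebraMap Z D a) = algebraMap Z 𝒪' a := by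
  classical
  have hfs : FaithfulSMul Z D := (faithfulSMul_iff_algebraMap_injective _ _).mpr hinj
  have hinjK : Function.Injective (algebraMap Z (FractionRing D)) := by
    rw [IsScalarTower.algebraMap_eq Z D (FractionRing D)]
    exact (IsFractionRing.injective D (FractionRing D)).comp hinj
  have hfsK : FaithfulSMul Z (FractionRing D) :=
    (faithfulSMul_iff_algebraMap_injective _ _).mpr hinjK
  let _ : Algebra (FractionRing Z) (FractionRing D) := FractionRing.liftAlgebra Z (FractionRing D)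
  have : IsScalarTower Z (FractionRing Z) (FractionRing D) :=
    FractionRing.isScalarTower_liftAlgebra Z (FractionRing D)
  have : Algebra.IsIntegral Z D := Algebra.IsIntegral.of_finite Z D
  have : Algebra.IsAlgebraic Z D := inferInstance
  have : IsLocalization (Algebra.algebraMapSubmonoid D (nonZeroDivisors Z)) (FractionRing D) :=
    inferInstance
  have hfd : FiniteDimensional (FractionRing Z) (FractionRing D) :=
    Module.Finite.of_isLocalization Z D (nonZeroDivisors Z)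
  obtain ⟨O, i1, i2, i3, i4, i5, i6, i7, i8, i9, -, j, hj, hja, hjint⟩ :=
    exists_dvr_extension Z (FractionRing D)
  refine ⟨O, i1, i2, i3, i4, i5, i6, i7, i8, i9, ?_⟩
  have hmem : ∀ d : D, algebraMap D (FractionRing D) d ∈ j.range := by
    intro d
    have : IsIntegral Z (algebraMap D (FractionRing D) d) :=
      (Algebra.IsIntegral.isIntegral (R := Z) d).algebraMap
    obtain ⟨y, hy⟩ := hjint _ this
    exact ⟨y, hy⟩
  let e : O ≃+* j.range := RingEquiv.ofBijective j.rangeRestrict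
    ⟨by
      intro a b hab
      exact hj (congrArg Subtype.val hab), j.rangeRestrict_surjective⟩
  let ι : D →+* O := e.symm.toRingHom.comp ((algebraMap D (FractionRing D)).codRestrict j.range hmem)
  have hι : ∀ d : D, j (ι d) = algebraMap D (FractionRing D) d := by
    intro d
    have h1 : e (ι d) = (algebraMap D (FractionRing D)).codRestrict j.range hmem d := by
      simp [ι]
    exact congrArg Subtype.val h1
  refine ⟨ι, ?_, ?_⟩
  · intro a b hab
    apply IsFractionRing.injective D (FractionRing D)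
    rw [← hι, ← hι, hab]
  · intro a
    apply hj
    rw [hι, hja, ← IsScalarTower.algebraMap_apply]

/-- Step 2: abstract Deligne–Serre lifting over a complete DVR. -/
theorem PadicLift_aux (Z : Type) [CommRing Z] [IsDomain Z] [IsDiscreteValuationRing Z]
    [IsAdicComplete (IsLocalRing.maximalIdeal Z) Z] [Finite (IsLocalRing.ResidueField Z)]
    [CharZero Z]
    (R : Type) [CommRing R] [Algebra Z R] [Module.Finite Z R] [Module.IsTorsionFree Z R]
    (k₀ : Type) [Field k₀] [IsAlgClosed k₀] (ψ : R →+* k₀)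
    (hψ : ∀ a ∈ IsLocalRing.maximalIdeal Z, ψ (algebraMap Z R a) = 0) :
    ∃ (𝒪' : Type) (_ : CommRing 𝒪') (_ : IsDomain 𝒪') (_ : IsDiscreteValuationRing 𝒪')
      (_ : IsAdicComplete (IsLocalRing.maximalIdeal 𝒪') 𝒪')
      (_ : Finite (IsLocalRing.ResidueField 𝒪')) (_ : CharZero 𝒪'),
      ∃ (χ : R →+* 𝒪') (j : IsLocalRing.ResidueField 𝒪' →+* k₀),
        (∀ a ∈ IsLocalRing.maximalIdeal Z, χ (algebraMap Z R a) ∈ IsLocalRing.maximalIdeal 𝒪') ∧
        ∀ t, j (IsLocalRing.residue 𝒪' (χ t)) = ψ t := by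
  classical
  have hmprime : (RingHom.ker ψ).IsPrime := RingHom.ker_isPrime ψ
  obtain ⟨q, hq, hqm⟩ := Ideal.exists_minimalPrimes_le (I := ⊥) (J := RingHom.ker ψ) bot_le
  have hqprime : q.IsPrime := hq.1.1
  have hnq : ∀ a : Z, a ≠ 0 → algebraMap Z R a ∉ q := by
    intro a ha hmem
    have hnzd : algebraMap Z R a ∈ nonZeroDivisors R := by
      rw [mem_nonZeroDivisors_iff_right]
      intro x hx
      have : a • x = 0 := by rw [Algebra.smul_def, mul_comm]; exact hx
      exact (smul_eq_zero.mp this).resolve_left ha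
    exact Set.disjoint_left.mp (Ideal.disjoint_nonZeroDivisors_of_mem_minimalPrimes hq) hmem hnzd
  have hinj : Function.Injective (algebraMap Z (R ⧸ q)) := by
    rw [injective_iff_map_eq_zero]
    intro a ha
    by_contra hne
    apply hnq a hne
    rw [IsScalarTower.algebraMap_apply Z R (R ⧸ q)] at ha
    exact Ideal.Quotient.eq_zero_iff_mem.mp ha
  obtain ⟨O, i1, i2, i3, i4, i5, i6, i7, i8, i9, ι, hι, hιa⟩ :=
    PadicLift_exists_dvr Z (R ⧸ q) hinj
  refine ⟨O, i1, i2, i3, i4, i5, i6, ?_⟩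
  let χ : R →+* O := ι.comp (Ideal.Quotient.mk q)
  have hχa : ∀ a : Z, χ (algebraMap Z R a) = algebraMap Z O a := by
    intro a
    rw [← hιa]
    rfl
  have hχmax : ∀ a ∈ IsLocalRing.maximalIdeal Z, χ (algebraMap Z R a) ∈ IsLocalRing.maximalIdeal O := by
    intro a ha
    rw [hχa]
    rw [IsLocalRing.mem_maximalIdeal, mem_nonunits_iff] at ha ⊢
    exact fun h => ha (isUnit_of_map_unit (algebraMap Z O) a h)
  -- lying over
  let _ : Algebra R O := χ.toAlgebra
  have htower : IsScalarTower Z R O := IsScalarTower.of_algebraMap_eq (fun a => (hχa a).symm)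
  have : Algebra.IsIntegral Z O := Algebra.IsIntegral.of_finite Z O
  have hint : Algebra.IsIntegral R O := Algebra.IsIntegral.tower_top (R := Z)
  have hker : Ideal.comap (algebraMap R O) ⊥ ≤ RingHom.ker ψ := by
    intro x hx
    apply hqm
    have hx' : ι (Ideal.Quotient.mk q x) = 0 := hx
    rw [map_eq_zero_iff ι hι] at hx'
    exact Ideal.Quotient.eq_zero_iff_mem.mp hx'
  obtain ⟨Q, -, hQprime, hQ⟩ :=
    Ideal.exists_ideal_over_prime_of_isIntegral (RingHom.ker ψ) (⊥ : Ideal O) hker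
  obtain ⟨ϖ, hϖ⟩ := IsDiscreteValuationRing.exists_irreducible Z
  have hϖmem : ϖ ∈ IsLocalRing.maximalIdeal Z := by
    rw [IsLocalRing.mem_maximalIdeal, mem_nonunits_iff]
    exact hϖ.not_isUnit
  have hQne : Q ≠ ⊥ := by
    intro hQbot
    have h1 : algebraMap Z R ϖ ∈ Ideal.comap (algebraMap R O) Q := by
      rw [hQ]
      exact hψ ϖ hϖmem
    rw [hQbot] at h1
    have h2 : χ (algebraMap Z R ϖ) = 0 := h1
    have h3 : ι (Ideal.Quotient.mk q (algebraMap Z R ϖ)) = 0 := h2
    rw [map_eq_zero_iff ι hι] at h3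
    exact hnq ϖ hϖ.ne_zero (Ideal.Quotient.eq_zero_iff_mem.mp h3)
  have hQmax : Q = IsLocalRing.maximalIdeal O :=
    IsLocalRing.eq_maximalIdeal (hQprime.isMaximal hQne)
  have hcomap : Ideal.comap χ (IsLocalRing.maximalIdeal O) = RingHom.ker ψ := by
    rw [← hQmax]; exact hQ
  -- residue fields
  let f₂ : (R ⧸ RingHom.ker ψ) →+* IsLocalRing.ResidueField O :=
    Ideal.quotientMap (IsLocalRing.maximalIdeal O) χ (le_of_eq hcomap.symm)
  have hf₂ : Function.Injective f₂ := Ideal.quotientMap_injective' (le_of_eq hcomap)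
  let _ : Algebra (R ⧸ RingHom.ker ψ) (IsLocalRing.ResidueField O) := f₂.toAlgebra
  let _ : Algebra (R ⧸ RingHom.ker ψ) k₀ := (RingHom.kerLift ψ).toAlgebra
  have : IsDomain (R ⧸ RingHom.ker ψ) := Ideal.Quotient.isDomain _
  have t1 : Module.IsTorsionFree (R ⧸ RingHom.ker ψ) (IsLocalRing.ResidueField O) :=
    Module.isTorsionFree_iff_algebraMap_injective.mpr hf₂
  have t2 : Module.IsTorsionFree (R ⧸ RingHom.ker ψ) k₀ :=
    Module.isTorsionFree_iff_algebraMap_injective.mpr (RingHom.kerLift_injective ψ)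
  have : Module.Finite (R ⧸ RingHom.ker ψ) (IsLocalRing.ResidueField O) := Module.Finite.of_finite
  have : Algebra.IsIntegral (R ⧸ RingHom.ker ψ) (IsLocalRing.ResidueField O) :=
    Algebra.IsIntegral.of_finite _ _
  have : Algebra.IsAlgebraic (R ⧸ RingHom.ker ψ) (IsLocalRing.ResidueField O) := inferInstance
  let j : IsLocalRing.ResidueField O →ₐ[R ⧸ RingHom.ker ψ] k₀ := IsAlgClosed.lift
  refine ⟨χ, j.toRingHom, hχmax, ?_⟩
  intro t
  have h1 : IsLocalRing.residue O (χ t) =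
      algebraMap (R ⧸ RingHom.ker ψ) (IsLocalRing.ResidueField O) (Ideal.Quotient.mk _ t) := rfl
  rw [h1]
  have h2 := j.commutes (Ideal.Quotient.mk _ t)
  exact h2

/-- PIECE H-LIFT (Deligne–Serre lifting, `p`-adic form). -/
theorem exists_padic_lift (𝕋 : Type) [CommRing 𝕋] [Module.Finite ℤ 𝕋] [IsAddTorsionFree 𝕋]
    (p : ℕ) [Fact p.Prime] (k₀ : Type) [Field k₀] [CharP k₀ p] [IsAlgClosed k₀]
    (χbar : 𝕋 →+* k₀) :
    ∃ (𝒪' : Type) (_ : CommRing 𝒪') (_ : IsDomain 𝒪') (_ : IsDiscreteValuationRing 𝒪')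
      (_ : IsAdicComplete (IsLocalRing.maximalIdeal 𝒪') 𝒪')
      (_ : Finite (IsLocalRing.ResidueField 𝒪')) (_ : CharZero 𝒪'),
      (p : 𝒪') ∈ IsLocalRing.maximalIdeal 𝒪' ∧
      ∃ (χ : 𝕋 →+* 𝒪') (j : IsLocalRing.ResidueField 𝒪' →+* k₀),
        ∀ t, j (IsLocalRing.residue 𝒪' (χ t)) = χbar t := by
  classical
  have : Finite (IsLocalRing.ResidueField ℤ_[p]) :=
    Finite.of_equiv _ (PadicInt.residueField (p := p)).symm.toEquiv
  have : Module.Free ℤ 𝕋 := inferInstance
  let f₀ : ℤ_[p] →+* k₀ := (ZMod.castHom (dvd_refl p) k₀).comp PadicInt.toZMod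
  let ψ : (ℤ_[p] ⊗[ℤ] 𝕋) →+* k₀ :=
    (Algebra.TensorProduct.productMap f₀.toIntAlgHom χbar.toIntAlgHom).toRingHom
  have hψl : ∀ a : ℤ_[p], ψ (algebraMap ℤ_[p] (ℤ_[p] ⊗[ℤ] 𝕋) a) = f₀ a := by
    intro a
    simp [ψ, Algebra.TensorProduct.algebraMap_apply]
  have hψr : ∀ t : 𝕋, ψ (1 ⊗ₜ t) = χbar t := by
    intro t
    simp [ψ]
  have hψ : ∀ a ∈ IsLocalRing.maximalIdeal ℤ_[p], ψ (algebraMap ℤ_[p] (ℤ_[p] ⊗[ℤ] 𝕋) a) = 0 := by
    intro a ha
    rw [hψl]
    have : PadicInt.toZMod a = 0 := by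
      rw [← RingHom.mem_ker, PadicInt.ker_toZMod]
      exact ha
    simp [f₀, this]
  obtain ⟨O, i1, i2, i3, i4, i5, i6, χ, j, hmax, hj⟩ :=
    PadicLift_aux ℤ_[p] (ℤ_[p] ⊗[ℤ] 𝕋) k₀ ψ hψ
  refine ⟨O, i1, i2, i3, i4, i5, i6, ?_, χ.comp Algebra.TensorProduct.includeRight.toRingHom, j, ?_⟩
  · have hp : (p : ℤ_[p]) ∈ IsLocalRing.maximalIdeal ℤ_[p] := by
      rw [PadicInt.maximalIdeal_eq_span_p]
      exact Ideal.mem_span_singleton_self _
    have := hmax _ hp
    simpa using this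
  · intro t
    have := hj (1 ⊗ₜ t)
    rw [hψr] at this
    exact this

end Fermat.Agent.GR.H
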