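import Mathlib

/-! # GR-H, pieces H-RES, H-ACL, H-MAX : three field-theory lemmas -/

set_option autoImplicit false

namespace Fermat.Agent.GR.H

open Polynomial

/-- PIECE H-RES. Extending an embedding of residue fields. -/
theorem exists_residue_extension (𝒪' 𝒪'' : Type) [CommRing 𝒪'] [IsLocalRing 𝒪'] [CommRing 𝒪'']
    [IsLocalRing 𝒪''] [Algebra 𝒪' 𝒪''] [Module.Finite 𝒪' 𝒪''] [IsLocalHom (algebraMap 𝒪' 𝒪'')]
    (k₀ : Type) [Field k₀] [IsAlgClosed k₀] (j : IsLocalRing.ResidueField 𝒪' →+* k₀) :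
    ∃ j'' : IsLocalRing.ResidueField 𝒪'' →+* k₀,
      ∀ a : 𝒪', j'' (IsLocalRing.residue 𝒪'' (algebraMap 𝒪' 𝒪'' a)) =
        j (IsLocalRing.residue 𝒪' a) := by
  let _ : Algebra (IsLocalRing.ResidueField 𝒪') k₀ := j.toAlgebra
  have : Algebra.IsAlgebraic (IsLocalRing.ResidueField 𝒪') (IsLocalRing.ResidueField 𝒪'') :=
    Algebra.IsAlgebraic.of_finite _ _
  let f : IsLocalRing.ResidueField 𝒪'' →ₐ[IsLocalRing.ResidueField 𝒪'] k₀ := IsAlgClosed.lift
  refine ⟨f.toRingHom, fun a => ?_⟩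
  have h : IsLocalRing.residue 𝒪'' (algebraMap 𝒪' 𝒪'' a) =
      algebraMap (IsLocalRing.ResidueField 𝒪') (IsLocalRing.ResidueField 𝒪'')
        (IsLocalRing.residue 𝒪' a) := rfl
  rw [h]
  exact f.commutes _

/-- PIECE H-ACL. The residue fields of `ℤ̄` are algebraically closed. -/
theorem isAlgClosed_quotient (P : Ideal (integralClosure ℤ ℂ)) [P.IsMaximal] :
    @IsAlgClosed (integralClosure ℤ ℂ ⧸ P) (Ideal.Quotient.field P) := by
  let _ := Ideal.Quotient.field P
  refine IsAlgClosed.of_exists_root _ fun f hf hirr => ?_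
  have hlift : f ∈ Polynomial.lifts (Ideal.Quotient.mk P) := by
    rw [Polynomial.lifts_iff_coeff_lifts]
    intro n
    exact Ideal.Quotient.mk_surjective _
  obtain ⟨g, hg, hgd, hgm⟩ := Polynomial.lifts_and_degree_eq_and_monic hlift hf
  have hdeg : (g.map (algebraMap (integralClosure ℤ ℂ) ℂ)).degree ≠ 0 := by
    rw [hgm.degree_map, hgd]
    exact hirr.degree_pos.ne'
  obtain ⟨z, hz⟩ := IsAlgClosed.exists_root _ hdeg
  have hz1 : IsIntegral (integralClosure ℤ ℂ) z := ⟨g, hgm, by rwa [eval₂_eq_eval_map]⟩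
  have hz2 : IsIntegral ℤ z := isIntegral_trans z hz1
  obtain ⟨x, hx⟩ : ∃ x : integralClosure ℤ ℂ, algebraMap (integralClosure ℤ ℂ) ℂ x = z :=
    ⟨⟨z, hz2⟩, rfl⟩
  refine ⟨Ideal.Quotient.mk P x, ?_⟩
  have h0 : g.eval x = 0 := by
    apply FaithfulSMul.algebraMap_injective (integralClosure ℤ ℂ) ℂ
    rw [map_zero, ← eval₂_at_apply, hx, ← eval_map]
    exact hz
  rw [← hg, eval_map, eval₂_at_apply, h0, map_zero]

/-- PIECE H-MAX. Nonzero primes of `ℤ̄` are maximal (here: kernels of maps to fields of positive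
characteristic). -/
theorem ker_isMaximal {k : Type} [Field k] (p : ℕ) [Fact p.Prime] [CharP k p]
    (φ : integralClosure ℤ ℂ →+* k) : (RingHom.ker φ).IsMaximal := by
  have hprime : (RingHom.ker φ).IsPrime := RingHom.ker_isPrime φ
  refine Ideal.isMaximal_of_isIntegral_of_isMaximal_comap (R := ℤ) _ ?_
  have h1 : (RingHom.ker φ).comap (algebraMap ℤ (integralClosure ℤ ℂ)) =
      Ideal.span {(p : ℤ)} := by
    rw [← CharP.ker_intAlgebraMap_eq_span (R := k) p]
    ext n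
    simp [RingHom.mem_ker]
  rw [h1]
  exact PrincipalIdealRing.isMaximal_of_irreducible
    (Nat.prime_iff_prime_int.mp (Fact.out : p.Prime)).irreducible

end Fermat.Agent.GR.H
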