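import Fermat.Agent.GR.H.Iface
import Fermat.Agent.S22

/-! # GR-H, piece H-RANK : the rank of an eigenspace does not depend on the coefficient domain -/

set_option autoImplicit false

open scoped TensorProduct

namespace Fermat.Agent.GR.H

section General

variable {Λ : Type} [AddCommGroup Λ]

/-- the operator `A i ⊗ R - c i`. -/
noncomputable def Rank_fam {ι : Type} (A : ι → Module.End ℤ Λ) (R : Type) [CommRing R] (c : ι → R) (i : ι) :
    R ⊗[ℤ] Λ →ₗ[R] R ⊗[ℤ] Λ := (A i).baseChange R - c i • LinearMap.id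

/-- common eigenspace of a family. -/
noncomputable def Rank_sol {ι : Type} (A : ι → Module.End ℤ Λ) (R : Type) [CommRing R] (c : ι → R) :
    Submodule R (R ⊗[ℤ] Λ) := ⨅ i, LinearMap.ker (Rank_fam A R c i)

theorem Rank_mem_sol {ι : Type} (A : ι → Module.End ℤ Λ) (R : Type) [CommRing R] (c : ι → R)
    (x : R ⊗[ℤ] Λ) : x ∈ Rank_sol A R c ↔ ∀ i, Rank_fam A R c i x = 0 := by
  simp [Rank_sol, Submodule.mem_iInf]

theorem Rank_sol_eq_ker {ι : Type} (A : ι → Module.End ℤ Λ) (R : Type) [CommRing R] (c : ι → R) :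
    Rank_sol A R c = LinearMap.ker (LinearMap.pi (Rank_fam A R c)) := by
  rw [LinearMap.ker_pi]; rfl

theorem Rank_cancel_fam {ι : Type} (A : ι → Module.End ℤ Λ) (R R' : Type) [CommRing R] [CommRing R']
    [Algebra R R'] (c : ι → R) (i : ι) (x : R' ⊗[R] (R ⊗[ℤ] Λ)) :
    TensorProduct.AlgebraTensorModule.cancelBaseChange ℤ R R' R' Λ
      ((Rank_fam A R c i).baseChange R' x) =
    Rank_fam A R' (fun j => algebraMap R R' (c j)) i
      (TensorProduct.AlgebraTensorModule.cancelBaseChange ℤ R R' R' Λ x) := by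
  induction x using TensorProduct.induction_on with
  | zero => simp
  | add x y hx hy => simp only [map_add, hx, hy]
  | tmul r' y =>
    induction y using TensorProduct.induction_on with
    | zero => simp
    | add x y hx hy => simp only [TensorProduct.tmul_add, map_add, hx, hy]
    | tmul r l =>
      simp only [Rank_fam, LinearMap.baseChange_tmul, LinearMap.sub_apply, LinearMap.smul_apply,
        LinearMap.id_apply, TensorProduct.tmul_sub, map_sub,
        TensorProduct.AlgebraTensorModule.cancelBaseChange_tmul, TensorProduct.smul_tmul',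
        smul_eq_mul]
      congr 2
      simp [Algebra.smul_def, mul_assoc]

theorem Rank_piRight {ι : Type} [Fintype ι] [DecidableEq ι] (R R' : Type) [CommRing R] [CommRing R']
    [Algebra R R'] {M : Type} [AddCommGroup M] [Module R M] (F : ι → M →ₗ[R] M)
    (x : R' ⊗[R] M) (i : ι) :
    TensorProduct.piRight R R' R' (fun _ : ι => M) ((LinearMap.pi F).baseChange R' x) i =
      (F i).baseChange R' x := by
  induction x using TensorProduct.induction_on with
  | zero => simp
  | add x y hx hy => simp only [map_add, Pi.add_apply, hx, hy]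
  | tmul r' y => simp

theorem Rank_baseChange_pi_eq_zero_iff {ι : Type} [Finite ι] (R R' : Type) [CommRing R] [CommRing R']
    [Algebra R R'] {M : Type} [AddCommGroup M] [Module R M] (F : ι → M →ₗ[R] M)
    (x : R' ⊗[R] M) :
    (LinearMap.pi F).baseChange R' x = 0 ↔ ∀ i, (F i).baseChange R' x = 0 := by
  classical
  cases nonempty_fintype ι
  rw [← (TensorProduct.piRight R R' R' (fun _ : ι => M)).map_eq_zero_iff, funext_iff]
  simp only [Rank_piRight, Pi.zero_apply]

theorem Rank_finrank_sol_baseChange {ι : Type} [Finite ι] (A : ι → Module.End ℤ Λ)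
    (R R' : Type) [CommRing R] [CommRing R'] [Nontrivial R] [Nontrivial R'] [Algebra R R']
    [Module.Flat R R']
    (c : ι → R) [Module.Free R (Rank_sol A R c)] :
    Module.finrank R' (Rank_sol A R' (fun j => algebraMap R R' (c j))) =
      Module.finrank R (Rank_sol A R c) := by
  set e := TensorProduct.AlgebraTensorModule.cancelBaseChange ℤ R R' R' Λ with he
  set Φ := LinearMap.pi (Rank_fam A R c) with hΦ
  have hmap : (LinearMap.ker (Φ.baseChange R')).map e.toLinearMap =
      Rank_sol A R' (fun j => algebraMap R R' (c j)) := by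
    ext y
    rw [Submodule.mem_map_equiv, LinearMap.mem_ker, Rank_baseChange_pi_eq_zero_iff, Rank_mem_sol]
    refine forall_congr' fun i => ?_
    rw [← e.map_eq_zero_iff, Rank_cancel_fam, LinearEquiv.apply_symm_apply]
  have e1 : LinearMap.ker (Φ.baseChange R') ≃ₗ[R'] Rank_sol A R' (fun j => algebraMap R R' (c j)) :=
    LinearEquiv.ofSubmodules e _ _ hmap
  have e2 : R' ⊗[R] LinearMap.ker Φ ≃ₗ[R'] LinearMap.ker (Φ.baseChange R') :=
    LinearMap.tensorKerEquiv R' R' Φ
  have hfree : Module.Free R (LinearMap.ker Φ) := by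
    rw [hΦ, ← Rank_sol_eq_ker]; infer_instance
  rw [← e1.finrank_eq, ← e2.finrank_eq, Module.finrank_baseChange, hΦ, ← Rank_sol_eq_ker]

end General

section Eigen

variable {𝕋 Λ : Type} [CommRing 𝕋] [AddCommGroup Λ]

theorem Rank_eigenSub_eq_sol (hecke : 𝕋 →+* Module.End ℤ Λ) {r : ℕ} (g : Fin r → 𝕋)
    (hg : Submodule.span ℤ (Set.range g) = ⊤) (R : Type) [CommRing R] (lam : 𝕋 →+* R) :
    eigenSub hecke R lam = Rank_sol (fun i => hecke (g i)) R (fun i => lam (g i)) := by
  apply le_antisymm
  · exact le_iInf fun i => iInf_le _ (g i)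
  · intro x hx
    rw [Rank_mem_sol] at hx
    rw [eigenSub, Submodule.mem_iInf]
    intro t
    rw [LinearMap.mem_ker]
    have ht : t ∈ Submodule.span ℤ (Set.range g) := hg ▸ Submodule.mem_top
    induction ht using Submodule.span_induction with
    | mem t ht =>
      obtain ⟨i, rfl⟩ := ht
      exact hx i
    | zero => simp
    | add a b _ _ ha hb =>
      simp only [map_add, LinearMap.baseChange_add, LinearMap.sub_apply, LinearMap.add_apply,
        LinearMap.smul_apply, LinearMap.id_apply, add_smul, sub_eq_zero] at ha hb ⊢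
      rw [ha, hb]
    | smul n a _ ha =>
      simp only [map_zsmul, LinearMap.baseChange_smul, LinearMap.sub_apply,
        LinearMap.smul_apply, LinearMap.id_apply, smul_assoc, sub_eq_zero] at ha ⊢
      rw [ha]

theorem Rank_eigenSubSign_eq_sol (hecke : 𝕋 →+* Module.End ℤ Λ) (conj : Module.End ℤ Λ)
    {r : ℕ} (g : Fin r → 𝕋)
    (hg : Submodule.span ℤ (Set.range g) = ⊤) (R : Type) [CommRing R] (lam : 𝕋 →+* R) (s : ℤˣ) :
    eigenSubSign hecke conj R lam s =
      Rank_sol (fun i : Option (Fin r) => i.elim conj (fun i => hecke (g i))) R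
        (fun i : Option (Fin r) => i.elim (((s : ℤ) : R)) (fun i => lam (g i))) := by
  rw [eigenSubSign, Rank_eigenSub_eq_sol hecke g hg, Rank_sol, Rank_sol, iInf_option, inf_comm]
  rfl

theorem Rank_finrank_eigenSubSign_baseChange [Module.Finite ℤ 𝕋] [Module.Free ℤ Λ]
    [Module.Finite ℤ Λ] (hecke : 𝕋 →+* Module.End ℤ Λ) (conj : Module.End ℤ Λ)
    (R R' : Type) [CommRing R] [IsDomain R] [IsPrincipalIdealRing R] [CommRing R'] [Nontrivial R']
    [Algebra R R'] [Module.Flat R R'] (lam : 𝕋 →+* R) (lam' : 𝕋 →+* R')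
    (h : ∀ t, lam' t = algebraMap R R' (lam t)) (s : ℤˣ) :
    Module.finrank R' (eigenSubSign hecke conj R' lam' s) =
      Module.finrank R (eigenSubSign hecke conj R lam s) := by
  obtain ⟨r, g, hg⟩ := Module.Finite.exists_fin (R := ℤ) (M := 𝕋)
  have hc : (fun i : Option (Fin r) => i.elim (((s : ℤ) : R')) (fun i => lam' (g i))) =
      fun j : Option (Fin r) => algebraMap R R' (j.elim (((s : ℤ) : R)) (fun i => lam (g i))) := by
    funext i
    cases i with
    | none => simp
    | some i => simp [h]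
  rw [Rank_eigenSubSign_eq_sol hecke conj g hg, Rank_eigenSubSign_eq_sol hecke conj g hg,
    ← Rank_finrank_sol_baseChange _ R R', hc]

theorem Rank_finrank_eigenSub_baseChange [Module.Finite ℤ 𝕋] [Module.Free ℤ Λ]
    [Module.Finite ℤ Λ] (hecke : 𝕋 →+* Module.End ℤ Λ)
    (R R' : Type) [CommRing R] [IsDomain R] [IsPrincipalIdealRing R] [CommRing R'] [Nontrivial R']
    [Algebra R R'] [Module.Flat R R'] (lam : 𝕋 →+* R) (lam' : 𝕋 →+* R')
    (h : ∀ t, lam' t = algebraMap R R' (lam t)) :
    Module.finrank R' (eigenSub hecke R' lam') =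
      Module.finrank R (eigenSub hecke R lam) := by
  obtain ⟨r, g, hg⟩ := Module.Finite.exists_fin (R := ℤ) (M := 𝕋)
  have hc : (fun i : Fin r => lam' (g i)) = fun j : Fin r => algebraMap R R' (lam (g j)) := by
    funext i
    simp [h]
  rw [Rank_eigenSub_eq_sol hecke g hg, Rank_eigenSub_eq_sol hecke g hg,
    ← Rank_finrank_sol_baseChange _ R R', hc]

end Eigen

variable {N : ℕ} [NeZero N] {p : ℕ}

theorem Rank_finrank_eigenSubSign_field (D : TateData N p) (Ω : Type) [Field Ω] [CharZero Ω]
    (lamΩ : HeckeFull N →+* Ω) (s : ℤˣ) :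
    Module.finrank Ω (eigenSubSign D.hecke D.conj Ω lamΩ s) = 1 := by
  have : Module.Finite ℤ (HeckeFull N) := Fermat.Agent.S22.result N 2 ∅
  let E : IntermediateField ℚ Ω := IntermediateField.adjoin ℚ (Set.range lamΩ)
  have hint : ∀ t, IsIntegral ℤ (lamΩ t) := fun t =>
    (Algebra.IsIntegral.isIntegral (R := ℤ) t).map lamΩ.toIntAlgHom
  have : Algebra.IsAlgebraic ℚ E := by
    apply IntermediateField.isAlgebraic_adjoin
    rintro _ ⟨t, rfl⟩
    exact (hint t).tower_top
  let lamE : HeckeFull N →+* E :=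
    lamΩ.codRestrict E (fun t => IntermediateField.subset_adjoin ℚ _ ⟨t, rfl⟩)
  let ι : E →ₐ[ℚ] ℂ := IsAlgClosed.lift
  let _ : Algebra E ℂ := ι.toRingHom.toAlgebra
  let μ : HeckeFull N →+* ℂ := ι.toRingHom.comp lamE
  have h2 := Rank_finrank_eigenSubSign_baseChange D.hecke D.conj E Ω lamE lamΩ (fun _ => rfl) s
  have h3 := Rank_finrank_eigenSubSign_baseChange D.hecke D.conj E ℂ lamE μ (fun _ => rfl) s
  rw [h2, ← h3]
  exact D.eigen_dim μ s

/-- PIECE H-RANK-1. -/
theorem finrank_eigenSubSign (D : TateData N p) (R : Type) [CommRing R] [IsDomain R]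
    [IsPrincipalIdealRing R] [CharZero R] (lam : HeckeFull N →+* R) (s : ℤˣ) :
    Module.finrank R (eigenSubSign D.hecke D.conj R lam s) = 1 := by
  have : Module.Finite ℤ (HeckeFull N) := Fermat.Agent.S22.result N 2 ∅
  have : CharZero (FractionRing R) :=
    charZero_of_injective_algebraMap (IsFractionRing.injective R (FractionRing R))
  have h1 := Rank_finrank_eigenSubSign_baseChange D.hecke D.conj R (FractionRing R) lam
    ((algebraMap R (FractionRing R)).comp lam) (fun _ => rfl) s
  rw [← h1]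
  exact Rank_finrank_eigenSubSign_field D _ _ s

theorem Rank_mem_eigenSub {𝕋 Λ : Type} [CommRing 𝕋] [AddCommGroup Λ]
    (hecke : 𝕋 →+* Module.End ℤ Λ) (R : Type) [CommRing R] (lam : 𝕋 →+* R) (x : R ⊗[ℤ] Λ) :
    x ∈ eigenSub hecke R lam ↔ ∀ t, (hecke t).baseChange R x = lam t • x := by
  simp [eigenSub, Submodule.mem_iInf, sub_eq_zero]

theorem Rank_mem_eigenSubSign {𝕋 Λ : Type} [CommRing 𝕋] [AddCommGroup Λ]
    (hecke : 𝕋 →+* Module.End ℤ Λ) (conj : Module.End ℤ Λ) (R : Type) [CommRing R]
    (lam : 𝕋 →+* R) (s : ℤˣ) (x : R ⊗[ℤ] Λ) :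
    x ∈ eigenSubSign hecke conj R lam s ↔
      x ∈ eigenSub hecke R lam ∧ conj.baseChange R x = (((s : ℤ) : R)) • x := by
  simp [eigenSubSign, sub_eq_zero]

theorem Rank_finrank_eigenSub_field (D : TateData N p) (Ω : Type) [Field Ω] [CharZero Ω]
    (lam : HeckeFull N →+* Ω) :
    Module.finrank Ω (eigenSub D.hecke Ω lam) = 2 := by
  set V := eigenSub D.hecke Ω lam with hV
  set c := D.conj.baseChange Ω with hc
  have hcc : ∀ x, c (c x) = x := by
    intro x
    have h : c ∘ₗ c = LinearMap.id := by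
      rw [hc, ← LinearMap.baseChange_comp, ← Module.End.mul_eq_comp, D.conj_mul_conj,
        Module.End.one_eq_id, LinearMap.baseChange_id]
    exact LinearMap.congr_fun h x
  have hct : ∀ t x, c ((D.hecke t).baseChange Ω x) = (D.hecke t).baseChange Ω (c x) := by
    intro t x
    have h : c ∘ₗ (D.hecke t).baseChange Ω = (D.hecke t).baseChange Ω ∘ₗ c := by
      rw [hc, ← LinearMap.baseChange_comp, ← LinearMap.baseChange_comp, ← Module.End.mul_eq_comp,
        ← Module.End.mul_eq_comp, D.conj_comm]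
    exact LinearMap.congr_fun h x
  have hcV : ∀ x ∈ V, c x ∈ V := by
    intro x hx
    rw [hV, Rank_mem_eigenSub] at hx ⊢
    intro t
    rw [← hct, hx t, map_smul]
  have hsup : eigenSubSign D.hecke D.conj Ω lam 1 ⊔ eigenSubSign D.hecke D.conj Ω lam (-1) = V := by
    apply le_antisymm
    · exact sup_le inf_le_left inf_le_left
    · intro x hx
      have hx1 : x + c x ∈ eigenSubSign D.hecke D.conj Ω lam 1 := by
        rw [Rank_mem_eigenSubSign]
        refine ⟨V.add_mem hx (hcV x hx), ?_⟩
        rw [← hc, map_add, hcc]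
        simp [add_comm]
      have hx2 : x - c x ∈ eigenSubSign D.hecke D.conj Ω lam (-1) := by
        rw [Rank_mem_eigenSubSign]
        refine ⟨V.sub_mem hx (hcV x hx), ?_⟩
        rw [← hc, map_sub, hcc]
        simp
      have hx3 : x = (2 : Ω)⁻¹ • (x + c x) + (2 : Ω)⁻¹ • (x - c x) := by
        rw [← smul_add, add_add_sub_cancel, ← two_smul Ω x, smul_smul,
          inv_mul_cancel₀ (two_ne_zero), one_smul]
      rw [hx3]
      exact Submodule.add_mem_sup (Submodule.smul_mem _ _ hx1) (Submodule.smul_mem _ _ hx2)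
  have hinf : eigenSubSign D.hecke D.conj Ω lam 1 ⊓ eigenSubSign D.hecke D.conj Ω lam (-1) = ⊥ := by
    rw [eq_bot_iff]
    rintro x ⟨h1, h2⟩
    rw [SetLike.mem_coe, Rank_mem_eigenSubSign] at h1 h2
    have h3 : (2 : Ω) • x = 0 := by
      have h4 := h1.2.symm.trans h2.2
      simp only [Units.val_one, Int.cast_one, one_smul, Units.val_neg, Int.cast_neg, neg_smul] at h4
      rw [two_smul]
      nth_rewrite 1 [h4]
      simp
    simpa using h3
  have key := Submodule.finrank_sup_add_finrank_inf_eq (eigenSubSign D.hecke D.conj Ω lam 1)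
    (eigenSubSign D.hecke D.conj Ω lam (-1))
  rw [hsup, hinf, finrank_bot, Rank_finrank_eigenSubSign_field, Rank_finrank_eigenSubSign_field] at key
  simpa using key

/-- PIECE H-RANK-2. -/
theorem finrank_eigenSub (D : TateData N p) (R : Type) [CommRing R] [IsDomain R]
    [IsPrincipalIdealRing R] [CharZero R] (lam : HeckeFull N →+* R) :
    Module.finrank R (eigenSub D.hecke R lam) = 2 := by
  have : Module.Finite ℤ (HeckeFull N) := Fermat.Agent.S22.result N 2 ∅
  have : CharZero (FractionRing R) :=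
    charZero_of_injective_algebraMap (IsFractionRing.injective R (FractionRing R))
  have h1 := Rank_finrank_eigenSub_baseChange D.hecke R (FractionRing R) lam
    ((algebraMap R (FractionRing R)).comp lam) (fun _ => rfl)
  rw [← h1]
  exact Rank_finrank_eigenSub_field D _ _

end Fermat.Agent.GR.H
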