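import Fermat.Agent.GR.H.S30Main
import Fermat.Agent.GR.H.EigenCharA
import Fermat.Agent.GR.H.PadicLiftA
import Fermat.Agent.GR.H.PadicLiftB

/-! # GR-H : S29 from S30 -/

set_option autoImplicit false
set_option linter.style.haveILetI false

open Polynomial

namespace Fermat.Agent.GR.H

/-- PIECE H-RED. Reduction of an adic representation and base change of the residue field. -/
theorem exists_reduction {𝒪 : Type} [CommRing 𝒪] [IsLocalRing 𝒪] (ρ : GaloisRepAdic 𝒪)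
    {k : Type} [Field k] (f : IsLocalRing.ResidueField 𝒪 →+* k) :
    ∃ ρbar : ResidualGaloisRep k,
      (∀ σ : GQ, LinearMap.charpoly (ρbar.ρ σ) =
        (LinearMap.charpoly (ρ.ρ σ)).map (f.comp (IsLocalRing.residue 𝒪))) ∧
      ∀ σ : GQ, ρ.ρ σ = 1 → ρbar.ρ σ = 1 := by
  letI : Algebra (IsLocalRing.ResidueField 𝒪) k := f.toAlgebra
  refine ⟨(ρ.residual).baseChange k, fun σ => ?_, fun σ hσ => ?_⟩
  · change LinearMap.charpoly
      (((ρ.ρ σ).baseChange (IsLocalRing.ResidueField 𝒪)).baseChange k) = _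
    rw [LinearMap.charpoly_baseChange, LinearMap.charpoly_baseChange, Polynomial.map_map]
    rfl
  · change ((ρ.ρ σ).baseChange (IsLocalRing.ResidueField 𝒪)).baseChange k = 1
    rw [hσ, LinearMap.baseChange_one, LinearMap.baseChange_one]

/-- The statement of S29. -/
def S29Statement : Prop :=
  ∀ {N : ℕ} {g : CuspForm (CongruenceSubgroup.Gamma0 N) 2} (_ : g.IsNormalizedEigenform)
    {p : ℕ} (_ : p.Prime) {k : Type} [Field k] [CharP k p]
    (φ : integralClosure ℤ ℂ →+* k),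
    ∃ ρ : ResidualGaloisRep k, ρ.IsAttachedTo g φ ∧
      ∀ ℓ : ℕ, ℓ.Prime → ¬ ℓ ∣ N * p → ρ.IsUnramifiedAt ℓ

/-- The trivial two-dimensional residual representation (used for the vacuous level `N = 0`). -/
noncomputable def S29Main_trivialRep (k : Type) [Field k] : ResidualGaloisRep k :=
  { V := Fin 2 → k
    finrank_eq := by simp
    ρ := 1
    factorsThroughFiniteLevel := ⟨⊥, inferInstance, fun _ _ => rfl⟩ }

/-- The core of S29: the level is nonzero and `φ` has been factored through an algebraically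
closed field `k₀` of characteristic `p`. -/
theorem S29Main_core (h30 : S30Statement) {N : ℕ} [NeZero N]
    {g : CuspForm (CongruenceSubgroup.Gamma0 N) 2} (hg : g.IsNormalizedEigenform)
    {p : ℕ} [Fact p.Prime] {k : Type} [Field k] [CharP k p]
    (φ : integralClosure ℤ ℂ →+* k)
    (k₀ : Type) [Field k₀] [CharP k₀ p] [IsAlgClosed k₀]
    (π : integralClosure ℤ ℂ →+* k₀) (ψ : k₀ →+* k) (hψ : ∀ a, ψ (π a) = φ a) :
    ∃ ρ : ResidualGaloisRep k, ρ.IsAttachedTo g φ ∧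
      ∀ ℓ : ℕ, ℓ.Prime → ¬ ℓ ∣ N * p → ρ.IsUnramifiedAt ℓ := by
  classical
  let S : Finset ℕ := insert p N.primeFactors
  have hpS : p ∈ S := Finset.mem_insert_self _ _
  have hNS : ∀ q : ℕ, q.Prime → q ∣ N → q ∈ S := fun q hq hqN =>
    Finset.mem_insert_of_mem (Nat.mem_primeFactors.mpr ⟨hq, hqN, NeZero.ne N⟩)
  obtain ⟨χ0, -, hχ0⟩ := exists_eigenchar hg (↑S : Set ℕ)
  haveI : Module.Finite ℤ (CuspForm.heckeAlgebra N 2 (↑S : Set ℕ)) :=
    Fermat.Agent.S22.result N 2 _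
  obtain ⟨𝒪', i1, i2, i3, i4, i5, i6, hp𝒪', χ, j, hj⟩ :=
    exists_padic_lift (CuspForm.heckeAlgebra N 2 (↑S : Set ℕ)) p k₀ (π.comp χ0)
  obtain ⟨𝒪'', e1, e2, e3, e4, e5, e6, e7, e8, e9, -, ρ, hρ, hur⟩ :=
    h30 p N S hpS hNS 𝒪' hp𝒪' χ
  obtain ⟨j'', hj''⟩ := exists_residue_extension 𝒪' 𝒪'' k₀ j
  obtain ⟨ρbar, hchar, hone⟩ := exists_reduction ρ (ψ.comp j'')
  refine ⟨ρbar, ?_, ?_⟩
  · intro ℓ hℓ hℓN hℓk A hA σ hσ
    have hℓp : ℓ ≠ p := by
      rintro rfl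
      exact hℓk (CharP.cast_eq_zero k ℓ)
    have hℓS : ℓ ∉ (↑S : Set ℕ) := by
      intro h
      rcases Finset.mem_insert.mp (Finset.mem_coe.mp h) with h | h
      · exact hℓp h
      · exact hℓN (Nat.dvd_of_mem_primeFactors h)
    refine ⟨χ0 (CuspForm.heckeAlgebra.T hℓ hℓN hℓS), hχ0 ℓ hℓ hℓN hℓS, ?_⟩
    have hval : (ψ.comp j'').comp (IsLocalRing.residue 𝒪'')
        (algebraMap 𝒪' 𝒪'' (χ (CuspForm.heckeAlgebra.T hℓ hℓN hℓS))) =
        φ (χ0 (CuspForm.heckeAlgebra.T hℓ hℓN hℓS)) := by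
      rw [RingHom.comp_apply, RingHom.comp_apply, hj'', hj, RingHom.comp_apply, hψ]
    rw [hchar, hρ ℓ hℓ hℓN hℓS A hA σ hσ]
    simp only [Polynomial.map_add, Polynomial.map_sub, Polynomial.map_mul, Polynomial.map_pow,
      Polynomial.map_X, Polynomial.map_C, map_natCast, Polynomial.map_natCast, hval]
  · intro ℓ hℓ hℓNp A hA σ hσ
    have hℓN : ¬ ℓ ∣ N := fun h => hℓNp (Dvd.dvd.mul_right h p)
    have hℓp : ℓ ≠ p := by
      rintro rfl
      exact hℓNp (dvd_mul_left _ _)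
    exact hone σ (hur ℓ hℓ hℓN hℓp A hA σ hσ)

/-- PIECE H-S29. -/
theorem S29_of (h30 : S30Statement) : S29Statement := by
  intro N g hg p hp k _ _ φ
  haveI : Fact p.Prime := ⟨hp⟩
  rcases Nat.eq_zero_or_pos N with rfl | hN
  · refine ⟨S29Main_trivialRep k, ?_, ?_⟩
    · intro ℓ _ hℓN
      exact absurd (dvd_zero ℓ) hℓN
    · intro ℓ _ hℓ
      exact absurd (by simp) hℓ
  · haveI : NeZero N := ⟨hN.ne'⟩
    haveI hmax : (RingHom.ker φ).IsMaximal := ker_isMaximal p φ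
    letI : Field (integralClosure ℤ ℂ ⧸ RingHom.ker φ) := Ideal.Quotient.field _
    haveI : IsAlgClosed (integralClosure ℤ ℂ ⧸ RingHom.ker φ) := isAlgClosed_quotient _
    haveI : CharP (integralClosure ℤ ℂ ⧸ RingHom.ker φ) p :=
      (RingHom.charP_iff (RingHom.kerLift φ) (RingHom.kerLift_injective φ) p).mpr inferInstance
    exact S29Main_core h30 hg φ (integralClosure ℤ ℂ ⧸ RingHom.ker φ)
      (Ideal.Quotient.mk _) (RingHom.kerLift φ) (fun a => RingHom.kerLift_mk φ a)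

end Fermat.Agent.GR.H
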