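import Fermat.Agent.GR.H.Lattice
import Fermat.Agent.GR.H.Rank
import Fermat.Agent.GR.H.Det
import Fermat.Agent.GR.H.ExtChar

/-! # GR-H : assembly of S30 from the interface -/

set_option autoImplicit false

open Polynomial
open scoped TensorProduct

namespace Fermat.Agent.GR.H

theorem mem_eigenSub {𝕋 Λ : Type} [CommRing 𝕋] [AddCommGroup Λ] (hecke : 𝕋 →+* Module.End ℤ Λ)
    (R : Type) [CommRing R] (lam : 𝕋 →+* R) (x : R ⊗[ℤ] Λ) :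
    x ∈ eigenSub hecke R lam ↔ ∀ t, (hecke t).baseChange R x = lam t • x := by
  simp [eigenSub, Submodule.mem_iInf, sub_eq_zero]

theorem mem_eigenSubSign {𝕋 Λ : Type} [CommRing 𝕋] [AddCommGroup Λ]
    (hecke : 𝕋 →+* Module.End ℤ Λ) (conj : Module.End ℤ Λ)
    (R : Type) [CommRing R] (lam : 𝕋 →+* R) (s : ℤˣ) (x : R ⊗[ℤ] Λ) :
    x ∈ eigenSubSign hecke conj R lam s ↔
      x ∈ eigenSub hecke R lam ∧ conj.baseChange R x = (((s : ℤ) : R)) • x := by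
  simp [eigenSubSign, sub_eq_zero]

theorem exists_ne_zero_of_finrank_eq_one {R M : Type} [CommRing R] [Nontrivial R]
    [AddCommGroup M] [Module R M]
    (W : Submodule R M) (h : Module.finrank R W = 1) : ∃ x ∈ W, x ≠ 0 := by
  by_contra hcon
  have hcon' : ∀ x ∈ W, x = 0 := fun x hx => by
    by_contra hx0
    exact hcon ⟨x, hx, hx0⟩
  have : W = ⊥ := (Submodule.eq_bot_iff W).mpr hcon'
  rw [this, finrank_bot] at h
  exact zero_ne_one h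

/-- The Galois representation attached to a character of the full Hecke algebra. -/
theorem exists_galoisRep (cheb : FrobeniusDensity) {N : ℕ} [NeZero N] {p : ℕ} [Fact p.Prime]
    (D : TateData N p) (𝒪 : Type) [CommRing 𝒪] [IsDomain 𝒪] [IsDiscreteValuationRing 𝒪]
    [IsAdicComplete (IsLocalRing.maximalIdeal 𝒪) 𝒪] [CharZero 𝒪]
    (hp : (p : 𝒪) ∈ IsLocalRing.maximalIdeal 𝒪) (lam : HeckeFull N →+* 𝒪) :
    ∃ ρ : GaloisRepAdic 𝒪,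
      (∀ (ℓ : ℕ) (hℓ : ℓ.Prime) (hℓN : ¬ ℓ ∣ N), ℓ ≠ p →
        ∀ A : ValuationSubring (AlgebraicClosure ℚ), A.LiesOverPrime ℓ →
          ∀ σ : GQ, A.IsFrobeniusAt σ ℓ →
            LinearMap.charpoly (ρ.ρ σ) =
              X ^ 2 - C (lam (HeckeFull.T hℓ hℓN)) * X + C ((ℓ : 𝒪))) ∧
      (∀ q : ℕ, q.Prime → ¬ q ∣ N → q ≠ p → ρ.IsUnramifiedAt q) := by
  classical
  have hpp : p.Prime := Fact.out
  have hp0 : (p : 𝒪) ≠ 0 := Nat.cast_ne_zero.mpr hpp.ne_zero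
  obtain ⟨B⟩ := exists_bigRep D 𝒪 hp
  obtain ⟨ρ, ι, hinj, hrange, hι⟩ :=
    exists_eigenRep D 𝒪 hp hp0 B lam (finrank_eigenSub D 𝒪 lam)
  have hmem : ∀ v, ι v ∈ eigenSub D.hecke 𝒪 lam := fun v => hrange ▸ LinearMap.mem_range_self ι v
  refine ⟨ρ, ?_, ?_⟩
  · -- characteristic polynomials
    let S : Finset ℕ := insert p N.primeFactors
    let a : ℕ → 𝒪 := fun ℓ => if h : ℓ.Prime ∧ ¬ ℓ ∣ N then lam (HeckeFull.T h.1 h.2) else 0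
    have hS : ∀ ℓ : ℕ, ℓ.Prime → (ℓ ∉ S ↔ ℓ ≠ p ∧ ¬ ℓ ∣ N) := by
      intro ℓ hℓ
      simp [S, Nat.mem_primeFactors, hℓ, NeZero.ne N, not_or]
    have hES : ∀ ℓ : ℕ, ℓ.Prime → ℓ ∉ S → ∀ A : ValuationSubring (AlgebraicClosure ℚ),
        A.LiesOverPrime ℓ → ∀ σ : GQ, A.IsFrobeniusAt σ ℓ →
          ρ.ρ σ * ρ.ρ σ - a ℓ • ρ.ρ σ + (ℓ : 𝒪) • 1 = 0 := by
      intro ℓ hℓ hℓS A hA σ hσ
      obtain ⟨hℓp, hℓN⟩ := (hS ℓ hℓ).mp hℓS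
      have ha : a ℓ = lam (HeckeFull.T hℓ hℓN) := by
        simp only [a]; rw [dif_pos ⟨hℓ, hℓN⟩]
      have hfrob := B.frob ℓ hℓ hℓN hℓp A hA σ hσ
      refine LinearMap.ext fun v => hinj ?_
      have h1 := LinearMap.congr_fun hfrob (ι v)
      have h2 := (mem_eigenSub D.hecke 𝒪 lam _).mp (hmem (ρ.ρ σ v)) (HeckeFull.T hℓ hℓN)
      simp only [LinearMap.add_apply, LinearMap.sub_apply, Module.End.mul_apply,
        LinearMap.smul_apply, Module.End.one_apply, LinearMap.zero_apply, map_add, map_sub,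
        map_smul, map_zero, hι, ha] at h1 h2 ⊢
      rw [h2] at h1
      exact h1
    have hc : ∃ (c : GQ) (x y : ρ.V), x ≠ 0 ∧ y ≠ 0 ∧ ρ.ρ c x = x ∧ ρ.ρ c y = -y := by
      obtain ⟨c, hc⟩ := B.conj
      obtain ⟨x', hx', hx0⟩ := exists_ne_zero_of_finrank_eq_one _ (finrank_eigenSubSign D 𝒪 lam 1)
      obtain ⟨y', hy', hy0⟩ :=
        exists_ne_zero_of_finrank_eq_one _ (finrank_eigenSubSign D 𝒪 lam (-1))
      rw [mem_eigenSubSign] at hx' hy'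
      obtain ⟨x, rfl⟩ : x' ∈ LinearMap.range ι := hrange ▸ hx'.1
      obtain ⟨y, rfl⟩ : y' ∈ LinearMap.range ι := hrange ▸ hy'.1
      refine ⟨c, x, y, fun h => hx0 (by rw [h, map_zero]), fun h => hy0 (by rw [h, map_zero]),
        hinj ?_, hinj ?_⟩
      · rw [hι, hc, hx'.2]; simp
      · rw [hι, hc, hy'.2]; simp
    intro ℓ hℓ hℓN hℓp A hA σ hσ
    have key := charpoly_frobenius cheb p 𝒪 hp ρ S (Finset.mem_insert_self _ _) a hES hc ℓ hℓ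
      ((hS ℓ hℓ).mpr ⟨hℓp, hℓN⟩) A hA σ hσ
    have ha : a ℓ = lam (HeckeFull.T hℓ hℓN) := by
      simp only [a]; rw [dif_pos ⟨hℓ, hℓN⟩]
    rw [key, ha]
  · intro q hq hqN hqp A hA σ hσ
    refine LinearMap.ext fun v => hinj ?_
    rw [hι, B.unram q hq hqN hqp A hA σ hσ]
    simp

/-- The statement of S30. -/
def S30Statement : Prop :=
    ∀ (p : ℕ) [Fact p.Prime] (N : ℕ) [NeZero N] (S : Finset ℕ)
      (_hpS : p ∈ S) (_hNS : ∀ q : ℕ, q.Prime → q ∣ N → q ∈ S)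
      (𝒪' : Type) [CommRing 𝒪'] [IsDomain 𝒪'] [IsDiscreteValuationRing 𝒪']
      [IsAdicComplete (IsLocalRing.maximalIdeal 𝒪') 𝒪'] [Finite (IsLocalRing.ResidueField 𝒪')]
      [CharZero 𝒪'] (_hp𝒪' : (p : 𝒪') ∈ IsLocalRing.maximalIdeal 𝒪')
      (χ : CuspForm.heckeAlgebra N 2 (↑S : Set ℕ) →+* 𝒪'),
      ∃ (𝒪'' : Type) (_ : CommRing 𝒪'') (_ : IsDomain 𝒪'') (_ : IsDiscreteValuationRing 𝒪'')
        (_ : IsAdicComplete (IsLocalRing.maximalIdeal 𝒪'') 𝒪'')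
        (_ : Finite (IsLocalRing.ResidueField 𝒪'')) (_ : CharZero 𝒪'')
        (_ : Algebra 𝒪' 𝒪'') (_ : Module.Finite 𝒪' 𝒪'') (_ : IsLocalHom (algebraMap 𝒪' 𝒪'')),
      Function.Injective (algebraMap 𝒪' 𝒪'') ∧
      ∃ ρ : GaloisRepAdic 𝒪'',
        (∀ (ℓ : ℕ) (hℓ : ℓ.Prime) (hℓN : ¬ ℓ ∣ N) (hℓS : ℓ ∉ (↑S : Set ℕ)),
          ∀ A : ValuationSubring (AlgebraicClosure ℚ), A.LiesOverPrime ℓ →
            ∀ σ : AlgebraicClosure ℚ ≃ₐ[ℚ] AlgebraicClosure ℚ, A.IsFrobeniusAt σ ℓ →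
              LinearMap.charpoly (ρ.ρ σ) =
                X ^ 2 - C (algebraMap 𝒪' 𝒪'' (χ (CuspForm.heckeAlgebra.T hℓ hℓN hℓS))) * X
                  + C ((ℓ : 𝒪''))) ∧
        (∀ q : ℕ, q.Prime → ¬ q ∣ N → q ≠ p → ρ.IsUnramifiedAt q)

/-- S30 from the two interfaces. -/
theorem S30_of (cheb : FrobeniusDensity)
    (tate : ∀ (N : ℕ) [NeZero N] (p : ℕ) [Fact p.Prime], Nonempty (TateData N p)) :
    S30Statement := by
  intro p _ N _ S hpS _ 𝒪' _ _ _ _ _ _ hp𝒪' χ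
  obtain ⟨D⟩ := tate N p
  obtain ⟨𝒪'', i1, i2, i3, i4, i5, i6, i7, i8, i9, hinj, lam, hlam⟩ :=
    exists_extension_char N (↑S : Set ℕ) 𝒪' χ
  refine ⟨𝒪'', i1, i2, i3, i4, i5, i6, i7, i8, i9, hinj, ?_⟩
  have hp : (p : 𝒪'') ∈ IsLocalRing.maximalIdeal 𝒪'' := by
    have h1 : algebraMap 𝒪' 𝒪'' (p : 𝒪') ∈ IsLocalRing.maximalIdeal 𝒪'' :=
      map_nonunit (algebraMap 𝒪' 𝒪'') _ hp𝒪'
    simpa using h1
  obtain ⟨ρ, h1, h2⟩ := exists_galoisRep cheb D 𝒪'' hp lam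
  refine ⟨ρ, ?_, h2⟩
  intro ℓ hℓ hℓN hℓS A hA σ hσ
  have hℓp : ℓ ≠ p := fun h => hℓS (by rw [h]; exact hpS)
  rw [h1 ℓ hℓ hℓN hℓp A hA σ hσ, ← hlam, heckeIncl_T]

end Fermat.Agent.GR.H
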